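import Fermat.Agent.RT.Lift.AtP.New
import Fermat.Agent.RT.Lift.LowerSq.Lifting
import Fermat.Agent.EichlerShimura.InjectiveProof
import Fermat.Agent.GaloisReps.OfInjective

/-!
# Eigen classes of level `p N` vanish after push forward unless `W` is modular of level `N`

Both push forwards commute with the Hecke operators at good primes; so either both kill an eigen
class of level `p N`, and then both norms of its Kummer functions are `p`-th powers, or `W` is
residually modular of level `N`.
-/

set_option autoImplicit false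
set_option synthInstance.maxHeartbeats 400000
set_option maxHeartbeats 1000000
set_option linter.unusedSectionVars false

noncomputable section

namespace Fermat.Agent.RT.Lift.LowerP

open AlgebraicCurve ModularCurve Fermat.Agent.Semistable Fermat.Agent.GaloisReps
open Fermat.Agent.RT.MazurP Fermat.Agent.RT.Lift.AtP
open Arith (QBar GQ)
open NewformLocal.Toric (normUp)

variable {p N : ℕ} [Fact p.Prime] [NeZero N]

/-- An equivariant map to level `N` kills the eigen classes, or `W` is residually modular of
level `N`. -/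
theorem eq_zero_or_modular {W : WeierstrassCurve ℤ} (π : JTors (p * N) p 1 →+ JTors N p 1)
    (hπ : ∀ σ w, π (galTors 1 σ w) = galTors 1 σ (π w)) (z : JTors (p * N) p 1)
    (he : IsEigen (p * N) (fun l => W.IsGoodPrimeFor l ∧ l ≠ p ∧ ¬ l ∣ p * N) W.apOfModel
      (z : JZero (p * N))) :
    π z = 0 ∨ W.IsResiduallyModularOfLevel p N := by
  have hp : p.Prime := Fact.out
  by_cases h0 : π z = 0
  · exact Or.inl h0
  refine Or.inr (LowerSq.isResiduallyModular_of_eigen (y := (π z : JZero N))
    (fun e => h0 (Subtype.ext e)) ?_ fun l hl hG => ?_)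
  · have h1 := (π z).2
    rw [Pic0.mem_torsion, pow_one, natCast_zsmul] at h1
    exact h1
  obtain ⟨hgood, hlp, hlN⟩ := hG
  have hl1 : ¬ l ∣ p * N := fun h => (hl.dvd_mul.mp h).elim
    (fun h => hlp ((Nat.prime_dvd_prime_iff_eq hl hp).mp h)) hlN
  have h2 : ∀ {K : ℕ}, ¬ l ∣ K → ¬ l ∣ K * p := fun {K} hK h => (hl.dvd_mul.mp h).elim hK
    fun h => hlp ((Nat.prime_dvd_prime_iff_eq hl hp).mp h)
  have hE : ∀ (K : ℕ) [NeZero K], CongruenceProperty K p := fun K _ =>
    congruenceProperty_all EichlerShimura.injectiveOnTorsion_all K p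
  set E := torsionIso (p * N) p (conjProperty _)
  set E' := torsionIso N p (conjProperty _)
  have key := Carayol.intertwine_heckeOp E (torsionGalois (p * N) p (hE _)) E'
    (torsionGalois N p (hE _)) hl (h2 hl1) (h2 hlN) 1 π hπ z
  rw [Carayol.actTors_heckeOp, Carayol.actTors_heckeOp] at key
  have hz : heckeTors 1 ⟨l, hl⟩ z = W.apOfModel l • z :=
    Subtype.ext (he l hl ⟨hgood, hlp, hl1⟩)
  rw [hz, map_zsmul] at key
  exact (congrArg Subtype.val key).symm

variable (hpN : ¬ p ∣ N)

/-- Both norms of a Kummer function of an eigen class are `p`-th powers, or `W` is residually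
modular of level `N`. -/
theorem norms_or_modular {W : WeierstrassCurve ℤ} {f : FB (p * N)} (hf : f ≠ 0)
    (hd : ∀ v : Place QBar (FB (p * N)), (p : ℤ) ∣ v.ord f)
    (he : IsEigen (p * N) (fun l => W.IsGoodPrimeFor l ∧ l ≠ p ∧ ¬ l ∣ p * N) W.apOfModel
      (cls p hf hd)) :
    ((∃ g : FB N, g ≠ 0 ∧ normUp p N f = g ^ p) ∧
      ∃ g : FB N, g ≠ 0 ∧ normUp p N (wEquiv p N hpN f) = g ^ p) ∨
      W.IsResiduallyModularOfLevel p N := by
  by_cases hmod : W.IsResiduallyModularOfLevel p N
  · exact Or.inr hmod
  refine Or.inl ?_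
  have hz0 : (cls p hf hd : JZero (p * N)) ∈ JTors (p * N) p 1 := by
    rw [Pic0.mem_torsion, pow_one, natCast_zsmul]
    exact nsmul_cls hf hd
  set z : JTors (p * N) p 1 := ⟨_, hz0⟩
  refine ⟨?_, ?_⟩
  · obtain ⟨hd', e⟩ := pushClass_cls (upF N p) hf hd
    have h0 := congrArg Subtype.val ((eq_zero_or_modular (pushClassTors (upF N p) p 1)
      (fun σ w => Subtype.ext
        (pushClass_smul (upF N p) (fun τ x => (galF_upF N p τ x).symm) σ _)) z he).resolve_right
      hmod)
    change pushClass (upF N p) (cls p hf hd : JZero (p * N)) = 0 at h0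
    rw [e] at h0
    exact (cls_eq_zero_iff _ hd').mp h0
  · set w := SemilinearAut.ofAlgAut (wEquiv p N hpN) with hw
    obtain ⟨hf', hd1, e1⟩ := smul_cls_aut w hf hd
    obtain ⟨hd', e⟩ := pushClass_cls (upF N p) hf' hd1
    let wTors : JTors (p * N) p 1 →+ JTors (p * N) p 1 :=
      { toFun := fun x => ⟨w • (x : JZero (p * N)), SemilinearAut.smul_mem_torsion w x.2⟩
        map_zero' := Subtype.ext (smul_zero w)
        map_add' := fun x x' => Subtype.ext (smul_add w (x : JZero (p * N)) (x' : JZero (p * N))) }
    have hwσ : ∀ σ : GQ, w * arithmeticGalois (modularFunctionFieldFull (p * N)) σ =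
        arithmeticGalois (modularFunctionFieldFull (p * N)) σ * w := fun σ =>
      Subtype.ext (Prod.ext (RingEquiv.ext fun x => wEquiv_galois p N hpN σ x) rfl)
    have h0 := congrArg Subtype.val ((eq_zero_or_modular
      ((pushClassTors (upF N p) p 1).comp wTors) (fun σ x => Subtype.ext (by
        show pushClass (upF N p) (w • σ • (x : JZero (p * N))) =
          σ • pushClass (upF N p) (w • (x : JZero (p * N)))
        rw [← pushClass_smul (upF N p) (fun τ x => (galF_upF N p τ x).symm), galois_smul_pic0_def,
          galois_smul_pic0_def, ← mul_smul, hwσ, mul_smul])) z he).resolve_right hmod)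
    change pushClass (upF N p) (w • (cls p hf hd : JZero (p * N))) = 0 at h0
    rw [e1, e] at h0
    exact (cls_eq_zero_iff _ hd').mp h0

end Fermat.Agent.RT.Lift.LowerP

end
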