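import Fermat.Agent.RT.MazurP.Dlog

/-!
# Logarithmic derivatives at levels divisible by `4`, for every odd `p`

At a level `N` divisible by `4` the bound `6 ord r + 4 ord j + 3 ord (j - 1728) ≥ 0` away from the
cusps cuts out the regular differentials exactly, in characteristic zero and, by degree, modulo any
odd prime `p` prime to `N`, also when `1728 = 0`.
-/

set_option autoImplicit false
set_option synthInstance.maxHeartbeats 400000
set_option maxHeartbeats 1000000
set_option linter.unusedSectionVars false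

noncomputable section

open AlgebraicCurve CongruenceSubgroup
open ModularCurve (jqModC qExpand cuspCount dedekindPsi)
open scoped IntermediateField

namespace Fermat.Agent.RT.Lift.LowerP

open Fermat.Agent.Semistable Fermat.Agent.RT.MazurP
open Arith (QBar)

/-! ### Characteristic zero -/

section CharZero

variable {N : ℕ} [NeZero N]

variable (N) in
/-- `j - 1728`. -/
def jM' : FB N := jM N - algebraMap QBar (FB N) 1728

variable (N) in
/-- `r ↦ r ^ 6 j ^ 4 (j - 1728) ^ 3`. -/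
def six0 (r : FB N) : FB N := r ^ 6 * jM N ^ 4 * jM' N ^ 3

theorem ord_six0 (v : Place QBar (FB N)) {r : FB N} (hr : r ≠ 0) :
    v.ord (six0 N r) = 6 * v.ord r + 4 * v.ord (jM N) + 3 * v.ord (jM' N) ∧
      v.ord (r ^ 3 * (jM N * jM' N) ^ 2) = 3 * v.ord r + 2 * v.ord (jM N) + 2 * v.ord (jM' N) := by
  have hJ0 : jM N ≠ 0 := fun h => transcendental_jM N (h ▸ isAlgebraic_zero)
  have hJ'0 : jM' N ≠ 0 := jM_sub_ne_zero 1728
  rw [six0, v.ord_mul (mul_ne_zero (pow_ne_zero 6 hr) (pow_ne_zero 4 hJ0)) (pow_ne_zero 3 hJ'0),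
    v.ord_mul (pow_ne_zero 6 hr) (pow_ne_zero 4 hJ0),
    v.ord_mul (pow_ne_zero 3 hr) (pow_ne_zero 2 (mul_ne_zero hJ0 hJ'0))]
  simp only [FF.ord_pow, v.ord_mul hJ0 hJ'0]
  push_cast
  exact ⟨rfl, by ring⟩

theorem ord_jM'_of_pole (v : Place QBar (FB N)) (hv : v.ord (jM N) < 0) :
    v.ord (jM' N) = v.ord (jM N) := by
  have hJ0 : jM N ≠ 0 := fun h => transcendental_jM N (h ▸ isAlgebraic_zero)
  rw [jM', sub_eq_add_neg]
  exact (FF.ord_add_eq_left v hJ0 (Or.inr (by rw [FF.ord_neg, FF.ord_algebraMap]; exact hv))).2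

/-- Away from the cusps the cubic bound implies the sextic one. -/
theorem six0_nonneg (v : Place QBar (FB N)) (hv : 0 ≤ v.ord (jM N)) {r : FB N} (hr : r ≠ 0)
    (h : 0 ≤ v.ord (r ^ 3 * (jM N * jM' N) ^ 2)) : 0 ≤ v.ord (six0 N r) := by
  obtain ⟨e6, e3⟩ := ord_six0 v hr
  rw [e6]
  rw [e3] at h
  have hjB : Genus.jB N = jM N := Subtype.ext ((ModFun.coe_jBase N _).trans (coe_jM N).symm)
  have hB0 : v.ord (jM N) ≤ 3 := hjB ▸ Genus.ord_jB_le N v
  have hB1 : v.ord (jM' N) ≤ 2 := by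
    have := Genus.ord_jB_sub_1728_le N v
    rwa [hjB] at this
  have hJ'v : 0 ≤ v.ord (jM' N) := FF.ord_nonneg v (sub_mem
    ((FF.mem_iff v).mpr (Or.inr hv)) (v.algebraMap_mem' _))
  rcases lt_or_eq_of_le hv with hpos | hzero
  · have e2 : v.ord (jM' N) = 0 := by
      have h' := (FF.ord_add_eq_left v (f := -algebraMap QBar (FB N) 1728) (g := jM N)
        (neg_ne_zero.mpr ((map_ne_zero _).mpr (by norm_num))) (Or.inr (by
          rw [FF.ord_neg, FF.ord_algebraMap]; exact hpos))).2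
      rwa [FF.ord_neg, FF.ord_algebraMap, neg_add_eq_sub] at h'
    omega
  · omega

/-- The sextic bound for derivatives of `L (n ∞)`. -/
theorem six0_dd_mem_HM {n : ℕ} {r : FB N} (hr : r ∈ HM N n) :
    six0 N (dd (K := QBar) (jM N) r) ∈ HM N (6 * n + 1) := by
  set d := dd (K := QBar) (jM N) r
  rcases eq_or_ne d 0 with h0 | h0
  · rw [six0, h0, zero_pow (by norm_num), zero_mul, zero_mul]; exact zero_mem _
  refine RedTorsion.mem_polesSpace.mpr fun v => FF.mem_ordGe_of_le v ?_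
  have hc : d ^ 3 * (jM N * jM' N) ^ 2 ∈ HM N (3 * n + 1) := cube_dd_mem_HM hr
  have hne : d ^ 3 * (jM N * jM' N) ^ 2 ≠ 0 := mul_ne_zero (pow_ne_zero 3 h0) (pow_ne_zero 2
    (mul_ne_zero (fun h => transcendental_jM N (h ▸ isAlgebraic_zero)) (jM_sub_ne_zero 1728)))
  have h := FF.le_ord_of_mem_ordGe v hne (RedTorsion.mem_polesSpace.mp hc v)
  rcases lt_or_ge (v.ord (jM N)) 0 with hpole | hfin
  · obtain ⟨e6, e3⟩ := ord_six0 v h0
    rw [e3, ord_jM'_of_pole v hpole, FF.poles_apply, max_eq_right (by omega)] at h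
    rw [e6, ord_jM'_of_pole v hpole, FF.poles_apply, max_eq_right (by omega)]
    push_cast at h ⊢
    linarith
  · rw [FF.poles_apply, max_eq_left (show -v.ord (jM N) ≤ (0 : ℤ) by omega)] at h ⊢
    simp only [mul_zero, neg_zero] at h ⊢
    exact six0_nonneg v hfin h0 h

variable {φ : PowerSeries ℤ} {f : CuspForm (Gamma0 N) 2}
  (hφ : ∀ n, ModularFormClass.qCoeff f n = ((φ.coeff n : ℤ) : ℂ))
include hφ

/-- `f / θ j` in the function field. -/
def form0 : FB N := -⟨serY QBar φ, serY_mem_FB f hφ⟩ / (jM N * jM' N)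

theorem coe_form0 : (form0 hφ : LSer) = serR QBar φ := by
  rw [serR]
  show -serY QBar φ / (((jM N : FB N) : LSer) *
    (((jM N : FB N) : LSer) - algebraMap QBar LSer 1728)) = _
  rw [coe_jM, map_ofNat]

/-- The sextic bound for cusp forms: `(r ^ 6 j ^ 4 (j - 1728) ^ 3) ^ k j ∈ L (k (j)_∞)`. -/
theorem six0_form_pow_mul_mem {k : ℕ} (hk : N ≤ k) :
    six0 N (form0 hφ) ^ k * jM N ∈ HM N k := by
  set r := form0 hφ with hr
  set x : FB N := ⟨serX QBar φ, serX_mem_FB f hφ⟩
  have hk0 : k ≠ 0 := fun h => NeZero.ne N (by omega)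
  have hJ0 : jM N ≠ 0 := fun h => transcendental_jM N (h ▸ isAlgebraic_zero)
  have hJ'0 : jM' N ≠ 0 := jM_sub_ne_zero 1728
  rcases eq_or_ne r 0 with h0 | h0
  · rw [six0, h0, zero_pow (by norm_num), zero_mul, zero_mul, zero_pow hk0, zero_mul]
    exact zero_mem _
  have hx : r ^ 3 * (jM N * jM' N) ^ 2 = -x := Subtype.ext (by
    show (r : LSer) ^ 3 * (((jM N : FB N) : LSer) *
      (((jM N : FB N) : LSer) - algebraMap QBar LSer 1728)) ^ 2 = -serX QBar φ
    rw [hr, coe_form0, coe_jM, map_ofNat]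
    exact serR_pow_three φ)
  have hx0 : x ≠ 0 := fun h => by
    rw [h, neg_zero] at hx
    exact mul_ne_zero (pow_ne_zero 3 h0) (pow_ne_zero 2 (mul_ne_zero hJ0 hJ'0)) hx
  refine RedTorsion.mem_polesSpace.mpr fun v => FF.mem_ordGe_of_le v ?_
  have hord : v.ord (r ^ 3 * (jM N * jM' N) ^ 2) = v.ord x := by rw [hx, FF.ord_neg]
  have hall : ∀ l : ℕ, N ≤ l → -((l : ℤ) * FF.poles QBar (jM N) v) ≤
      (l : ℤ) * v.ord x + v.ord (jM N) := fun l hl => by
    have h := FF.le_ord_of_mem_ordGe v (mul_ne_zero (pow_ne_zero l hx0) hJ0)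
      (RedTorsion.mem_polesSpace.mp (serX_pow_mul_mem f hφ hl) v)
    rwa [v.ord_mul (pow_ne_zero l hx0) hJ0, FF.ord_pow] at h
  have h6 : six0 N r ≠ 0 :=
    mul_ne_zero (mul_ne_zero (pow_ne_zero 6 h0) (pow_ne_zero 4 hJ0)) (pow_ne_zero 3 hJ'0)
  rw [v.ord_mul (pow_ne_zero k h6) hJ0, FF.ord_pow]
  rcases lt_or_ge (v.ord (jM N)) 0 with hpole | hfin
  · obtain ⟨e6, e3⟩ := ord_six0 v h0
    rw [e3, ord_jM'_of_pole v hpole] at hord
    rw [e6, ord_jM'_of_pole v hpole]
    have h := hall k hk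
    rw [FF.poles_apply, max_eq_right (by omega)] at h ⊢
    rw [← hord] at h
    nlinarith
  · have hx1 : 0 ≤ v.ord x := by
      have h := hall (N + (v.ord (jM N)).natAbs + 1) (by omega)
      rw [FF.poles_apply, max_eq_left (by omega)] at h
      by_contra hlt
      have : v.ord (jM N) < ((N + (v.ord (jM N)).natAbs + 1 : ℕ) : ℤ) := by omega
      nlinarith [not_le.mp hlt]
    have h := six0_nonneg v hfin h0 (by rw [hord]; exact hx1)
    rw [FF.poles_apply, max_eq_left (by omega)]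
    rw [mul_zero, neg_zero]; exact add_nonneg (mul_nonneg (Int.natCast_nonneg k) h) hfin

end CharZero

/-! ### Reduction -/

section Residue

variable {A : ValuationSubring QBar} {N : ℕ} [NeZero N]

variable (A N) in
/-- `j - 1728` over the residue field. -/
def jK' : KM A N := jK A N - algebraMap (Res A) (KM A N) 1728

variable (A N) in
/-- `r ↦ r ^ 6 j ^ 4 (j - 1728) ^ 3` over the residue field. -/
def sixK (r : KM A N) : KM A N := r ^ 6 * jK A N ^ 4 * jK' A N ^ 3

theorem six0_mem_loc2 {d : FB N} (hd : d ∈ loc2 A (iota1 N)) :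
    six0 N d ∈ loc2 A (iota1 N) :=
  mul_mem (mul_mem (pow_mem hd 6) (pow_mem (jM_mem N) 4))
    (pow_mem (sub_mem (jM_mem N) (by rw [map_ofNat]; exact natCast_mem _ 1728)) 3)

theorem red1_six0 {d : FB N} (hd : d ∈ loc2 A (iota1 N)) {r : KM A N}
    (hr : red1 A N ⟨d, hd⟩ = (r : LaurentSeries (Res A))) :
    red1 A N ⟨_, six0_mem_loc2 hd⟩ = ((sixK A N r : KM A N) : LaurentSeries (Res A)) := by
  have hjm : jM' N ∈ loc2 A (iota1 N) :=
    sub_mem (jM_mem N) (by rw [map_ofNat]; exact natCast_mem _ 1728)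
  have h1728 : red1 A N ⟨_, hjm⟩ = ((jK' A N : KM A N) : LaurentSeries (Res A)) := by
    rw [show (⟨_, hjm⟩ : loc2 A (iota1 N)) = ⟨jM N, jM_mem N⟩ - (1728 : ℕ) from
      Subtype.ext (by push_cast; rw [jM', map_ofNat]; rfl), map_sub, red1_jM, map_natCast,
      jK', AddSubgroupClass.coe_sub, map_ofNat]
    rfl
  rw [show (⟨_, six0_mem_loc2 hd⟩ : loc2 A (iota1 N)) =
      ⟨d, hd⟩ ^ 6 * ⟨jM N, jM_mem N⟩ ^ 4 * ⟨_, hjm⟩ ^ 3 from rfl,
    map_mul, map_mul, map_pow, map_pow, map_pow, hr, red1_jM, h1728]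
  rfl

variable [FF.IsFunctionField (Res A) (KM A N)] [IsAlgClosed (Res A)]
  [FiniteDimensional (Res A)⟮jK A N⟯ (KM A N)] [Algebra.IsSeparable (Res A)⟮jK A N⟯ (KM A N)]

theorem jK_ne_zero : jK A N ≠ 0 := fun h => jK_transcendental A N (h ▸ isAlgebraic_zero)

theorem jK'_ne_zero : jK' A N ≠ 0 := fun h => jK_transcendental A N (by
  rw [sub_eq_zero.mp h]; exact isAlgebraic_algebraMap _)

theorem ord_jK'_of_pole {v : Place (Res A) (KM A N)} (hv : v.ord (jK A N) < 0) :
    v.ord (jK' A N) = v.ord (jK A N) := by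
  rw [jK', sub_eq_add_neg]
  exact (FF.ord_add_eq_left v jK_ne_zero (Or.inr (by
    rw [FF.ord_neg, FF.ord_algebraMap]; exact hv))).2

theorem ord_jK'_nonneg {v : Place (Res A) (KM A N)} (hv : 0 ≤ v.ord (jK A N)) :
    0 ≤ v.ord (jK' A N) :=
  FF.ord_nonneg v (sub_mem ((FF.mem_iff v).mpr (Or.inr hv)) (v.algebraMap_mem' _))

theorem ord_sixK (v : Place (Res A) (KM A N)) {r : KM A N} (hr : r ≠ 0) :
    v.ord (sixK A N r) = 6 * v.ord r + 4 * v.ord (jK A N) + 3 * v.ord (jK' A N) := by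
  rw [sixK, v.ord_mul (mul_ne_zero (pow_ne_zero 6 hr) (pow_ne_zero 4 jK_ne_zero))
      (pow_ne_zero 3 jK'_ne_zero),
    v.ord_mul (pow_ne_zero 6 hr) (pow_ne_zero 4 jK_ne_zero), FF.ord_pow, FF.ord_pow, FF.ord_pow]
  push_cast
  rfl

/-! ### The divisor -/

variable (A N) in
/-- `⌊(4 (j)_0 + 3 (j - 1728)_0) / 6⌋ - (j)_∞ - (j)_∞^red`. -/
def formDiv : Divisor (Res A) (KM A N) :=
  (4 • FF.poles (Res A) (jK A N)⁻¹ + 3 • FF.poles (Res A) (jK' A N)⁻¹).mapRange (· / 6)
      (by norm_num) - FF.poles (Res A) (jK A N) -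
    ∑ P ∈ (FF.finite_poles (K := Res A) (jK A N)).toFinset, Finsupp.single P 1

theorem formDiv_apply (v : Place (Res A) (KM A N)) :
    formDiv A N v = (4 * max 0 (v.ord (jK A N)) + 3 * max 0 (v.ord (jK' A N))) / 6 -
      max 0 (-v.ord (jK A N)) - if v.ord (jK A N) < 0 then 1 else 0 := by
  rw [formDiv, Finsupp.sub_apply, Finsupp.sub_apply, Finsupp.finsetSum_apply,
    Finsupp.mapRange_apply, Finsupp.add_apply, RedTorsion.nsmul_poles_apply,
    RedTorsion.nsmul_poles_apply, FF.poles_apply, FF.poles_apply, FF.poles_apply, v.ord_inv,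
    v.ord_inv, neg_neg, neg_neg]
  have e : (∑ i ∈ (FF.finite_poles (K := Res A) (jK A N)).toFinset,
      (Finsupp.single i (1 : ℤ) : Place (Res A) (KM A N) →₀ ℤ) v) =
        if v.ord (jK A N) < 0 then 1 else 0 := by
    split_ifs with hv
    · rw [Finset.sum_eq_single v (fun b _ hb => Finsupp.single_eq_of_ne (Ne.symm hb))
        (fun h => absurd ((FF.finite_poles (jK A N)).mem_toFinset.mpr hv) h),
        Finsupp.single_eq_same]
    · refine Finset.sum_eq_zero fun i hi => Finsupp.single_eq_of_ne fun h => hv ?_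
      exact h ▸ (FF.finite_poles (jK A N)).mem_toFinset.mp hi
  rw [e]
  push_cast
  rfl

theorem formDiv_of_pole {v : Place (Res A) (KM A N)} (hv : v.ord (jK A N) < 0) :
    formDiv A N v = v.ord (jK A N) - 1 := by
  rw [formDiv_apply, if_pos hv, ord_jK'_of_pole hv, max_eq_left hv.le, max_eq_right (by omega)]
  omega

theorem formDiv_of_finite {v : Place (Res A) (KM A N)} (hv : 0 ≤ v.ord (jK A N)) :
    formDiv A N v = (4 * v.ord (jK A N) + 3 * v.ord (jK' A N)) / 6 := by
  rw [formDiv_apply, if_neg (by omega), max_eq_right hv, max_eq_right (ord_jK'_nonneg hv),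
    max_eq_left (show -v.ord (jK A N) ≤ (0 : ℤ) by omega)]
  omega

/-- Membership from the sextic bound. -/
theorem mem_ordGe_formDiv {v : Place (Res A) (KM A N)} (hv : 0 ≤ v.ord (jK A N)) {r : KM A N}
    (h : r ≠ 0 → 0 ≤ v.ord (sixK A N r)) : r ∈ FF.ordGe v (-formDiv A N v) := by
  rcases eq_or_ne r 0 with rfl | h0
  · exact zero_mem _
  refine FF.mem_ordGe_of_le v ?_
  have h' := h h0
  rw [ord_sixK v h0] at h'
  rw [formDiv_of_finite hv]
  omega

theorem degree_poles_inv_eq {f : KM A N} (_hf : f ≠ 0) :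
    Divisor.degree (FF.poles (Res A) f⁻¹) = Divisor.degree (FF.poles (Res A) f) := by
  have h : FF.div (Res A) f = FF.poles (Res A) f⁻¹ - FF.poles (Res A) f := Finsupp.ext fun v => by
    rw [Finsupp.sub_apply, FF.div_apply, FF.poles_apply, FF.poles_apply, v.ord_inv, neg_neg]
    omega
  have h2 := congrArg Divisor.degree h
  rw [map_sub, FF.degree_div] at h2
  omega

variable (p : ℕ) [Fact p.Prime] [CharP (Res A) p]
  (hA : A.LiesOverPrime p) (h4 : 4 ∣ N) (hN : (N : Res A) ≠ 0)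

include h4 hN

omit [Fact p.Prime] [CharP (Res A) p] in
/-- The degree of `formDiv` is at most `2 g - 2`. -/
theorem degree_formDiv :
    Divisor.degree (formDiv A N) ≤ 2 * (genusFF (Res A) (KM A N) : ℤ) - 2 := by
  classical
  have hJ := jK_transcendental A N
  set ψ := Module.finrank (Res A)⟮jK A N⟯ (KM A N) with hψ
  have hP : Divisor.degree (FF.poles (Res A) (jK A N)) = ψ := FF.degree_poles hJ
  have hP' : FF.poles (Res A) (jK' A N) = FF.poles (Res A) (jK A N) := Finsupp.ext fun v => by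
    rw [FF.poles_apply, FF.poles_apply]
    rcases lt_or_ge (v.ord (jK A N)) 0 with hv | hv
    · rw [ord_jK'_of_pole hv]
    · have := ord_jK'_nonneg hv
      omega
  set S := 4 • FF.poles (Res A) (jK A N)⁻¹ + 3 • FF.poles (Res A) (jK' A N)⁻¹ with hS
  set D₁ := S.mapRange (· / 6) (by norm_num) with hD₁
  have hle : 6 • D₁ ≤ S := fun v => by
    rw [Finsupp.smul_apply, hD₁, Finsupp.mapRange_apply, nsmul_eq_mul]
    push_cast
    omega
  have h1 := FF.degree_mono hle
  rw [map_nsmul, hS, map_add, map_nsmul, map_nsmul, degree_poles_inv_eq jK_ne_zero,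
    degree_poles_inv_eq jK'_ne_zero, hP', hP] at h1
  set s := (FF.finite_poles (K := Res A) (jK A N)).toFinset with hs
  have hc : (s.card : ℤ) = cuspCount N := by
    rw [← Nat.subtype_card (p := fun Q => Q.ord (jK A N) < 0) s fun Q =>
      (FF.finite_poles (K := Res A) (jK A N)).mem_toFinset]
    exact_mod_cast RedTorsion.natCard_poles_residue (A := A) (N := N) hN
  have hd : Divisor.degree (formDiv A N) = Divisor.degree D₁ - ψ - cuspCount N := by
    rw [formDiv, map_sub, map_sub, hP, RedTorsion.degree_sum_single, hc]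
  have hψc : ψ = dedekindPsi N := by
    rw [hψ, ← ModFun.natCard_coset]
    exact RedTorsion.finrank_jF (K := Res A) (N := N) (F := KM A N) rfl hN
  obtain ⟨h2, h3⟩ := RedTorsion.no_root_sq_add_one (Or.inl rfl) h4
  have hg := Genus.genus_eq_genusFormula N
  rw [FF.genus_eq_genusFF, ModularCurve.genusFormula, h2, h3] at hg
  have hgN : (12 : ℤ) * genusFF QBar (FB N) = 12 + dedekindPsi N - 6 * cuspCount N := by
    have : (12 : ℚ) * (genusFF QBar (FB N) : ℚ) =
        12 + (dedekindPsi N : ℚ) - 6 * cuspCount N := by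
      rw [hg]; push_cast; ring
    exact_mod_cast this
  have hgood : GoodM A N := goodM_of_dvd (Or.inl rfl) h4 hN
  have hg2 : (genusFF QBar (FB N) : ℤ) ≤ genusFF (Res A) (KM A N) := by exact_mod_cast hgood
  simp only [nsmul_eq_mul] at h1
  push_cast at h1
  rw [hψc] at h1 hd
  omega

variable (A N) in
omit h4 hN [Fact p.Prime] [CharP (Res A) p] in
/-- The regular differentials, as series `g θ j`. -/
def regForms6 : Submodule (Res A) (LaurentSeries (Res A)) :=
  (riemannRochSpace (formDiv A N)).map (mulTheta A N)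

include hA

/-- The reduction of an integral cusp form is a regular differential. -/
theorem zSer_mem_regForms6 {φ : PowerSeries ℤ} (hφ : φ ∈ intSeries N) :
    zSer (Res A) φ ∈ regForms6 A N := by
  obtain ⟨f, hf⟩ := hφ
  have hzi : zSer QBar φ ∈ locS A := intS_le_locS (by
    rw [← coeffMap_zSer (Int.castRingHom QBar)]; exact coeffMap_intCast_mem_intS _)
  obtain ⟨hθj, eθj⟩ := theta_mem_intS (A := A) jqModC_mem_intS
  rw [red_jqModC] at eθj
  have hne : redL A ⟨_, intS_le_locS hθj⟩ ≠ 0 := by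
    rw [redL_of_mem_intS ⟨_, hθj⟩, eθj]; exact red_theta_jqModC_ne_zero
  obtain ⟨hinv, einv⟩ := inv_mem_locS (intS_le_locS hθj) hne
  have hde : (form0 hf : LSer) = zSer QBar φ * (theta QBar (jqModC QBar))⁻¹ := by
    rw [coe_form0, ← serR_mul_theta φ, mul_inv_cancel_right₀ red_theta_jqModC_ne_zero]
  have hdm : form0 hf ∈ loc2 A (iota1 N) := (mem_loc1 N).mpr (by rw [hde]; exact mul_mem hzi hinv)
  set r : KM A N := ⟨red1 A N ⟨_, hdm⟩, red1_mem_KM N hN _⟩ with hr
  have hrser : (r : LaurentSeries (Res A)) * theta (Res A) (jqModC (Res A)) = zSer (Res A) φ := by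
    show red1 A N ⟨_, hdm⟩ * _ = _
    rw [red1_eq, redL_congr _ (mul_mem hzi hinv) hde,
      show (⟨_, mul_mem hzi hinv⟩ : locS A) = ⟨_, hzi⟩ * ⟨_, hinv⟩ from rfl, map_mul, einv,
      redL_of_mem_intS ⟨_, hθj⟩, eθj, inv_mul_cancel_right₀ red_theta_jqModC_ne_zero,
      ← coeffMap_zSer (Int.castRingHom (Res A))]
    have hi := coeffMap_intCast_mem_intS (A := A) (zSer ℤ φ)
    rw [← red_coeffMap_intCast (A := A), ← redL_of_mem_intS ⟨_, hi⟩]
    exact redL_congr _ _ (coeffMap_zSer (Int.castRingHom QBar) φ).symm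
  refine ⟨r, FF.mem_riemannRochSpace'.mpr fun v => ?_, hrser⟩
  rcases eq_or_ne r 0 with h0 | h0
  · rw [h0]; exact zero_mem _
  have hsix0 : sixK A N r ≠ 0 :=
    mul_ne_zero (mul_ne_zero (pow_ne_zero 6 h0) (pow_ne_zero 4 jK_ne_zero))
      (pow_ne_zero 3 jK'_ne_zero)
  have hk : ∀ k : ℕ, N ≤ k → -((k : ℤ) * FF.poles (Res A) (jK A N) v) ≤
      (k : ℤ) * v.ord (sixK A N r) + v.ord (jK A N) := by
    intro k hk
    set y : loc2 A (iota1 N) := ⟨_, six0_mem_loc2 hdm⟩ ^ k * ⟨jM N, jM_mem N⟩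
    obtain ⟨hmem, hk'⟩ := (mem_HkS A N).mp
      (red1_mem_HkS N p hA hN (x := y) (n := k) (six0_form_pow_mul_mem hf hk))
    have e : sixK A N r ^ k * jK A N = ⟨_, hmem⟩ := Subtype.ext (by
      show _ = red1 A N y
      rw [map_mul, map_pow, red1_six0 hdm (r := r) rfl, red1_jM]
      rfl)
    rw [← e] at hk'
    have h := FF.le_ord_of_mem_ordGe v (mul_ne_zero (pow_ne_zero k hsix0) jK_ne_zero)
      (RedTorsion.mem_polesSpace.mp hk' v)
    rwa [v.ord_mul (pow_ne_zero k hsix0) jK_ne_zero, FF.ord_pow] at h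
  set k : ℕ := N + (v.ord (jK A N)).natAbs + 1 with hkdef
  have h := hk k (by omega)
  rcases lt_or_ge (v.ord (jK A N)) 0 with hpole | hfin
  · rw [FF.poles_apply, max_eq_right (by omega)] at h
    have hkJ : -v.ord (jK A N) < (k : ℤ) := by omega
    have h1 : v.ord (jK A N) + 1 ≤ v.ord (sixK A N r) := by
      by_contra hlt
      nlinarith [not_le.mp hlt]
    rw [ord_sixK v h0, ord_jK'_of_pole hpole] at h1
    refine FF.mem_ordGe_of_le v ?_
    rw [formDiv_of_pole hpole]
    omega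
  · refine mem_ordGe_formDiv hfin fun _ => ?_
    rw [FF.poles_apply, max_eq_left (by omega)] at h
    have hkJ : v.ord (jK A N) < (k : ℤ) := by omega
    by_contra hlt
    nlinarith [not_le.mp hlt]

/-- The regular differentials are the reductions of integral cusp forms. -/
theorem regForms6_eq_redLattice : regForms6 A N = redLattice A N := by
  have h := ell_le_genus (degree_formDiv (A := A) h4 hN)
  have h1 := Submodule.finrank_map_le (mulTheta A N) (riemannRochSpace (formDiv A N))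
  have hle : Module.finrank (Res A) (regForms6 A N) ≤ genusFF (Res A) (KM A N) := by
    refine h1.trans ?_
    unfold FF.ell at h
    exact_mod_cast h
  have : Module.Finite (Res A) (regForms6 A N) := Module.Finite.map _ _
  have h2 : redLattice A N ≤ regForms6 A N :=
    Submodule.span_le.mpr (Set.image_subset_iff.mpr fun φ hφ => zSer_mem_regForms6 p hA h4 hN hφ)
  have : Module.Finite (Res A) (redLattice A N) := Submodule.finiteDimensional_of_le h2
  have h3 := finrank_cuspForm_le_redLattice (A := A) (M := N) p Fact.out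
  have hg : genusFF QBar (FB N) = Module.finrank ℂ (CuspForm (Gamma0 N) 2) := by
    have h := Genus.genus_eq_genusFormula N
    rw [FF.genus_eq_genusFF, ← S20.result N] at h
    exact_mod_cast h
  have h4' := genus_residue_le (A := A) (M := N) p hA hN
  exact (Submodule.eq_of_le_of_finrank_le h2 (by omega)).symm

theorem exists_six_dd_mem : ∃ n₀ : ℕ, ∀ n, n₀ ≤ n → ∀ r ∈ Semistable.Hk A N n,
    sixK A N (dd (K := Res A) (jK A N) r) ∈ Semistable.Hk A N (6 * n + 1) := by
  obtain ⟨n₀, hn₀⟩ := exists_red1_surjective p hA hN (goodM_of_dvd (Or.inl rfl) h4 hN)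
  refine ⟨n₀, fun n hn r hr => ?_⟩
  obtain ⟨x, hx, hxr⟩ := hn₀ n hn (r : LaurentSeries (Res A))
    ((mem_HkS A N).mpr ⟨r.2, hr⟩)
  rw [red1_eq] at hxr
  obtain ⟨hθ, eθ⟩ := theta_mem_locS ((mem_loc1 N).mp x.2)
  rw [hxr] at eθ
  obtain ⟨hθj, eθj⟩ := theta_mem_intS (A := A) jqModC_mem_intS
  rw [red_jqModC] at eθj
  have hne : redL A ⟨_, intS_le_locS hθj⟩ ≠ 0 := by
    rw [redL_of_mem_intS ⟨_, hθj⟩, eθj]; exact red_theta_jqModC_ne_zero
  obtain ⟨hinv, einv⟩ := inv_mem_locS (intS_le_locS hθj) hne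
  have := FF.isSeparable_adjoin (K := QBar) (transcendental_jM N)
  set d := dd (K := QBar) (jM N) (x : FB N) with hd
  have hde : (d : LSer) = theta QBar ((x : FB N) : LSer) * (theta QBar (jqModC QBar))⁻¹ := by
    have h : theta QBar ((x : FB N) : LSer) = (d : LSer) * theta QBar ((jM N : FB N) : LSer) :=
      theta_algHom (transcendental_jM N) (FB N).val (x : FB N)
    rw [coe_jM] at h
    rw [h, mul_inv_cancel_right₀ red_theta_jqModC_ne_zero]
  have hdm : d ∈ loc2 A (iota1 N) := (mem_loc1 N).mpr (by rw [hde]; exact mul_mem hθ hinv)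
  obtain ⟨hmem, hk⟩ := (mem_HkS A N).mp
    (red1_mem_HkS N p hA hN (x := ⟨_, six0_mem_loc2 hdm⟩) (six0_dd_mem_HM hx))
  have hdred : red1 A N ⟨d, hdm⟩ =
      ((dd (K := Res A) (jK A N) r : KM A N) : LaurentSeries (Res A)) := by
    rw [red1_eq, redL_congr _ (mul_mem hθ hinv) hde,
      show (⟨_, mul_mem hθ hinv⟩ : locS A) = ⟨_, hθ⟩ * ⟨_, hinv⟩ from rfl, map_mul, eθ, einv,
      redL_of_mem_intS ⟨_, hθj⟩, eθj, coe_dd_mul_theta,
      mul_inv_cancel_right₀ red_theta_jqModC_ne_zero]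
  rwa [show sixK A N (dd (K := Res A) (jK A N) r) = ⟨_, hmem⟩ from
    Subtype.ext (red1_six0 hdm hdred).symm]

/-- Away from the cusps the derivative of a unit obeys the bound of `formDiv`. -/
theorem dd_mem_ordGe6 {v : Place (Res A) (KM A N)} (hv : 0 ≤ v.ord (jK A N)) {w : KM A N}
    (hw : w ≠ 0) (hvw : v.ord w = 0) :
    dd (K := Res A) (jK A N) w ∈ FF.ordGe v (-formDiv A N v) := by
  set J := jK A N with hJdef
  have hJ : Transcendental (Res A) J := jK_transcendental A N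
  obtain ⟨n₁, hn₁⟩ := exists_six_dd_mem p hA h4 hN
  have key : ∀ n, n₁ ≤ n → ∀ r ∈ Semistable.Hk A N n,
      dd (K := Res A) J r ∈ FF.ordGe v (-formDiv A N v) := by
    intro n hn r hr
    refine mem_ordGe_formDiv hv fun h0 => ?_
    have h := FF.le_ord_of_mem_ordGe v (mul_ne_zero (mul_ne_zero (pow_ne_zero 6 h0)
      (pow_ne_zero 4 jK_ne_zero)) (pow_ne_zero 3 jK'_ne_zero))
      (RedTorsion.mem_polesSpace.mp (hn₁ n hn r hr) v)
    rw [FF.poles_apply, max_eq_left (neg_nonpos.mpr hv)] at h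
    simpa [sixK] using h
  obtain ⟨c, hc⟩ := FF.exists_ell_eq (K := Res A) (F := KM A N)
  set P := FF.poles (Res A) J with hPdef
  set E := FF.poles (Res A) w with hEdef
  have hdegP : 0 < Divisor.degree P := by
    rw [hPdef, FF.degree_poles hJ]; exact_mod_cast Module.finrank_pos
  obtain ⟨n, hn, hdeg⟩ : ∃ n : ℕ, n₁ ≤ n ∧
      c + 1 ≤ Divisor.degree (n • P - E) := by
    refine ⟨n₁ + (c + 1 + Divisor.degree E).toNat, Nat.le_add_right _ _, ?_⟩
    rw [map_sub, map_nsmul, nsmul_eq_mul]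
    have h1 : c + 1 + Divisor.degree E ≤ ((n₁ + (c + 1 + Divisor.degree E).toNat : ℕ) : ℤ) := by
      push_cast; omega
    have h2 := mul_le_mul_of_nonneg_left (show (1 : ℤ) ≤ Divisor.degree P by omega)
      (Int.natCast_nonneg (n₁ + (c + 1 + Divisor.degree E).toNat))
    linarith
  set D := n • P - E with hDdef
  obtain ⟨b, hb, hbv⟩ : ∃ b ∈ riemannRochSpace D,
      b ∉ riemannRochSpace (D - Finsupp.single v 1) := by
    by_contra hall
    push Not at hall
    have hle : riemannRochSpace D ≤ riemannRochSpace (D - Finsupp.single v 1) := hall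
    have h1 := hc D (by omega)
    have hd' : Divisor.degree (D - Finsupp.single v 1) = Divisor.degree D - 1 := by
      rw [map_sub, Divisor.degree_single, FF.deg_eq_one v]; simp
    have h2 := hc (D - Finsupp.single v 1) (by omega)
    have h3 := Submodule.finrank_mono hle
    unfold FF.ell at h1 h2
    omega
  have hDv : D v = 0 := by
    rw [hDdef, Finsupp.sub_apply, RedTorsion.nsmul_poles_apply, hEdef, FF.poles_apply,
      FF.poles_apply, hvw, max_eq_left (by omega)]
    simp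
  have hb0 : b ≠ 0 := fun h => hbv (h ▸ zero_mem _)
  have hbord : v.ord b = 0 := by
    have h1 := FF.le_ord_of_mem_ordGe v hb0 (FF.mem_riemannRochSpace'.mp hb v)
    rw [hDv, neg_zero] at h1
    refine le_antisymm ?_ h1
    by_contra hlt
    refine hbv (FF.mem_riemannRochSpace'.mpr fun u => ?_)
    rcases eq_or_ne u v with rfl | huv
    · refine FF.mem_ordGe_of_le u ?_
      rw [Finsupp.sub_apply, Finsupp.single_eq_same, hDv]
      omega
    · rw [Finsupp.sub_apply, Finsupp.single_eq_of_ne huv, sub_zero]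
      exact FF.mem_riemannRochSpace'.mp hb u
  have hbn : b ∈ Semistable.Hk A N n := by
    refine FF.mem_riemannRochSpace'.mpr fun u => ?_
    refine FF.ordGe_anti u ?_ (FF.mem_riemannRochSpace'.mp hb u)
    rw [hDdef, Finsupp.sub_apply, hEdef, FF.poles_apply,
      show FF.poles (Res A) (jK A N) = P from rfl]
    have := le_max_left (0 : ℤ) (-u.ord w)
    omega
  have han : w * b ∈ Semistable.Hk A N n := by
    refine FF.mem_riemannRochSpace'.mpr fun u => ?_
    refine FF.ordGe_anti u ?_ (FF.mul_mem_ordGe u (FF.mem_ordGe_of_le u (le_refl (u.ord w)))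
      (FF.mem_riemannRochSpace'.mp hb u))
    rw [hDdef, Finsupp.sub_apply, hEdef, FF.poles_apply,
      show FF.poles (Res A) (jK A N) = P from rfl]
    have := le_max_right (0 : ℤ) (-u.ord w)
    omega
  have ew : w = w * b / b := by field_simp
  rw [ew, dd_div hJ]
  have hzero : ∀ {y : KM A N}, y ≠ 0 → v.ord y = 0 → y ∈ FF.ordGe v 0 :=
    fun _ h => FF.mem_ordGe_of_le v h.ge
  have hbi : b⁻¹ ^ 2 ∈ FF.ordGe v 0 :=
    hzero (pow_ne_zero 2 (inv_ne_zero hb0)) (by rw [FF.ord_pow, v.ord_inv, hbord]; simp)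
  have := FF.mul_mem_ordGe v hbi (sub_mem
    (FF.mul_mem_ordGe v (hzero hb0 hbord) (key n hn _ han))
    (FF.mul_mem_ordGe v (hzero (mul_ne_zero hw hb0) (by rw [v.ord_mul hw hb0, hvw, hbord]; simp))
      (key n hn _ hbn)))
  simpa using this

/-- `(dz/dj) / z` is a regular differential when all orders of `z` are divisible by `p`. -/
theorem dlog_mem_regular6 {z : KM A N} (hz : z ≠ 0)
    (hord : ∀ P : Place (Res A) (KM A N), (p : ℤ) ∣ P.ord z) :
    dd (K := Res A) (jK A N) z / z ∈ riemannRochSpace (formDiv A N) := by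
  have hJ : Transcendental (Res A) (jK A N) := jK_transcendental A N
  refine FF.mem_riemannRochSpace'.mpr fun v => ?_
  obtain ⟨t, ht0, ht⟩ := FF.exists_uniformizer (v := v)
  obtain ⟨k, hk⟩ := hord v
  set w := z / t ^ ((p : ℤ) * k) with hwdef
  have hw : w ≠ 0 := div_ne_zero hz (zpow_ne_zero _ ht0)
  have hvw : v.ord w = 0 := by
    rw [hwdef, div_eq_mul_inv, v.ord_mul hz (inv_ne_zero (zpow_ne_zero _ ht0)), v.ord_inv,
      v.ord_zpow, ht, hk]
    ring
  have hzw : z = t ^ ((p : ℤ) * k) * w := by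
    rw [hwdef, mul_div_cancel₀ _ (zpow_ne_zero _ ht0)]
  have hcast : (((p : ℤ) * k : ℤ) : KM A N) = 0 := by
    rw [Int.cast_mul, Int.cast_natCast, ← map_natCast (algebraMap (Res A) (KM A N)),
      CharP.cast_eq_zero, map_zero, zero_mul]
  have hq : dd (K := Res A) (jK A N) z / z = dd (K := Res A) (jK A N) w / w := by
    rw [hzw, dd_mul hJ, dd_zpow hJ, hcast, zero_mul, zero_mul, mul_zero, add_zero]
    field_simp [zpow_ne_zero ((p : ℤ) * k) ht0]
  rw [hq, div_eq_mul_inv]
  rcases eq_or_ne (dd (K := Res A) (jK A N) w) 0 with h0 | h0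
  · rw [h0, zero_mul]; exact zero_mem _
  refine FF.mem_ordGe_of_le v ?_
  rw [v.ord_mul h0 (inv_ne_zero hw), v.ord_inv, hvw, neg_zero, add_zero]
  rcases lt_or_ge (v.ord (jK A N)) 0 with hpole | hfin
  · rw [formDiv_of_pole hpole]
    obtain ⟨V, π, hgood⟩ := RedTorsion.exists_goodRed (N := N) (A := A) hN
    have hcard : Fintype.card (ModFun.Coset N) =
        Module.finrank (Res A)⟮jK A N⟯ (KM A N) := by
      rw [← Nat.card_eq_fintype_card]
      exact (RedTorsion.finrank_jF (K := Res A) (N := N) (F := KM A N) rfl hN).symm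
    have h := one_le_ord_dd_mul hJ hN (RedTorsion.cuspFamily (F := KM A N) rfl hgood) hcard v hpole
      hw hvw h0
    rw [v.ord_mul h0 (fun h => by simp [h] at hpole)] at h
    omega
  · exact FF.le_ord_of_mem_ordGe v h0 (dd_mem_ordGe6 p hA h4 hN hfin hw hvw)

end Residue

section Dichotomy

variable {A : ValuationSubring QBar} (p N : ℕ) [Fact p.Prime] [NeZero N]

/-- The logarithmic derivative of a series with orders divisible by `p` lies in the lattice of
reductions of cusp forms. -/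
theorem dlog_mem_redLattice6 [CharP (Res A) p] (hA : A.LiesOverPrime p) (h4 : 4 ∣ N)
    (hN : (N : Res A) ≠ 0) {z : LaurentSeries (Res A)} (hz : z ∈ KM A N) (hz0 : z ≠ 0)
    (hord : ∀ P : Place (Res A) (KM A N), (p : ℤ) ∣ P.ord ⟨z, hz⟩) :
    dlog z ∈ redLattice A N := by
  have := Arith.residueField_isAlgClosed A
  have := isFunctionField_KM (A := A) hN
  have : FiniteDimensional (Res A)⟮jK A N⟯ (KM A N) :=
    RedTorsion.finiteDimensional_jF (K := Res A) (N := N) (F := KM A N) rfl hN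
  have : Algebra.IsSeparable (Res A)⟮jK A N⟯ (KM A N) :=
    RedTorsion.isSeparable_jF (K := Res A) (N := N) (F := KM A N) rfl hN
  set Z : KM A N := ⟨z, hz⟩
  rw [← regForms6_eq_redLattice (A := A) (N := N) p hA h4 hN]
  refine ⟨dd (K := Res A) (jK A N) Z / Z,
    dlog_mem_regular6 p hA h4 hN (z := Z) (fun h => hz0 (congrArg Subtype.val h)) hord, ?_⟩
  show ((dd (K := Res A) (jK A N) Z : KM A N) : LaurentSeries (Res A)) / z * _ =
    theta (Res A) z / z
  rw [show theta (Res A) z = theta (Res A) (Z : LaurentSeries (Res A)) from rfl,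
    coe_dd_mul_theta (A := A) Z, div_mul_eq_mul_div]

variable {p N}

/-- The dichotomy at level `N`, `4 ∣ N`, for every odd `p`. -/
theorem dlog_dichotomy6 [CharP (Res A) p] (hA : A.LiesOverPrime p) (h4 : 4 ∣ N) (hpN : ¬ p ∣ N)
    {f : FB (p * N)} (G : ℕ → Prop) (a : ℕ → ℤ) (hG : ∀ l, l.Prime → G l → ¬ l ∣ p * N)
    (hEig : ∀ (l : ℕ) [NeZero l], l.Prime → G l →
      ∃ h : FB (p * N), h ≠ 0 ∧ heckeNorm (p * N) l f = f ^ a l * h ^ p)
    (hord : ∀ (s : Fin 2) (z : LaurentSeries (Res A)), IsRed A (iota2 N p hpN s f) z →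
      ∀ (hz : z ∈ KM A N) (P : Place (Res A) (KM A N)), (p : ℤ) ∣ P.ord ⟨z, hz⟩) :
    (∀ (s : Fin 2) (z : LaurentSeries (Res A)), IsRed A (iota2 N p hpN s f) z →
        ∃ h : KM A N, (h : LaurentSeries (Res A)) ^ p = z) ∨
      ∃ (g : CuspForm (Gamma0 N) 2) (_ : g.IsNormalizedEigenform)
        (𝔪 : Ideal (integralClosure ℤ ℂ)), 𝔪.IsMaximal ∧
        ((p : ℕ) : integralClosure ℤ ℂ) ∈ 𝔪 ∧
        ∀ l, l.Prime → G l → ∃ c : integralClosure ℤ ℂ,
          (c : ℂ) = ModularFormClass.qCoeff g l ∧ c - (a l : integralClosure ℤ ℂ) ∈ 𝔪 := by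
  have hp : p.Prime := Fact.out
  have := Arith.residueField_isAlgClosed A
  have hN : (N : Res A) ≠ 0 := fun h => hpN ((CharP.cast_eq_zero_iff (Res A) p N).mp h)
  by_cases hall : ∀ (s : Fin 2) (z : LaurentSeries (Res A)),
      IsRed A (iota2 N p hpN s f) z → dlog z = 0
  · exact Or.inl fun s z hz => exists_pow_eq_of_dlog_eq_zero p N hN
      (isRed_mem_KM p N hpN hA hN hz) (hall s z hz)
  push Not at hall
  obtain ⟨s, z, hz, hne⟩ := hall
  have hzN := isRed_mem_KM p N hpN hA hN hz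
  refine Or.inr (exists_eigenform_of_redLattice p
    (dlog_mem_redLattice6 p N hA h4 hN hzN hz.1 (hord s z hz hzN)) hne G
    (fun l hl hGl h => hG l hl hGl (dvd_mul_of_dvd_right h p)) a fun l hl hGl n => ?_)
  have : NeZero l := ⟨hl.ne_zero⟩
  have hlp : ¬ p ∣ l := fun h =>
    hG l hl hGl ((Nat.prime_dvd_prime_iff_eq hp hl).mp h ▸ dvd_mul_right p N)
  obtain ⟨X, hX, himg⟩ := exists_isRed_heckeImage hA hp hlp
    (iota2_fracS N p hpN s (heckeNorm (p * N) l f))
    (fun ζ hζ => qExpand_iota2_heckeNorm p N l hpN hl (hG l hl hGl) s hζ f) hz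
  obtain ⟨h, hh, heq⟩ := hEig l hl hGl
  obtain ⟨w, hw⟩ :=
    IsRed.exists_of_ne_zero hA hp (iota2_fracS N p hpN s h) ((map_ne_zero _).mpr hh)
  rw [heq, map_mul, map_zpow₀, map_pow] at hX
  obtain ⟨u, hu, hXu⟩ := IsRed.unique ((hz.zpow (a l)).mul (hw.pow p)) hX
  obtain ⟨ζ, hζ⟩ := exists_primitive (N := p * N) hl (hG l hl hGl)
  have hl0 : (l : Res A) ≠ 0 := fun h => hlp ((CharP.cast_eq_zero_iff (Res A) p l).mp h)
  rw [← himg.coeff_dlog hl0 (resRoot_primitive hA hp hlp hζ) hz.1 n, hXu,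
    dlog_mul ((map_ne_zero _).mpr hu) (mul_ne_zero (zpow_ne_zero _ hz.1) (pow_ne_zero _ hw.1)),
    algebraMap_eq_C, dlog_C, zero_add, dlog_mul (zpow_ne_zero _ hz.1) (pow_ne_zero _ hw.1),
    dlog_zpow hz.1, dlog_pow, natCast_laurent_eq_zero p, zero_mul, add_zero,
    ← map_intCast (HahnSeries.C : Res A →+* LaurentSeries (Res A)), coeff_C_mul]

end Dichotomy

end Fermat.Agent.RT.Lift.LowerP

end
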