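import Fermat.Agent.RT.MazurP.Plane
import Fermat.Agent.RT.MazurP.TorsionW
import Fermat.Agent.OrdinaryAtP.Connected
import Fermat.Agent.RT.Lift.LowerP.Regular6

/-!
# Ordinary classes of level `p N` with `4 ∣ N`

At a level `N` divisible by `4` and prime to `p ≥ 3`: an eigen class of `J₀(p N)[p]` fixed by
inertia, or two with a wild extension of jump one, force a congruent form of level `N`. The
dichotomy for logarithmic derivatives of the reductions enters as a hypothesis.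
-/

set_option autoImplicit false
set_option synthInstance.maxHeartbeats 400000
set_option maxHeartbeats 1000000
set_option linter.unusedSectionVars false

noncomputable section

namespace Fermat.Agent.RT.Lift.LowerP

open ModularCurve AlgebraicCurve CongruenceSubgroup Fermat.Agent.Semistable Fermat.Agent.Arith
open Fermat.Agent.RT.MazurP

variable {A : ValuationSubring QBar} {p N : ℕ} [Fact p.Prime] [NeZero N]

/-- The reductions of an eigen function with orders divisible by `p` are `p`-th powers, or a form of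
level `N` carries the eigenvalues. -/
def DlogInput (A : ValuationSubring QBar) (p N : ℕ) [Fact p.Prime] [NeZero N] (hpN : ¬ p ∣ N) :
    Prop :=
  ∀ {f : FB (p * N)} (G : ℕ → Prop) (a : ℕ → ℤ), (∀ l, l.Prime → G l → ¬ l ∣ p * N) →
    EigenFun p N G a f →
    (∀ (s : Fin 2) (z : LaurentSeries (Res A)), IsRed A (iota2 N p hpN s f) z →
      ∀ (hz : z ∈ KM A N) (P : Place (Res A) (KM A N)), (p : ℤ) ∣ P.ord ⟨z, hz⟩) →
    (∀ (s : Fin 2) (z : LaurentSeries (Res A)), IsRed A (iota2 N p hpN s f) z →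
        ∃ h : KM A N, (h : LaurentSeries (Res A)) ^ p = z) ∨ CongrForm N p G a

variable (hA : A.LiesOverPrime p) (hp3 : 3 ≤ p) (h4 : 4 ∣ N) (hpN : ¬ p ∣ N)
  (hdlog : DlogInput A p N hpN)
  (G : ℕ → Prop) (a : ℕ → ℤ) (hG : ∀ l, l.Prime → G l → ¬ l ∣ p * N)

/-- The eigen relation in the form used by the residue statements. -/
theorem isNormEigen_of_eigenFun {f : FB (p * N)} (hf : EigenFun p N G a f) {l : ℕ} [NeZero l]
    (hl : l.Prime) (hGl : G l) : IsNormEigen p N l (a l) f := by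
  obtain ⟨h, hh, e⟩ := hf l hl hGl
  exact ⟨1, h, one_ne_zero, hh, by rw [e, map_one, one_mul]⟩

/-- A function with both reductions one gives a flat class. -/
theorem isFlatClass_of_red {g : FB (p * N)} (hg : g ≠ 0)
    (hdvd : ∀ v : Place QBar (FB (p * N)), (p : ℤ) ∣ v.ord g)
    (hr : ∀ s, ∃ h : iota2 N p hpN s g ∈ locS A, redL A ⟨_, h⟩ = 1) :
    OrdinaryAtP.IsFlatClass A N p hpN (cls p hg hdvd) := by
  choose hm hm1 using hr
  exact ⟨⟨Units.mk0 g hg, hdvd⟩, rfl, (mem_loc2 _).mpr hm,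
    funext fun s => (red2_apply _ _ _).trans (hm1 s)⟩

variable [CharP (Res A) p] [FF.IsFunctionField (Res A) (KM A N)]

include hA hdlog hG in
/-- An eigen class with all orders divisible by `p` is flat, or there is a congruent form. -/
theorem flatClass_or_congr {C : CoefField A p} {f : FB (p * N)} (hf : f ≠ 0)
    (hdvd : ∀ v : Place QBar (FB (p * N)), (p : ℤ) ∣ v.ord f) (hEig : EigenFun p N G a f)
    (K : Kum hpN C) (hK : K.f = f)
    (hord : ∀ P, (p : ℤ) ∣ K.s₀ P ∧ (p : ℤ) ∣ K.t₀ P)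
    (V : VUnit A hpN) (hV : V.Simple) :
    OrdinaryAtP.IsFlatClass A N p hpN (cls p hf hdvd) ∨ CongrForm N p G a := by
  have hp : p.Prime := Fact.out
  have hN : (N : Res A) ≠ 0 := fun h => hpN ((CharP.cast_eq_zero_iff (Res A) p _).mp h)
  have hred : ∀ (s : Fin 2) (z : LaurentSeries (Res A)), IsRed A (iota2 N p hpN s f) z →
      ∃ u : Res A, u ≠ 0 ∧ z = algebraMap (Res A) _ u * (K.fb s : LaurentSeries (Res A)) := by
    intro s z hz
    have h := K.isRed s
    rw [hK] at h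
    exact h.unique hz
  have hord' : ∀ (s : Fin 2) (z : LaurentSeries (Res A)), IsRed A (iota2 N p hpN s f) z →
      ∀ (hz : z ∈ KM A N) (P : Place (Res A) (KM A N)), (p : ℤ) ∣ P.ord ⟨z, hz⟩ := by
    intro s z hz hzm P
    obtain ⟨u, hu, e⟩ := hred s z hz
    rw [show (⟨z, hzm⟩ : KM A N) = algebraMap (Res A) _ u * K.fb s from Subtype.ext e,
      P.ord_mul ((_root_.map_ne_zero _).mpr hu) (K.fb_ne s), FF.ord_algebraMap, zero_add]
    fin_cases s
    · exact (hord P).1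
    · exact (hord P).2
  rcases hdlog G a hG hEig hord' with hpow | hform
  · refine Or.inl ?_
    have hz : ∀ s, ∃ z : KM A N, z ^ p * K.fb s = 1 := by
      intro s
      have h := K.isRed s
      rw [hK] at h
      obtain ⟨y, hy⟩ := hpow s _ h
      refine ⟨y⁻¹, ?_⟩
      rw [show K.fb s = y ^ p from Subtype.ext (hy.symm.trans (by push_cast; rfl)), inv_pow,
        inv_mul_cancel₀ (pow_ne_zero _ ?_)]
      rintro rfl
      exact K.fb_ne s (Subtype.ext (hy.symm.trans (by simp [zero_pow hp.ne_zero])))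
    choose z hz using hz
    obtain ⟨c, φ, hc, hφ, -, -, hr⟩ := K.exists_unit hA hN V hV z hz
      (K.dvd_δ hA hN V hV fun P => (hord P).1)
    rw [hK] at hr
    rw [← cls_const_mul_pow hc hf hφ hdvd
      (mul_ne_zero (mul_ne_zero ((map_ne_zero _).mpr hc) hf) (pow_ne_zero _ hφ))]
    exact isFlatClass_of_red hpN _ _ hr
  · exact Or.inr hform

include hA hp3 h4 hdlog hG in
/-- A class fixed by inertia gives a congruent form. -/
theorem congrForm_of_fixed_class (hne : ∃ l, l.Prime ∧ G l ∧ ¬ (p : ℤ) ∣ a l - (1 + l))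
    {x : JZero (p * N)} (hx0 : x ≠ 0) (hxp : p • x = 0) (hxe : IsEigen (p * N) G a x)
    (hxf : ∀ τ ∈ A.inertiaSubgroupIn ℚ, τ • x = x) : CongrForm N p G a := by
  have hp : p.Prime := Fact.out
  have hN : (N : Res A) ≠ 0 := fun h => hpN ((CharP.cast_eq_zero_iff (Res A) p _).mp h)
  have hGeo : NoFlatQuotient A N p hpN := fun H hflat hstab π hinv =>
    OrdinaryAtP.eq_zero_of_invariant_of_flat (hpM := hpN) hA hp3 h4 H hflat hstab π hinv
  obtain ⟨f, hf, hdvd, rfl, -, hfix⟩ := exists_cls_fixed (A.inertiaSubgroupIn ℚ) hxp hxf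
  obtain ⟨V⟩ := exists_vUnit hA hN hpN
  have hV := V.simple hA hN h4
  obtain ⟨K, hK⟩ := Kum.exists_of (hpM := hpN) (C := unramField (p := p) hA) hA hN hf hdvd
    fun τ hτ => hfix τ hτ
  have hEig := eigenFun_of_cls G a hf hdvd hxe
  obtain ⟨l, hl, hGl, ha⟩ := hne
  have : NeZero l := ⟨hl.ne_zero⟩
  have hord := K.dvd_ord_of_unramified (unramField_e hA) hA hN V hV hl (hG l hl hGl) ha
    (hK ▸ isNormEigen_of_eigenFun G a hEig hl hGl)
  refine (flatClass_or_congr hA hpN hdlog G a hG hf hdvd hEig K hK hord V hV).resolve_left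
    fun hflat => hGeo.false_of_fixed hx0 hxp hflat hxf

include hA hp3 h4 hdlog hG in
/-- A wild plane gives a congruent form. -/
theorem congrForm_of_wild_plane (hne : ∃ l, l.Prime ∧ G l ∧ ¬ (p : ℤ) ∣ a l - (1 + l))
    (W : Wild A p) {x₁ x₀ : JZero (p * N)} (hx0 : x₀ ≠ 0) (hp₁ : p • x₁ = 0) (hp₀ : p • x₀ = 0)
    (he₁ : IsEigen (p * N) G a x₁) (he₀ : IsEigen (p * N) G a x₀)
    (hf₁ : ∀ τ ∈ W.C.H, τ • x₁ = x₁) (hf₀ : ∀ τ ∈ W.C₁.H, τ • x₀ = x₀)
    (hσ : W.σ • x₁ = x₁ + x₀)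
    (hI : ∀ τ ∈ A.inertiaSubgroupIn ℚ, ∃ n c : ℤ, τ • x₀ = n • x₀ ∧ τ • x₁ = x₁ + c • x₀) :
    CongrForm N p G a := by
  classical
  have hp : p.Prime := Fact.out
  have hN : (N : Res A) ≠ 0 := fun h => hpN ((CharP.cast_eq_zero_iff (Res A) p _).mp h)
  have hGeo : NoFlatQuotient A N p hpN := fun H hflat hstab π hinv =>
    OrdinaryAtP.eq_zero_of_invariant_of_flat (hpM := hpN) hA hp3 h4 H hflat hstab π hinv
  obtain ⟨f₁, h₁, d₁, rfl, l₁, fix₁⟩ := exists_cls_fixed W.C.H hp₁ hf₁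
  obtain ⟨f₀, h₀, d₀, rfl, l₀, fix₀⟩ := exists_cls_fixed W.C₁.H hp₀ hf₀
  obtain ⟨q, hq, qfix, hrel⟩ := exists_multiplier W.C.H W.normal h₁ h₀ d₁ d₀ l₁ l₀ fix₁
    (fun τ hτ => fix₀ τ (W.le hτ)) hσ
  obtain ⟨V⟩ := exists_vUnit hA hN hpN
  have hV := V.simple hA hN h4
  obtain ⟨K, hK⟩ := Kum.exists_of (hpM := hpN) (C := W.C) hA hN h₁ d₁ fix₁
  have hrel' : galF (p * N) W.σ K.f = algebraMap QBar (FB (p * N)) 1 * K.f * f₀ * q ^ p := by
    rw [hK, hrel, map_one, one_mul]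
  obtain ⟨R, d, φ, hd, hφ, hR⟩ := exists_sigmaRel K hA hN V hV one_ne_zero h₀ d₀ fix₀ hq qfix hrel'
  have hE₁ := eigenFun_of_cls G a h₁ d₁ he₁
  have hE₀ := eigenFun_of_cls G a h₀ d₀ he₀
  obtain ⟨l, hl, hGl, ha⟩ := hne
  have : NeZero l := ⟨hl.ne_zero⟩
  have hord := R.dvd_ord hA hN V hV hl (hG l hl hGl) ha
    (hK ▸ isNormEigen_of_eigenFun G a hE₁ hl hGl)
    (hR ▸ (isNormEigen_of_eigenFun G a hE₀ hl hGl).mul_const_pow hl (hG l hl hGl) hd hφ)
  refine (flatClass_or_congr hA hpN hdlog G a hG h₁ d₁ hE₁ K hK hord V hV).resolve_left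
    fun hflat => ?_
  have hflat₀ : OrdinaryAtP.IsFlatClass A N p hpN (cls p h₀ d₀) := by
    have h := isFlatClass_of_red hpN R.f₀_ne R.f₀_dvd R.f₀_red
    rw [cls_congr hR R.f₀_ne
      (mul_ne_zero (mul_ne_zero ((map_ne_zero _).mpr hd) h₀) (pow_ne_zero _ hφ)) R.f₀_dvd
      (dvd_ord_const_mul_pow hd h₀ hφ d₀)] at h
    rwa [cls_const_mul_pow hd h₀ hφ] at h
  exact hGeo.false_of_plane hx0 hp₀ hσ (hf₀ _ W.σ_mem) hflat hflat₀ hI

omit [CharP (Res A) p] [FF.IsFunctionField (Res A) (KM A N)] in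
include hA hp3 h4 hdlog in
/-- The ordinary case of lowering at `p`: a fixed or wild eigen class gives a congruent form. -/
theorem congrForm_of_fixedOrWild {W : WeierstrassCurve ℤ} (hΔ : W.Δ ≠ 0)
    (hirr : W.ModRepIsIrreducible p) (hFW : FixedOrWild W p (p * N) A) :
    CongrForm N p (eigenPrimes W p (p * N)) W.apOfModel := by
  have : CharP (Res A) p := residueField_charP hA Fact.out
  have := isFunctionField_KM (A := A) (M := N) fun h =>
    hpN ((CharP.cast_eq_zero_iff (Res A) p _).mp h)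
  have hG : ∀ l, l.Prime → eigenPrimes W p (p * N) l → ¬ l ∣ p * N := fun l _ h => h.2
  have hne := exists_eigenPrimes_ne (N := p * N) hΔ (by omega : p ≠ 2) hirr
  rcases hFW with ⟨x, hx0, hxp, hxe, hxf⟩ |
    ⟨Wd, x₁, x₀, hx0, hp₁, hp₀, he₁, he₀, hf₁, hf₀, hσ, hI⟩
  · exact congrForm_of_fixed_class hA hp3 h4 hpN hdlog _ _ hG hne hx0 hxp hxe hxf
  · exact congrForm_of_wild_plane hA hp3 h4 hpN hdlog _ _ hG hne Wd hx0 hp₁ hp₀ he₁ he₀ hf₁ hf₀ hσ hI

omit [FF.IsFunctionField (Res A) (KM A N)] in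
include hA h4 in
/-- The dichotomy hypothesis holds. -/
theorem dlogInput : DlogInput A p N hpN :=
  fun G a hG hEig hord => dlog_dichotomy6 hA h4 hpN G a hG hEig hord

omit [CharP (Res A) p] [FF.IsFunctionField (Res A) (KM A N)] in
include hA hp3 h4 hpN in
/-- The ordinary case of lowering at `p`, without the hypothesis on logarithmic derivatives. -/
theorem congrForm_of_fixedOrWild' {W : WeierstrassCurve ℤ} (hΔ : W.Δ ≠ 0)
    (hirr : W.ModRepIsIrreducible p) (hFW : FixedOrWild W p (p * N) A) :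
    CongrForm N p (eigenPrimes W p (p * N)) W.apOfModel := by
  have : CharP (Res A) p := residueField_charP hA Fact.out
  exact congrForm_of_fixedOrWild hA hp3 h4 hpN (dlogInput hA h4 hpN) hΔ hirr hFW

end Fermat.Agent.RT.Lift.LowerP

end
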