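import Fermat.Agent.RT.Lift.LowerP.Zero
import Fermat.Agent.OrdinaryAtP.Connected

/-!
# Inertia acts by scalars on flat classes with trivial norms

Such a class `x` has Kummer functions congruent to one to every depth, with sections congruent to
untwisted functions modulo `λ = ζ - 1`. If `τ λ / λ = N` in the residue field and `k = p - N`, the
sections of `τ • x + k • x` obtained from them are congruent to untwisted functions modulo more
than `λ`, hence to every depth, and `τ • x = N • x`.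
-/

set_option autoImplicit false
set_option linter.unusedSectionVars false

noncomputable section

namespace Fermat.Agent.RT.Lift.LowerP

open ModularCurve AlgebraicCurve Fermat.Agent.Semistable Fermat.Agent.OrdinaryAtP
open RT.MazurP (cls cls_mul cls_eq_zero_iff cls_congr smul_cls galF_ne_zero dvd_ord_galF
  valuation_inertia zeta_sub_one)
open NewformLocal.Toric (normUp)
open Arith (QBar GQ)

-- searches for the constants inside Laurent series are slow without these priorities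
attribute [local instance 10000] SubalgebraClass.toAlgebra HahnSeries.powerSeriesAlgebra
attribute [local instance 10001] Fermat.Agent.Semistable.instAlgebraKM

variable {A : ValuationSubring QBar} {M p : ℕ} [NeZero M] [hp : Fact p.Prime]

/-- The linear term of a power. -/
theorem small_add_pow_one {F : Type*} [Field F] [Algebra QBar F] {R : Subring F} {t : QBar}
    {a b : F} (ha : a ∈ R) (hb : b ∈ R) (ht : algebraMap QBar F t ∈ R) :
    ∀ k : ℕ, Small R (t ^ 2) ((a + algebraMap QBar F t * b) ^ (k + 1) - a ^ (k + 1) -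
      ((k + 1 : ℕ) : F) * (algebraMap QBar F t * b * a ^ k))
  | 0 => by
    convert small_zero (R := R) (γ := t ^ 2) using 1
    push_cast
    ring
  | k + 1 => by
    obtain ⟨w, hw, e⟩ := small_add_pow_one ha hb ht k
    refine ⟨((k + 1 : ℕ) : F) * (b ^ 2 * a ^ k) + (a + algebraMap QBar F t * b) * w,
      add_mem (mul_mem (natCast_mem R _) (mul_mem (pow_mem hb 2) (pow_mem ha k)))
        (mul_mem (add_mem ha (mul_mem ht hb)) hw), ?_⟩
    rw [pow_succ _ (k + 1), sub_eq_iff_eq_add.mp (sub_eq_iff_eq_add.mp e), map_pow]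
    push_cast
    ring

/-- A linear term with opposite coefficients reduces to zero. -/
theorem map_linear_eq_zero {R S κ : Type*} [CommRing R] [CommRing S] [Field κ] [Module κ S]
    (f : R →+* S) {c τu u τS S₀ : R} {c' : κ} (hc : ∀ x, f (c * x) = c' • f x)
    (h1 : f τS = f S₀) (h2 : f τu = f u) (k : ℕ) (hres : c' + ((k + 1 : ℕ) : κ) = 0) :
    f (c * τu * S₀ ^ (k + 1) + ((k + 1 : ℕ) : R) * (τS * u * S₀ ^ k)) = 0 := by
  rw [mul_assoc c, map_add, hc, map_mul f ((k + 1 : ℕ) : R), map_natCast, map_mul, map_mul,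
    map_mul, map_pow, map_pow, h1, h2, mul_comm (f S₀) (f u), mul_assoc (f u) (f S₀),
    ← pow_succ', ← nsmul_eq_mul, ← Nat.cast_smul_eq_nsmul κ, ← add_smul, hres, zero_smul]

/-- An element with image one, minus one, has image zero. -/
theorem map_sub_one_eq_zero {R S : Type*} [CommRing R] [CommRing S] (f : R →+* S) {x : R}
    (h : f x = 1) : f (x - 1) = 0 := by
  rw [map_sub, h, map_one, sub_self]

/-- The image of `x * y ^ k` when `x` and `y` have the same image. -/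
theorem map_mul_pow_succ {R S : Type*} [CommRing R] [CommRing S] (f : R →+* S) {x y z : R}
    (h : f x = f y) {k : ℕ} (hz : z = x * y ^ k) : f z = f y ^ (k + 1) := by
  rw [hz, map_mul, map_pow, h, pow_succ']

/-- The difference of twisted products, given the linear term of a power. -/
theorem twist_sub_eq {F : Type*} [CommRing F] {l c a τu u τS S w : F} {k : ℕ} (ha : a = S + l * u)
    (ew : (S + l * u) ^ (k + 1) - S ^ (k + 1) - ((k + 1 : ℕ) : F) * (l * u * S ^ k) = l ^ 2 * w) :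
    (τS + c * l * τu) * a ^ (k + 1) - τS * S ^ (k + 1) =
      l * (c * τu * S ^ (k + 1) + ((k + 1 : ℕ) : F) * (τS * u * S ^ k)) +
        l ^ 2 * ((τS + c * l * τu) * w + ((k + 1 : ℕ) : F) * (c * τu * u * S ^ k)) := by
  rw [ha, sub_eq_iff_eq_add.mp (sub_eq_iff_eq_add.mp ew)]
  ring

/-- A product minus one, split at the map of one factor. -/
theorem mul_sub_one_eq {F : Type*} [CommRing F] (f : F →+* F) {g y b : F} (hy : y = f g * b)
    {m : ℕ} : y - 1 = f g * (b - 1 ^ m) + f (g - 1) := by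
  rw [hy, one_pow, map_sub, map_one]; ring

theorem dvd_ord_pow {g : FB (p * M)} (hd : ∀ v : Place QBar (FB (p * M)), (p : ℤ) ∣ v.ord g)
    (k : ℕ) (v : Place QBar (FB (p * M))) : (p : ℤ) ∣ v.ord (g ^ k) := by
  rw [FF.ord_pow]
  exact dvd_mul_of_dvd_right (hd v) _

variable [NeZero p]

theorem cls_pow {g : FB (p * M)} (hg : g ≠ 0)
    (hd : ∀ v : Place QBar (FB (p * M)), (p : ℤ) ∣ v.ord g) :
    ∀ k : ℕ, cls p (pow_ne_zero k hg) (dvd_ord_pow hd k) = k • cls p hg hd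
  | 0 => by
    rw [zero_nsmul]
    exact (cls_eq_zero_iff _ _).mpr ⟨1, one_ne_zero, by rw [pow_zero, one_pow]⟩
  | k + 1 => by
    have hk := pow_ne_zero k hg
    have h1 : ∀ v : Place QBar (FB (p * M)), (p : ℤ) ∣ v.ord (g ^ k * g) :=
      pow_succ g k ▸ dvd_ord_pow hd (k + 1)
    exact (((cls_congr (pow_succ g k) _ (mul_ne_zero hk hg) _ h1).trans
      (cls_mul hk hg (dvd_ord_pow hd k) hd h1)).trans
      (congrArg (· + _) (cls_pow hg hd k))).trans (succ_nsmul _ _).symm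

variable [CharP (Res A) p]

theorem isLat_pow {hpM : ¬ p ∣ M} {n : ℕ} {f g : FB (p * M)} (hg : IsLat A hpM n f g) :
    ∀ k : ℕ, IsLat A hpM (k * n) (f ^ k) (g ^ k)
  | 0 => by
    rw [Nat.zero_mul, pow_zero, pow_zero]
    exact ⟨one_mem _, by rw [one_pow, one_mul]; exact one_mem_polesSpace _ _⟩
  | k + 1 => by
    rw [Nat.succ_mul, pow_succ, pow_succ]
    exact (isLat_pow hg k).mul hg

/-- Galois on small elements. -/
theorem small_galF {hpM : ¬ p ∣ M} {τ : GQ} (hτ : τ ∈ A.inertiaSubgroupIn ℚ) {γ : QBar}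
    {x : FB (p * M)} (hx : Small (loc2 A (iota2 M p hpM)) γ x) :
    Small (loc2 A (iota2 M p hpM)) (τ γ) (galF (p * M) τ x) := by
  obtain ⟨w, hw, rfl⟩ := hx
  exact ⟨_, ((resLift_of_inertia hτ).galF_mem_loc2 M p hpM ⟨w, hw⟩).1,
    by rw [map_mul, galF_algebraMap]⟩

variable [FF.IsFunctionField (Res A) (KM A M)] (h : Setup A M p)

/-- The sections of `τ • x + (k + 1) • x` agree with untwisted functions beyond `λ`. -/
theorem approx_twist {n : ℕ} {τ : GQ} (hτ : τ ∈ A.inertiaSubgroupIn ℚ) {lam : QBar}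
    (hlam : lam ≠ 0) (hlamn : lam ∈ A.nonunits) {k : ℕ} (hc : τ lam / lam ∈ A)
    (hres : IsLocalRing.residue A ⟨_, hc⟩ + ((k + 1 : ℕ) : Res A) = 0) {a : FB (p * M)}
    (ha : Approx h n lam a) :
    ∃ ε : QBar, A.valuation ε < A.valuation lam ∧
      Approx h (n + (k + 1) * n) ε (galF (p * M) τ a * a ^ (k + 1)) := by
  have hR := fun c hc => const_mem_loc2 (A := A) (M := M) (p := p) h (c := c) hc
  set R := loc2 A (iota2 M p h.hqM)
  have hlamA := Arith.mem_of_mem_nonunits hlamn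
  obtain ⟨S, hS, hSN, u, hu, hau⟩ := ha
  have haS : a = S + algebraMap QBar (FB (p * M)) lam * u := by rw [← hau]; ring
  obtain ⟨hτS, eS⟩ := (resLift_of_inertia hτ).galF_mem_loc2 M p h.hqM ⟨S, hS⟩
  obtain ⟨hτu, eu⟩ := (resLift_of_inertia hτ).galF_mem_loc2 M p h.hqM ⟨u, hu⟩
  set c : QBar := τ lam / lam with hcdef
  have hτlam : τ lam = c * lam := by rw [hcdef, div_mul_cancel₀ _ hlam]
  -- the linear term
  obtain ⟨B, hB⟩ : ∃ B : loc2 A (iota2 M p h.hqM), B = ⟨_, hR c hc⟩ * ⟨_, hτu⟩ * ⟨S, hS⟩ ^ (k + 1) +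
    ((k + 1 : ℕ) : loc2 A (iota2 M p h.hqM)) * (⟨_, hτS⟩ * ⟨u, hu⟩ * ⟨S, hS⟩ ^ k) := ⟨_, rfl⟩
  have hB0 : red2 A (iota2 M p h.hqM) B = 0 := by
    have e1 : red2 A (iota2 M p h.hqM) ⟨_, hτS⟩ = red2 A (iota2 M p h.hqM) ⟨S, hS⟩ :=
      funext fun s => (eS s).trans (by rw [coeffMap_id])
    have e2 : red2 A (iota2 M p h.hqM) ⟨_, hτu⟩ = red2 A (iota2 M p h.hqM) ⟨u, hu⟩ :=
      funext fun s => (eu s).trans (by rw [coeffMap_id])
    rw [hB]
    exact map_linear_eq_zero _ (fun x => red2_const_mul ⟨c, hc⟩ x) e1 e2 k hres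
  obtain ⟨δ, hδ, hBs⟩ := exists_small_of_red2_eq_zero h.hA (iota2_fracS M p h.hqM) B hB0
  obtain ⟨ε, hεlt, hε1, hε2⟩ : ∃ ε, A.valuation ε < A.valuation lam ∧
      A.valuation (lam * δ) ≤ A.valuation ε ∧ A.valuation (lam ^ 2) ≤ A.valuation ε := by
    have hpos := zero_lt_iff.mpr ((Valuation.ne_zero_iff A.valuation).mpr hlam)
    have h1 : A.valuation (lam * δ) < A.valuation lam := by
      rw [map_mul]; exact mul_lt_of_lt_one_right hpos (A.mem_nonunits_iff.mp hδ)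
    have h2 : A.valuation (lam ^ 2) < A.valuation lam := by
      rw [pow_two, map_mul]; exact mul_lt_of_lt_one_right hpos (A.mem_nonunits_iff.mp hlamn)
    rcases le_total (A.valuation (lam * δ)) (A.valuation (lam ^ 2)) with h' | h'
    · exact ⟨_, h2, h', le_rfl⟩
    · exact ⟨_, h1, le_rfl, h'⟩
  refine ⟨ε, hεlt, galF (p * M) τ S * S ^ (k + 1), mul_mem hτS (pow_mem hS _),
    mul_mem_polesSpace (galF_mem_HN τ hSN) (pow_mem_poles hSN (k + 1)), ?_⟩
  obtain ⟨w, hw, ew⟩ := small_add_pow_one (R := R) hS hu (hR lam hlamA) k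
  have e : galF (p * M) τ a * a ^ (k + 1) - galF (p * M) τ S * S ^ (k + 1) =
      algebraMap QBar (FB (p * M)) lam * (B : FB (p * M)) +
        algebraMap QBar (FB (p * M)) (lam ^ 2) *
          (galF (p * M) τ a * w + ((k + 1 : ℕ) : FB (p * M)) *
            (algebraMap QBar (FB (p * M)) c * galF (p * M) τ u * u * S ^ k)) := by
    have eτ : galF (p * M) τ a = galF (p * M) τ S + algebraMap QBar (FB (p * M)) c *
        algebraMap QBar (FB (p * M)) lam * galF (p * M) τ u := by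
      rw [haS, map_add, map_mul, galF_algebraMap, hτlam, map_mul]
    rw [eτ, map_pow, twist_sub_eq haS (ew.trans (by rw [map_pow])), hB]
    simp only [Subring.coe_add, Subring.coe_mul, SubmonoidClass.coe_pow, SubringClass.coe_natCast]
  rw [e]
  refine ((hBs.const_mul lam).mono hR hε1).add ((Small.intro ?_).mono hR hε2)
  refine add_mem (mul_mem ?_ hw) (mul_mem (natCast_mem R _)
    (mul_mem (mul_mem (mul_mem (hR c hc) hτu) hu) (pow_mem hS k)))
  rw [haS]
  exact ((resLift_of_inertia hτ).galF_mem_loc2 M p h.hqM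
    ⟨_, add_mem hS (mul_mem (hR lam hlamA) hu)⟩).1

omit [CharP (Res A) p] [FF.IsFunctionField (Res A) (KM A M)] in
/-- **Inertia acts by scalars.** -/
theorem exists_smul_eq (hA : A.LiesOverPrime p) (hpM : ¬ p ∣ M) (h4 : 4 ∣ M) {x : JZero (p * M)}
    (hx : IsFlatClass A M p hpM x)
    (hn : ∀ (g : FB (p * M)) (hg : g ≠ 0)
      (hd : ∀ v : Place QBar (FB (p * M)), (p : ℤ) ∣ v.ord g), cls p hg hd = x →
        (∃ G : FB M, G ≠ 0 ∧ normUp p M g = G ^ p) ∧
          ∃ G : FB M, G ≠ 0 ∧ normUp p M (wEquiv p M hpM g) = G ^ p)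
    {τ : GQ} (hτ : τ ∈ A.inertiaSubgroupIn ℚ) : ∃ N : ℕ, τ • x = N • x := by
  classical
  have hp' : p.Prime := hp.out
  have : CharP (Res A) p := Arith.residueField_charP hA hp'
  have hM : (M : Res A) ≠ 0 := by
    rw [Ne, CharP.cast_eq_zero_iff (Res A) p]
    exact hpM
  have := isFunctionField_KM A hM
  have h : Setup A M p := ⟨hA, hpM, hM, goodM_of_dvd (Or.inl rfl) h4 hM⟩
  have hR := fun c hc => const_mem_loc2 (A := A) (M := M) (p := p) h (c := c) hc
  have hpx : p • x = 0 := smul_flat hx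
  obtain ⟨f, hfx, hf1, hf2⟩ := hx
  obtain ⟨γ₀, hγ₀, hs₀⟩ := exists_small_of_red2_eq_zero hA (iota2_fracS M p hpM)
    ((⟨_, hf1⟩ : loc2 A (iota2 M p hpM)) - 1) (map_sub_one_eq_zero _ hf2)
  have hdeep := fun γ (hγ : γ ≠ 0) => deepAt_all hpM hA hn hγ₀
    ⟨_, (f : (FB (p * M))ˣ).ne_zero, f.2, by
      rw [← hfx]
      exact congrArg (fun u : JacTorsion.divGrp QBar (FB (p * M)) p =>
        (JacTorsion.toTorsion (Additive.ofMul u) : JZero (p * M))) (Subtype.ext (Units.ext rfl)),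
      hs₀⟩ hγ
  -- the scalar
  obtain ⟨ζ, hζ⟩ := HasEnoughRootsOfUnity.exists_primitiveRoot QBar p
  obtain ⟨hlt, hpow, hdiv⟩ := zeta_sub_one hA hp' hζ
  set lam := ζ - 1 with hlamdef
  have hlam : lam ≠ 0 := sub_ne_zero.mpr (hζ.ne_one hp'.one_lt)
  obtain ⟨N, hN, hNζ⟩ := hζ.eq_pow_of_pow_eq_one
    (show τ ζ ^ p = 1 by rw [← map_pow, hζ.pow_eq_one, map_one])
  refine ⟨N, ?_⟩
  obtain ⟨k, hk⟩ : ∃ k, p = N + (k + 1) := ⟨p - N - 1, by omega⟩
  have hcA : τ lam / lam ∈ A := by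
    rw [hlamdef, map_sub, map_one, ← hNζ]; exact (hdiv N).1
  have hcres : IsLocalRing.residue A ⟨_, hcA⟩ + ((k + 1 : ℕ) : Res A) = 0 := by
    have e : τ lam / lam = (ζ ^ N - 1) / (ζ - 1) := by rw [hlamdef, map_sub, map_one, ← hNζ]
    have h1 : IsLocalRing.residue A ⟨_, hcA⟩ = (N : Res A) := by
      have h2 := (hdiv N).2
      rw [EC.Reduction.res_of_mem (hdiv N).1] at h2
      rw [← h2]
      exact congrArg _ (Subtype.ext e)
    rw [h1, ← Nat.cast_add, ← hk, CharP.cast_eq_zero]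
  suffices hy : τ • x + (k + 1) • x = 0 by
    have h1 : N • x + (k + 1) • x = 0 := by rw [← add_nsmul, ← hk, hpx]
    exact add_right_cancel (hy.trans h1.symm)
  -- degrees
  obtain ⟨n, hn₀⟩ := exists_goodDeg h
  have hnn : n ≤ n + (k + 1) * n := Nat.le_add_right _ _
  refine eq_zero_of_approx h (hn₀ _ hnn)
    (hn₀ _ (hnn.trans (Nat.le_mul_of_pos_left _ hp'.pos))).deg fun δ hδ hδn => ?_
  have hdeg := hn₀ n le_rfl
  obtain ⟨γ, hγ⟩ : ∃ γ : QBar, γ = (p : QBar) * lam * δ := ⟨_, rfl⟩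
  have hpne : (p : QBar) ≠ 0 := Nat.cast_ne_zero.mpr hp'.ne_zero
  have hγ0 : γ ≠ 0 := hγ ▸ mul_ne_zero (mul_ne_zero hpne hlam) hδ
  have hδle : A.valuation δ ≤ 1 := (A.mem_nonunits_iff.mp hδn).le
  have hγl : A.valuation γ ≤ A.valuation ((p : QBar) * lam) := by
    rw [hγ, map_mul]; exact mul_le_of_le_one_right' hδle
  have hγδ : A.valuation γ ≤ A.valuation δ := by
    rw [hγ, map_mul, map_mul]
    exact mul_le_of_le_one_left' (mul_le_one' (A.mem_nonunits_iff.mp hA).le hlt.le)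
  have hγn : γ ∈ A.nonunits := A.mem_nonunits_iff.mpr
    (hγδ.trans_lt (A.mem_nonunits_iff.mp hδn))
  obtain ⟨g, hg, hd, hgx, hgs⟩ := hdeep γ hγ0
  have hgm : g ∈ loc2 A (iota2 M p hpM) := by
    have := add_mem (hgs.mem (hR γ (Arith.mem_of_mem_nonunits hγn)))
      (one_mem (loc2 A (iota2 M p hpM)))
    rwa [sub_add_cancel] at this
  have hgU : HasUnitRed A M p hpM g :=
    ⟨hgm, (red2_sub_eq h (x := ⟨g, hgm⟩) (y := 1) hγn hgs).trans (map_one _)⟩
  obtain ⟨a₁, ha₁, hr₁⟩ := exists_isLat h hdeg hg hd hgU (h.one_mem_Bn n)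
  obtain ⟨aJ, haJ, hrJ⟩ := exists_isLat h hdeg hg hd hgU (jvec_pow_mem_Bn h n)
  obtain ⟨gy, hgy⟩ : ∃ gy, gy = galF (p * M) τ g * g ^ (k + 1) := ⟨_, rfl⟩
  have hgy0 : gy ≠ 0 := hgy ▸ mul_ne_zero (galF_ne_zero τ hg) (pow_ne_zero _ hg)
  have hdy : ∀ v : Place QBar (FB (p * M)), (p : ℤ) ∣ v.ord gy := fun v => by
    rw [hgy, v.ord_mul (galF_ne_zero τ hg) (pow_ne_zero _ hg)]
    exact dvd_add (dvd_ord_galF τ hd v) (dvd_ord_pow hd _ v)
  have hgys : Small (loc2 A (iota2 M p hpM)) γ (gy - 1) := by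
    rw [mul_sub_one_eq (galF (p * M) τ).toRingHom (m := k + 1) hgy]
    refine ((Small.pow_sub hgm (one_mem (loc2 A (iota2 M p hpM))) hgs _).mul_left
      ((resLift_of_inertia hτ).galF_mem_loc2 M p hpM ⟨g, hgm⟩).1).add
      ((small_galF hτ hgs).mono hR ?_)
    rw [valuation_inertia hτ]
  have hgyU : HasUnitRed A M p hpM gy := by
    obtain ⟨hm, e⟩ := (resLift_of_inertia hτ).galF_mem_loc2 M p hpM ⟨g, hgm⟩
    rw [hgy]
    refine HasUnitRed.mul hpM ⟨hm, funext fun s => (e s).trans ?_⟩ (hgU.pow hpM _)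
    rw [hgU.2, coeffMap_id]
  refine ⟨gy, hgy0, hdy, ?_, hgys.mono hR hγδ, ?_⟩
  · rw [cls_congr hgy hgy0 (mul_ne_zero (galF_ne_zero τ hg) (pow_ne_zero _ hg)) hdy
        (hgy ▸ hdy),
      cls_mul (galF_ne_zero τ hg) (pow_ne_zero _ hg) (dvd_ord_galF τ hd) (dvd_ord_pow hd _)
        (hgy ▸ hdy),
      ← smul_cls τ hg hd, cls_pow hg hd, hgx]
  -- the sections
  have sec : ∀ {a : FB (p * M)} (ha : IsLat A h.hqM n g a),
      ∃ (hy : IsLat A h.hqM (n + (k + 1) * n) gy (galF (p * M) τ a * a ^ (k + 1))),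
        red2 A (iota2 M p h.hqM) ⟨_, hy.1⟩ =
            red2 A (iota2 M p h.hqM) ⟨a, ha.1⟩ ^ (k + 1 + 1) ∧
          ∃ ε, A.valuation ε < A.valuation lam ∧
            Approx h (n + (k + 1) * n) ε (galF (p * M) τ a * a ^ (k + 1)) := by
    intro a ha
    have hy : IsLat A h.hqM (n + (k + 1) * n) gy (galF (p * M) τ a * a ^ (k + 1)) :=
      hgy ▸ (ha.galF ⟨τ, hτ⟩).mul (isLat_pow ha (k + 1))
    refine ⟨hy, ?_, approx_twist h hτ hlam (A.mem_nonunits_iff.mpr hlt) hcA hcres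
      (approx_lambda h hdeg hgU hpow hγl hgs ha)⟩
    obtain ⟨hm, e⟩ := (resLift_of_inertia hτ).galF_mem_loc2 M p h.hqM ⟨a, ha.1⟩
    have e1 : red2 A (iota2 M p h.hqM) ⟨_, hm⟩ = red2 A (iota2 M p h.hqM) ⟨a, ha.1⟩ :=
      funext fun s => (e s).trans (by rw [coeffMap_id])
    exact map_mul_pow_succ _ e1 (Subtype.ext rfl)
  obtain ⟨hy₁, hry₁, ε₁, hε₁, hap₁⟩ := sec ha₁
  obtain ⟨hyJ, hryJ, εJ, hεJ, hapJ⟩ := sec haJ
  rw [hr₁, one_pow] at hry₁
  rw [hrJ, ← pow_mul, show n * (k + 1 + 1) = n + (k + 1) * n by ring] at hryJ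
  obtain ⟨ε, hεlt, hle₁, hleJ⟩ : ∃ ε, A.valuation ε < A.valuation lam ∧
      A.valuation ε₁ ≤ A.valuation ε ∧ A.valuation εJ ≤ A.valuation ε := by
    rcases le_total (A.valuation ε₁) (A.valuation εJ) with h' | h'
    · exact ⟨εJ, hεJ, h', le_rfl⟩
    · exact ⟨ε₁, hε₁, le_rfl, h'⟩
  refine ⟨_, hy₁, hry₁, Approx.mono h (approx_deep h (hn₀ _ hnn) hgyU hpow hεlt hgys hy₁ hyJ
    hry₁ hryJ (Approx.mono h hap₁ hle₁) (Approx.mono h hapJ hleJ)).1 ?_⟩
  rw [hγ, mul_assoc, mul_div_cancel_left₀ _ hpne, map_mul]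
  exact mul_le_of_le_one_left' hlt.le

end Fermat.Agent.RT.Lift.LowerP

end
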