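import Fermat.Agent.RT.Lift.LowerP.GoodLocal
import Fermat.Agent.RT.Lift.LowerP.Newness
import Fermat.Agent.RT.Lift.LowerP.Ordinary
import Fermat.Agent.RT.Lift.LowerP.Toric
import Fermat.Agent.RT.Lift.LowerSqAux
import Fermat.Agent.OrdinaryAtP.Classes
import Fermat.Agent.Arith.Frobenius

/-!
# Lowering at a good `p`

If `W` is good at the odd `p`, has irreducible `E[p]` and is residually modular of level `p M`
(`p ∤ M`), it is residually modular of every level `N` prime to `p` with `M ∣ N` and `4 ∣ N`. The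
torsion is seen inside the Jacobian of level `p N`. In the supersingular case a class moved by
inertia is flat, so either both its norms are `p`-th powers and inertia stabilises its line, which
no line of `E[p]` allows, or `W` is modular of level `N`. In the ordinary case one is left with a
fixed class or a wild plane.
-/

set_option autoImplicit false
set_option synthInstance.maxHeartbeats 400000
set_option maxHeartbeats 400000

noncomputable section

namespace Fermat.Agent.RT.Lift.LowerP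

open AlgebraicCurve ModularCurve Fermat.Agent.Semistable WeierstrassCurve
open Fermat.Agent.RT.MazurP (cls eigenPrimes CongrForm)
open Fermat.Agent.EC.Reduction Fermat.Agent.EC.Rep
open Fermat.Agent.EC.AtP (PointQBar)
open Arith (QBar GQ)
open NewformLocal.Toric (normUp)

variable {W : WeierstrassCurve ℤ} {p : ℕ} [Fact p.Prime]

omit [Fact p.Prime] in
/-- Residual modularity passes to multiples of the level. -/
theorem isResiduallyModular_multiple {M L : ℕ} (hL : L ≠ 0) (hML : M ∣ L)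
    (h : W.IsResiduallyModularOfLevel p M) : W.IsResiduallyModularOfLevel p L := by
  obtain ⟨f, 𝔪, hf, hm, hpm, hcong⟩ := h
  obtain ⟨g, hg, hgf⟩ := exists_eigen_multiple hL hML hf
  refine ⟨g, 𝔪, hg, hm, hpm, fun ℓ hℓ hgood hℓL hℓp => ?_⟩
  rw [hgf ℓ hℓ hℓL]
  exact hcong ℓ hℓ hgood (fun h => hℓL (h.trans hML)) hℓp

variable {N : ℕ} [NeZero N]

omit [NeZero N] in
/-- The congruent form gives residual modularity. -/
theorem isResiduallyModular_of_congrForm
    (h : CongrForm N p (eigenPrimes W p (p * N)) W.apOfModel) :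
    W.IsResiduallyModularOfLevel p N := by
  obtain ⟨g, hg, 𝔪, hm, hpm, hcong⟩ := h
  refine ⟨g, 𝔪, hg, hm, hpm, fun ℓ hℓ hgood hℓN hℓp => hcong ℓ hℓ ⟨⟨hgood, hℓp⟩, fun h => ?_⟩⟩
  exact (hℓ.dvd_mul.mp h).elim
    (fun h => hℓp ((Nat.prime_dvd_prime_iff_eq hℓ Fact.out).mp h)) hℓN

variable {A : ValuationSubring QBar} (hA : A.LiesOverPrime p) (hp2 : p ≠ 2)
  (hgood : W.IsGoodPrimeFor p) (hirr : W.ModRepIsIrreducible p) (h4 : 4 ∣ N)
  (hmod : W.IsResiduallyModularOfLevel p (p * N))

include hA hp2 hgood hirr h4 hmod in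
/-- The supersingular case. -/
theorem lower_of_supersingular
    (hall : ∀ x : PointQBar W, (p : ℤ) • x = 0 → InE1 A x) (hpN : ¬ p ∣ N) :
    W.IsResiduallyModularOfLevel p N := by
  by_contra hN
  have hp : p.Prime := Fact.out
  have hΔ := Δ_ne_zero_of_good hgood
  have : CharP (Res A) p := Arith.residueField_charP hA hp
  obtain ⟨ι, hι, hιg, hιe⟩ := MazurP.exists_eigen_embedding (N := p * N) hΔ hp2 hirr hmod
  have : Nontrivial (residualRep W p hΔ).V :=
    Module.nontrivial_of_finrank_eq_succ (R := ZMod p) (residualRep W p hΔ).finrank_eq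
  obtain ⟨v, hv⟩ := exists_ne (0 : (residualRep W p hΔ).V)
  obtain ⟨τ, hτ, hτv⟩ := exists_inertia_smul_ne hA hp2 hgood hall
    ((Submodule.mem_torsionBy_iff _ _).mp v.2) (fun h => hv (Subtype.ext h))
  set w := (residualRep W p hΔ).ρ τ v - v with hw
  have hw0 : w ≠ 0 := fun h => hτv 1 (by
    rw [one_zsmul]; exact congrArg Subtype.val (sub_eq_zero.mp h))
  have hxm : ι w ∈ OrdinaryAtP.movedGroup A (p * N) p := by
    refine AddSubgroup.subset_closure ⟨τ, hτ, ι v, 1, ?_, ?_⟩
    · rw [pow_one]; exact (hιe v).1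
    · rw [hw, map_sub, hιg]
  have hflat := OrdinaryAtP.isFlatClass_of_mem_movedGroup (hpM := hpN) hA h4 hxm (hιe w).1
  have hn : ∀ (g : FB (p * N)) (hg : g ≠ 0)
      (hd : ∀ v : Place QBar (FB (p * N)), (p : ℤ) ∣ v.ord g), cls p hg hd = ι w →
        (∃ G : FB N, G ≠ 0 ∧ normUp p N g = G ^ p) ∧
          ∃ G : FB N, G ≠ 0 ∧ normUp p N (wEquiv p N hpN g) = G ^ p := fun g hg hd hx => by
    refine (norms_or_modular hpN hg hd ?_).resolve_right hN
    rw [hx]
    exact fun l hl hG => (hιe w).2 l hl ⟨⟨hG.1, hG.2.1⟩, hG.2.2⟩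
  obtain ⟨σ, hσ, hσw⟩ := exists_inertia_smul_ne hA hp2 hgood hall
    ((Submodule.mem_torsionBy_iff _ _).mp w.2) (fun h => hw0 (Subtype.ext h))
  have : NeZero p := ⟨hp.ne_zero⟩
  obtain ⟨k, hk⟩ := exists_smul_eq hA hpN h4 hflat hn hσ
  rw [← hιg, ← map_nsmul] at hk
  refine hσw k ?_
  rw [natCast_zsmul]
  exact congrArg Subtype.val (hι hk)

include hA hp2 hgood hirr hmod in
/-- The ordinary case. -/
theorem lower_of_ordinary (hord : ∃ x : PointQBar W, (p : ℤ) • x = 0 ∧ ¬ InE1 A x)
    (h4 : 4 ∣ N) (hpN : ¬ p ∣ N) : W.IsResiduallyModularOfLevel p N := by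
  have hΔ := Δ_ne_zero_of_good hgood
  obtain ⟨⟨F⟩, -⟩ := exists_goodFrame hA hp2 hgood hord
  have hp3 : 3 ≤ p := by have := (Fact.out : p.Prime).two_le; omega
  refine isResiduallyModular_of_congrForm (congrForm_of_fixedOrWild' hA hp3 h4 hpN hΔ hirr
    (MazurP.fixedOrWild_of_basis hA hΔ hp2 hirr hmod
    F.R F.S F.hR F.hS F.R_ne (fun a e => F.S_not ?_) F.span F.smul_R F.smul_S
    ((good_wildKer_eq_tameKer_or_exists_wild hA hp2 hgood hord).imp_right
      fun ⟨Wd, hC, hC₁, hmove, _⟩ => ⟨Wd, hC, hC₁, hmove⟩)))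
  have hred := reducesTo_int W A
  show F.S ∈ hred.E1
  rw [e]
  exact zsmul_mem (show F.R ∈ hred.E1 from F.R_inE1) a

include hp2 hgood hirr h4 in
omit hA hmod in
/-- **Lowering at a good `p`.** -/
theorem isResiduallyModular_lower_good (hpN : ¬ p ∣ N) {M : ℕ} (hMN : M ∣ N)
    (hres : W.IsResiduallyModularOfLevel p (p * M)) :
    W.IsResiduallyModularOfLevel p N := by
  have hp : p.Prime := Fact.out
  obtain ⟨A, hA⟩ := Arith.exists_liesOverPrime hp
  have hmod : W.IsResiduallyModularOfLevel p (p * N) :=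
    isResiduallyModular_multiple (mul_ne_zero hp.ne_zero (NeZero.ne N)) (mul_dvd_mul_left p hMN) hres
  by_cases hall : ∀ x : PointQBar W, (p : ℤ) • x = 0 → InE1 A x
  · exact lower_of_supersingular hA hp2 hgood hirr h4 hmod hall hpN
  · simp only [not_forall] at hall
    obtain ⟨x, hx, hx1⟩ := hall
    exact lower_of_ordinary hA hp2 hgood hirr hmod ⟨x, hx, hx1⟩ h4 hpN

end Fermat.Agent.RT.Lift.LowerP

end
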