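import Fermat.Agent.OrdinaryAtP.Generators

/-!
# Roots and colons of the spaces of reductions
-/

set_option autoImplicit false
set_option synthInstance.maxHeartbeats 400000
set_option maxHeartbeats 1000000
set_option linter.unusedSectionVars false

noncomputable section

namespace Fermat.Agent.RT.Lift.LowerP

open ModularCurve AlgebraicCurve Fermat.Agent.Semistable Fermat.Agent.OrdinaryAtP
open Arith (QBar GQ)

variable {A : ValuationSubring QBar} {M p : ℕ} [NeZero M] [hp : Fact p.Prime] [CharP (Res A) p]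
  [FF.IsFunctionField (Res A) (KM A M)] (h : Setup A M p)
include h

/-- A `p`-th root of a reduction of degree `p n` is a reduction of degree `n`. -/
theorem exists_red_of_pow : ∃ n₀ : ℕ, ∀ n, n₀ ≤ n → ∀ x : loc2 A (iota2 M p h.hqM),
    red2 A (iota2 M p h.hqM) x ^ p ∈ Bn A M p h.hqM (p * n) →
      red2 A (iota2 M p h.hqM) x ∈ Bn A M p h.hqM n := by
  obtain ⟨n₂, hn₂⟩ := h.exists_glued
  refine ⟨n₂, fun n hn x hpow => ?_⟩
  have hnn : n ≤ p * n := Nat.le_mul_of_pos_left n hp.out.pos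
  have hcomp : ∀ s, ∃ z : Rk A M, serR A M z = red2 A (iota2 M p h.hqM) x s ∧
      (z : KM A M) ∈ Hk A M (sideDeg p s * n) := by
    intro s
    have hmem := red2_mem_KM M p h.hqM h.hM x s
    have h1 : red2 A (iota2 M p h.hqM) x s ^ p ∈ HkS A M (sideDeg p s * (p * n)) := by
      have hP := (mem_Pk A M).mp (Bn_le_Pk M p h.hqM h.hA h.hM _ hpow)
      fin_cases s
      · simpa [sideDeg] using hP.1
      · simpa [sideDeg] using hP.2
    refine exists_serR (coe_mem_HkS (x := (⟨_, hmem⟩ : KM A M)).mpr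
      (root_mem_polesSpace hp.out.ne_zero ?_))
    refine coe_mem_HkS.mp ?_
    rw [show p * (sideDeg p s * n) = sideDeg p s * (p * n) by ring]
    exact h1
  obtain ⟨a, ea, ha⟩ := hcomp 0
  obtain ⟨b, eb, hb⟩ := hcomp 1
  rw [← (hn₂ n (by omega)).2]
  refine h.mem_glued.mpr ⟨a, b, by simpa [sideDeg] using ha, by simpa [sideDeg] using hb, ?_, ?_⟩
  · rw [ea, eb]
    funext s
    fin_cases s <;> rfl
  · intro χ
    rw [← (hn₂ (p * n) (by omega)).2] at hpow
    have e : red2 A (iota2 M p h.hqM) x ^ p = ![serR A M (a ^ p), serR A M (b ^ p)] := by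
      funext s
      fin_cases s <;> simp [ea, eb]
    rw [e] at hpow
    have h2 := h.rel_of_glued hpow χ
    simp only [Pi.one_apply, one_mul, map_pow] at h2 ⊢
    exact frobenius_inj (Res A) p (by simpa [frobenius_def] using h2)

/-- A power of `j` is cancelled. -/
theorem exists_colon_pow : ∃ n₀ : ℕ, ∀ n, n₀ ≤ n → ∀ B k : ℕ, ∀ r ∈ Bn A M p h.hqM B,
    jvec A p ^ k * r ∈ Bn A M p h.hqM (n + k) → r ∈ Bn A M p h.hqM n := by
  obtain ⟨n₁, hn₁⟩ := h.exists_descend
  refine ⟨n₁, fun n hn B k r hr hjr => hn₁ n hn (B + n) (by omega) r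
    (h.Bn_mono (Nat.le_add_right B n) hr) ?_⟩
  obtain ⟨hr0, hr1⟩ := (mem_Pk A M).mp (Bn_le_Pk M p h.hqM h.hA h.hM _ hr)
  obtain ⟨hjr0, hjr1⟩ := (mem_Pk A M).mp (Bn_le_Pk M p h.hqM h.hA h.hM _ hjr)
  obtain ⟨z0, e0, hz0⟩ := exists_serR hr0
  obtain ⟨z1, e1, hz1⟩ := exists_serR hr1
  have hord : ∀ e : ℕ, ∀ v : Place (Res A) (KM A M), v.ord (jK A M) < 0 →
      jK A M ^ e ≠ 0 ∧ v.ord (jK A M ^ e) = e * v.ord (jK A M) := fun e v hv =>
    ⟨pow_ne_zero _ fun h0 => by simp [h0] at hv, FF.ord_pow v _ _⟩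
  refine (mem_Pk A M).mpr ⟨?_, ?_⟩
  · rw [← e0]
    refine coe_mem_HkS.mpr (cancel_poles (hord k) (b' := n + k) (by omega) hz0 ?_)
    refine coe_mem_HkS.mp ?_
    convert hjr0 using 1
    rw [Pi.mul_apply, Pi.pow_apply, ← e0]
    simp [serR, jvec, coe_jK]
  · rw [← e1]
    refine coe_mem_HkS.mpr (cancel_poles (hord (p * k)) (b' := p * (n + k))
      (le_of_eq (by ring)) hz1 ?_)
    refine coe_mem_HkS.mp ?_
    convert hjr1 using 1
    rw [Pi.mul_apply, Pi.pow_apply, ← e1]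
    simp [serR, jvec, coe_jK, pow_mul]

end Fermat.Agent.RT.Lift.LowerP

end
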