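import Fermat.Agent.RT.Lift.LowerP.Near
import Fermat.Agent.RT.Lift.LowerP.Colon
import Fermat.Agent.OrdinaryAtP.SpaceOps

/-!
# Approximation of sections by functions regular away from the cusps

For a Kummer function congruent to one modulo a small `γ`, its sections are congruent to functions
of the untwisted space modulo `ζ - 1`, and modulo `γ / p` if modulo less than `ζ - 1`.
-/

set_option autoImplicit false
set_option synthInstance.maxHeartbeats 400000
set_option maxHeartbeats 1000000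
set_option linter.unusedSectionVars false

noncomputable section

namespace Fermat.Agent.RT.Lift.LowerP

open ModularCurve AlgebraicCurve Fermat.Agent.Semistable Fermat.Agent.OrdinaryAtP
open Arith (QBar GQ)

variable {A : ValuationSubring QBar} {M p : ℕ} [NeZero M] [hp : Fact p.Prime]

/-- The linear term of a `p`-th power. -/
theorem small_add_pow_linear {F : Type*} [Field F] [Algebra QBar F] {R : Subring F} {γ : QBar}
    {a b : F} (ha : a ∈ R) (hb : b ∈ R) (hγ : algebraMap QBar F γ ∈ R) :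
    Small R ((p : QBar) * γ ^ 2) ((a + algebraMap QBar F γ * b) ^ p - a ^ p -
      algebraMap QBar F (γ ^ p) * b ^ p - algebraMap QBar F ((p : QBar) * γ) * (b * a ^ (p - 1))) := by
  classical
  have hp' : p.Prime := hp.out
  have hp2 := hp'.two_le
  set t : ℕ → F := fun m => (algebraMap QBar F γ * b) ^ m * a ^ (p - m) * (p.choose m : F) with ht
  have hsum : (a + algebraMap QBar F γ * b) ^ p = ∑ m ∈ Finset.range (p + 1), t m := by
    rw [add_comm, add_pow]
  have hsub : ({0, 1, p} : Finset ℕ) ⊆ Finset.range (p + 1) := by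
    intro m hm
    simp only [Finset.mem_insert, Finset.mem_singleton] at hm
    rw [Finset.mem_range]
    omega
  have h3 : ∑ m ∈ ({0, 1, p} : Finset ℕ), t m = a ^ p +
      algebraMap QBar F ((p : QBar) * γ) * (b * a ^ (p - 1)) +
        algebraMap QBar F (γ ^ p) * b ^ p := by
    rw [Finset.sum_insert (by simp [hp'.ne_zero.symm]), Finset.sum_pair (by omega)]
    simp only [ht, pow_zero, Nat.choose_zero_right, Nat.cast_one, Nat.sub_zero, one_mul, mul_one,
      pow_one, Nat.choose_one_right, Nat.choose_self, Nat.sub_self, map_mul, map_natCast,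
      map_pow, mul_pow]
    ring
  rw [hsum, ← Finset.sum_sdiff hsub, h3, show ∀ S u v w : F, S + (u + v + w) - u - w - v = S from
    fun S u v w => by ring]
  refine small_sum _ fun m hm => ?_
  simp only [Finset.mem_sdiff, Finset.mem_range, Finset.mem_insert, Finset.mem_singleton,
    not_or] at hm
  obtain ⟨c, hc⟩ := hp'.dvd_choose_self (show m ≠ 0 by omega) (show m < p by omega)
  obtain ⟨i, rfl⟩ : ∃ i, m = i + 2 := ⟨m - 2, by omega⟩
  refine ⟨algebraMap QBar F γ ^ i * b ^ (i + 2) * a ^ (p - (i + 2)) * (c : F),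
    mul_mem (mul_mem (mul_mem (pow_mem hγ _) (pow_mem hb _)) (pow_mem ha _)) (natCast_mem R c), ?_⟩
  simp only [ht, hc, Nat.cast_mul, map_mul, map_natCast, map_pow]
  ring

variable [CharP (Res A) p] [FF.IsFunctionField (Res A) (KM A M)] (h : Setup A M p)

/-- Degrees in which the arguments work. -/
structure GoodDeg (n : ℕ) : Prop where
  deg : IsDegree h n
  root : ∀ m, n ≤ m → ∀ x : loc2 A (iota2 M p h.hqM),
    red2 A (iota2 M p h.hqM) x ^ p ∈ Bn A M p h.hqM (p * m) →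
      red2 A (iota2 M p h.hqM) x ∈ Bn A M p h.hqM m
  colon : ∀ B k : ℕ, ∀ r ∈ Bn A M p h.hqM B,
    jvec A p ^ k * r ∈ Bn A M p h.hqM (n + k) → r ∈ Bn A M p h.hqM n

theorem exists_goodDeg : ∃ n₀ : ℕ, ∀ n, n₀ ≤ n → GoodDeg h n := by
  obtain ⟨a, ha⟩ := exists_isDegree h
  obtain ⟨b, hb⟩ := exists_red_of_pow h
  obtain ⟨c, hc⟩ := exists_colon_pow h
  exact ⟨a + b + c, fun n hn => ⟨ha n (by omega), fun m hm => hb m (by omega), hc n (by omega)⟩⟩

theorem const_mem_loc2 {c : QBar} (hc : c ∈ A) : algebraMap QBar (FB (p * M)) c ∈ (loc2 A (iota2 M p h.hqM)) :=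
  algebraMap_mem_loc2 _ hc

theorem isLat_one {n : ℕ} {S : FB (p * M)} (hS : S ∈ (loc2 A (iota2 M p h.hqM))) (hSN : S ∈ HN M p n) :
    IsLat A h.hqM n 1 S :=
  ⟨hS, by rw [mul_one]; exact pow_mem_poles hSN p⟩

theorem jvec_pow_mem_Bn (n : ℕ) : jvec A p ^ n ∈ Bn A M p h.hqM n := by
  induction n with
  | zero => rw [pow_zero]; exact h.one_mem_Bn 0
  | succ n ih => rw [pow_succ]; exact h.mul_mem_Bn ih (jvec_mem_Bn h)

theorem red2_sub_eq {x y : (loc2 A (iota2 M p h.hqM))} {δ : QBar} (hδ : δ ∈ A.nonunits)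
    (hs : Small (loc2 A (iota2 M p h.hqM)) δ ((x : FB (p * M)) - y)) :
    red2 A (iota2 M p h.hqM) x = red2 A (iota2 M p h.hqM) y := by
  rw [← sub_eq_zero, ← map_sub]
  exact red2_eq_zero_of_small hδ hs

/-- The leading term of an element of a space reduces into the space of reductions. -/
theorem red2_mem_of_leading {m : ℕ} {X : FB (p * M)} (hX : X ∈ HN M p m) {c δ : QBar} (hc : c ≠ 0)
    (hδ : A.valuation δ < A.valuation c) (v : (loc2 A (iota2 M p h.hqM)))
    (hs : Small (loc2 A (iota2 M p h.hqM)) δ (X - algebraMap QBar (FB (p * M)) c * v)) :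
    red2 A (iota2 M p h.hqM) v ∈ Bn A M p h.hqM m := by
  have hR := fun a ha => const_mem_loc2 (A := A) (M := M) (p := p) h (c := a) ha
  set y : FB (p * M) := algebraMap QBar (FB (p * M)) c⁻¹ * X with hy
  have hdn : c⁻¹ * δ ∈ A.nonunits := by
    rw [ValuationSubring.mem_nonunits_iff, map_mul, map_inv₀, inv_mul_lt_iff₀
      (zero_lt_iff.mpr ((Valuation.ne_zero_iff _).mpr hc)), mul_one]
    exact hδ
  have hs' : Small (loc2 A (iota2 M p h.hqM)) (c⁻¹ * δ) (y - v) := by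
    have := hs.const_mul c⁻¹
    rwa [mul_sub, ← mul_assoc, ← map_mul, inv_mul_cancel₀ hc, map_one, one_mul] at this
  have hym : y ∈ (loc2 A (iota2 M p h.hqM)) := by
    have := add_mem (hs'.mem (hR _ (Arith.mem_of_mem_nonunits hdn))) v.2
    rwa [sub_add_cancel] at this
  refine mem_redSub.mpr ⟨⟨y, hym⟩, ?_, red2_sub_eq h hdn hs'⟩
  show y ∈ HN M p m
  rw [hy, ← Algebra.smul_def]
  exact Submodule.smul_mem _ _ hX

/-- Reductions of sections. -/
theorem red2_isLat_mem {n m : ℕ} (hn : GoodDeg h n) (hm : n ≤ m) {g a : FB (p * M)}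
    (hg : HasUnitRed A M p h.hqM g) (ha : IsLat A h.hqM m g a) :
    red2 A (iota2 M p h.hqM) ⟨a, ha.1⟩ ∈ Bn A M p h.hqM m := by
  refine hn.root m hm _ (mem_redSub.mpr ⟨⟨a, ha.1⟩ ^ p * ⟨g, hg.1⟩,
    (by rw [MulMemClass.coe_mul, SubmonoidClass.coe_pow]; exact ha.2), ?_⟩)
  rw [map_mul, map_pow, hg.2, mul_one]

/-- Sections with given reductions. -/
theorem exists_isLat {n : ℕ} (hn : GoodDeg h n) [NeZero p] {g : FB (p * M)} (hg0 : g ≠ 0)
    (hd : ∀ v : Place QBar (FB (p * M)), (p : ℤ) ∣ v.ord g) (hg : HasUnitRed A M p h.hqM g)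
    {r : Fin 2 → LaurentSeries (Res A)} (hr : r ∈ Bn A M p h.hqM n) :
    ∃ (a : FB (p * M)) (ha : IsLat A h.hqM n g a),
      red2 A (iota2 M p h.hqM) ⟨a, ha.1⟩ = r := by
  set u : JacTorsion.divGrp QBar (FB (p * M)) p := ⟨Units.mk0 g hg0, hd⟩
  have hord : ∀ v, v.ord g = (p : ℤ) * JacTorsion.divQuot u v := fun v => by
    have e1 : (p : ℤ) * JacTorsion.divQuot u v = ((p : ℤ) • JacTorsion.divQuot u) v := rfl
    rw [e1, JacTorsion.smul_divQuot u, JacTorsion.div_apply]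
    rfl
  rw [← hn.deg.twist g _ hord hg] at hr
  obtain ⟨x, hx, rfl⟩ := mem_redSub.mp hr
  exact ⟨x, ⟨x.2, pow_mul_mem_HN hx hord⟩, rfl⟩

/-- `a` is congruent modulo `δ` to an integral function of degree `n`. -/
def Approx (n : ℕ) (δ : QBar) (a : FB (p * M)) : Prop :=
  ∃ S : FB (p * M), S ∈ (loc2 A (iota2 M p h.hqM)) ∧ S ∈ HN M p n ∧ Small (loc2 A (iota2 M p h.hqM)) δ (a - S)

theorem Approx.mono {n : ℕ} {δ δ' : QBar} {a : FB (p * M)} (ha : Approx h n δ a)
    (hle : A.valuation δ ≤ A.valuation δ') : Approx h n δ' a := by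
  obtain ⟨S, hS, hSN, hs⟩ := ha
  exact ⟨S, hS, hSN, hs.mono (fun c hc => const_mem_loc2 h hc) hle⟩

/-- The best approximation. -/
theorem exists_best {n : ℕ} (a : (loc2 A (iota2 M p h.hqM))) (ha : red2 A (iota2 M p h.hqM) a ∈ Bn A M p h.hqM n) :
    (a : FB (p * M)) ∈ HN M p n ∨
      ∃ (ε : QBar) (S u : (loc2 A (iota2 M p h.hqM))), ε ≠ 0 ∧ ε ∈ A.nonunits ∧ (S : FB (p * M)) ∈ HN M p n ∧
        (a : FB (p * M)) = S + algebraMap QBar (FB (p * M)) ε * u ∧
        red2 A (iota2 M p h.hqM) u ∉ Bn A M p h.hqM n := by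
  by_cases hmem : (a : FB (p * M)) ∈ HN M p n
  · exact Or.inl hmem
  refine Or.inr ?_
  set V := HN M p n ⊔ Submodule.span QBar {(a : FB (p * M))}
  have : FiniteDimensional QBar (HN M p n) := inferInstance
  have : FiniteDimensional QBar V := inferInstance
  have hlt : HN M p n < V := lt_of_le_not_ge le_sup_left fun hle =>
    hmem (hle (Submodule.mem_sup_right (Submodule.mem_span_singleton_self _)))
  obtain ⟨hf1, hd1⟩ := finrank_redSub p h.hA (iota2 M p h.hqM) (iota2_fracS M p h.hqM) (HN M p n)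
  obtain ⟨hf2, hd2⟩ := finrank_redSub p h.hA (iota2 M p h.hqM) (iota2_fracS M p h.hqM) V
  obtain ⟨r, hr, hrn⟩ : ∃ r ∈ redSub A (iota2 M p h.hqM) V, r ∉ Bn A M p h.hqM n := by
    by_contra hall
    push Not at hall
    have : FiniteDimensional (Res A) (Bn A M p h.hqM n) := hf1
    have h1 := Submodule.finrank_mono (R := Res A) (s := redSub A (iota2 M p h.hqM) V)
      (t := Bn A M p h.hqM n) hall
    have h2 := Submodule.finrank_lt_finrank_of_lt hlt
    have e1 : Module.finrank (Res A) (Bn A M p h.hqM n) =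
        Module.finrank QBar (HN M p n) := hd1
    omega
  obtain ⟨x, hx, rfl⟩ := mem_redSub.mp hr
  obtain ⟨S₀, hS₀, z, hz, hxe⟩ := Submodule.mem_sup.mp hx
  obtain ⟨c, rfl⟩ := Submodule.mem_span_singleton.mp hz
  rw [Algebra.smul_def] at hxe
  have hcA : c ∉ A := fun hc => hrn (by
    have hS₀m : S₀ ∈ (loc2 A (iota2 M p h.hqM)) := by
      rw [eq_sub_of_add_eq hxe]
      exact sub_mem x.2 (mul_mem (const_mem_loc2 h hc) a.2)
    have h1 : red2 A (iota2 M p h.hqM) ⟨S₀, hS₀m⟩ ∈ Bn A M p h.hqM n :=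
      mem_redSub.mpr ⟨⟨S₀, hS₀m⟩, hS₀, rfl⟩
    have h2 : red2 A (iota2 M p h.hqM) (⟨_, const_mem_loc2 h hc⟩ * a) ∈ Bn A M p h.hqM n := by
      rw [red2_const_mul ⟨c, hc⟩ a]
      exact Submodule.smul_mem _ _ ha
    rw [show x = ⟨S₀, hS₀m⟩ + ⟨_, const_mem_loc2 h hc⟩ * a from Subtype.ext hxe.symm, map_add]
    exact add_mem h1 h2)
  have hc0 : c ≠ 0 := fun h0 => hcA (h0 ▸ zero_mem A)
  have hcn : c⁻¹ ∈ A.nonunits := (Arith.eq_zero_or_mem_nonunits_or (A := A) (x := c)).resolve_left hcA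
  refine ⟨c⁻¹, ⟨(a : FB (p * M)) - algebraMap QBar (FB (p * M)) c⁻¹ * x,
    sub_mem a.2 (mul_mem (const_mem_loc2 h (Arith.mem_of_mem_nonunits hcn)) x.2)⟩, x,
    inv_ne_zero hc0, hcn, ?_, (sub_add_cancel _ _).symm, hrn⟩
  show (a : FB (p * M)) - algebraMap QBar (FB (p * M)) c⁻¹ * (x : FB (p * M)) ∈ HN M p n
  have e : (a : FB (p * M)) - algebraMap QBar (FB (p * M)) c⁻¹ * (x : FB (p * M)) =
      (-c⁻¹) • S₀ := by
    rw [← hxe, mul_add, ← mul_assoc, ← map_mul, inv_mul_cancel₀ hc0, map_one, one_mul, neg_smul,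
      Algebra.smul_def]
    ring
  rw [e]
  exact Submodule.smul_mem _ _ hS₀

/-- A best approximation is best. -/
theorem valuation_le_of_approx {n : ℕ} {ε ε' : QBar} (hε : ε ≠ 0) {a : FB (p * M)} {S u : (loc2 A (iota2 M p h.hqM))}
    (hSN : (S : FB (p * M)) ∈ HN M p n) (he : a = S + algebraMap QBar (FB (p * M)) ε * u)
    (hu : red2 A (iota2 M p h.hqM) u ∉ Bn A M p h.hqM n) (ha : Approx h n ε' a) :
    A.valuation ε ≤ A.valuation ε' := by
  by_contra hlt
  rw [not_le] at hlt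
  obtain ⟨S', hS', hS'N, hs⟩ := ha
  refine hu (red2_mem_of_leading h (X := S' - S) (sub_mem hS'N hSN) hε hlt u ?_)
  have := hs.neg
  convert this using 1
  rw [he]
  ring

section Regimes

variable {n : ℕ} (hn : GoodDeg h n) {g : FB (p * M)} (hg : HasUnitRed A M p h.hqM g) {γ : QBar}
  (hγ : Small (loc2 A (iota2 M p h.hqM)) γ (g - 1))
include hn hg hγ

/-- Large errors are excluded. -/
theorem regime_large {a : FB (p * M)} (ha : IsLat A h.hqM n g a) {ε : QBar} (hε : ε ≠ 0)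
    (hεn : ε ∈ A.nonunits) (hεp : A.valuation (p : QBar) < A.valuation ε ^ (p - 1))
    (hγε : A.valuation γ < A.valuation (ε ^ p)) {S u : (loc2 A (iota2 M p h.hqM))} (hSN : (S : FB (p * M)) ∈ HN M p n)
    (he : a = S + algebraMap QBar (FB (p * M)) ε * u) :
    red2 A (iota2 M p h.hqM) u ∈ Bn A M p h.hqM n := by
  have hR := fun c hc => const_mem_loc2 (A := A) (M := M) (p := p) h (c := c) hc
  have hεA := Arith.mem_of_mem_nonunits hεn
  refine hn.root n le_rfl u ?_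
  rw [← map_pow]
  have hX : a ^ p * g - (S : FB (p * M)) ^ p ∈ HN M p (p * n) :=
    sub_mem ha.2 (pow_mem_poles hSN p)
  have h1 := small_add_pow_sub (R := (loc2 A (iota2 M p h.hqM))) hp.out S.2 u.2 (hR ε hεA)
  rw [← he] at h1
  obtain ⟨δ, hδ, hδp, hδγ⟩ : ∃ δ, A.valuation δ < A.valuation (ε ^ p) ∧
      A.valuation ((p : QBar) * ε) ≤ A.valuation δ ∧ A.valuation γ ≤ A.valuation δ := by
    have h2 : A.valuation ((p : QBar) * ε) < A.valuation (ε ^ p) := by
      rw [map_mul, map_pow]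
      conv_rhs => rw [← Nat.sub_add_cancel hp.out.one_le, pow_succ]
      exact mul_lt_mul_of_pos_right hεp (zero_lt_iff.mpr ((Valuation.ne_zero_iff _).mpr hε))
    rcases le_total (A.valuation γ) (A.valuation ((p : QBar) * ε)) with h' | h'
    · exact ⟨_, h2, le_rfl, h'⟩
    · exact ⟨γ, hγε, h', le_rfl⟩
  refine red2_mem_of_leading h hX (pow_ne_zero p hε) hδ (u ^ p) ?_
  have h3 := (h1.mono hR hδp).add ((hγ.mul_left (pow_mem ha.1 p)).mono hR hδγ)
  convert h3 using 1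
  push_cast
  ring

/-- The leading term of small errors. -/
theorem regime_small_term {a : FB (p * M)} (ha : IsLat A h.hqM n g a) {ε : QBar} (hε : ε ≠ 0)
    (hεn : ε ∈ A.nonunits) (hεp : A.valuation ε ^ (p - 1) < A.valuation (p : QBar))
    (hγε : A.valuation γ < A.valuation ((p : QBar) * ε)) {S u : (loc2 A (iota2 M p h.hqM))}
    (hSN : (S : FB (p * M)) ∈ HN M p n) (he : a = S + algebraMap QBar (FB (p * M)) ε * u) :
    red2 A (iota2 M p h.hqM) u * red2 A (iota2 M p h.hqM) ⟨a, ha.1⟩ ^ (p - 1) ∈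
      Bn A M p h.hqM (p * n) := by
  have hR := fun c hc => const_mem_loc2 (A := A) (M := M) (p := p) h (c := c) hc
  have hεA := Arith.mem_of_mem_nonunits hεn
  have hS : red2 A (iota2 M p h.hqM) ⟨a, ha.1⟩ = red2 A (iota2 M p h.hqM) S :=
    red2_sub_eq h hεn ⟨u, u.2, by show a - S = _; rw [he]; ring⟩
  rw [hS, ← map_pow, ← map_mul]
  have hX : a ^ p * g - (S : FB (p * M)) ^ p ∈ HN M p (p * n) :=
    sub_mem ha.2 (pow_mem_poles hSN p)
  have h1 := small_add_pow_linear (p := p) (R := (loc2 A (iota2 M p h.hqM))) S.2 u.2 (hR ε hεA)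
  rw [← he] at h1
  have hpε : (p : QBar) * ε ≠ 0 := mul_ne_zero (Nat.cast_ne_zero.mpr hp.out.ne_zero) hε
  have hpos := zero_lt_iff.mpr ((Valuation.ne_zero_iff A.valuation).mpr hε)
  have h2 : A.valuation ((p : QBar) * ε ^ 2) < A.valuation ((p : QBar) * ε) := by
    rw [map_mul, map_mul, pow_two, map_mul]
    refine mul_lt_mul_of_pos_left ?_ (zero_lt_iff.mpr ((Valuation.ne_zero_iff _).mpr
      (Nat.cast_ne_zero.mpr hp.out.ne_zero)))
    exact mul_lt_of_lt_one_left hpos (A.mem_nonunits_iff.mp hεn)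
  have h3 : A.valuation (ε ^ p) < A.valuation ((p : QBar) * ε) := by
    rw [map_mul, map_pow]
    conv_lhs => rw [← Nat.sub_add_cancel hp.out.one_le, pow_succ]
    exact mul_lt_mul_of_pos_right hεp hpos
  obtain ⟨δ, hδ, d1, d2, d3⟩ : ∃ δ, A.valuation δ < A.valuation ((p : QBar) * ε) ∧
      A.valuation ((p : QBar) * ε ^ 2) ≤ A.valuation δ ∧ A.valuation (ε ^ p) ≤ A.valuation δ ∧
      A.valuation γ ≤ A.valuation δ := by
    rcases le_total (A.valuation ((p : QBar) * ε ^ 2)) (A.valuation (ε ^ p)) with h' | h' <;>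
      rcases le_total (A.valuation γ) (A.valuation (ε ^ p)) with h'' | h'' <;>
      rcases le_total (A.valuation γ) (A.valuation ((p : QBar) * ε ^ 2)) with h''' | h'''
    all_goals first
      | exact ⟨_, h3, h', le_rfl, h''⟩
      | exact ⟨_, h2, le_rfl, h', h'''⟩
      | exact ⟨_, hγε, le_trans h' h'', h'', le_rfl⟩
      | exact ⟨_, hγε, h''', le_trans h' h''', le_rfl⟩
  refine red2_mem_of_leading h hX hpε hδ (u * S ^ (p - 1)) ?_
  have h4 := ((h1.mono hR d1).add ((Small.intro (pow_mem u.2 p)).mono hR d2)).add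
    ((hγ.mul_left (pow_mem ha.1 p)).mono hR d3)
  convert h4 using 1
  push_cast
  ring

/-- Small errors are excluded. -/
theorem regime_small {a₁ aJ : FB (p * M)} (ha₁ : IsLat A h.hqM n g a₁)
    (haJ : IsLat A h.hqM n g aJ) (hr₁ : red2 A (iota2 M p h.hqM) ⟨a₁, ha₁.1⟩ = 1)
    (hrJ : red2 A (iota2 M p h.hqM) ⟨aJ, haJ.1⟩ = jvec A p ^ n) {ε : QBar} (hε : ε ≠ 0)
    (hεn : ε ∈ A.nonunits) (hεp : A.valuation ε ^ (p - 1) < A.valuation (p : QBar))
    (hγε : A.valuation γ < A.valuation ((p : QBar) * ε)) {S₁ u₁ SJ uJ : (loc2 A (iota2 M p h.hqM))}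
    (hS₁ : (S₁ : FB (p * M)) ∈ HN M p n) (he₁ : a₁ = S₁ + algebraMap QBar (FB (p * M)) ε * u₁)
    (hSJ : (SJ : FB (p * M)) ∈ HN M p n) (heJ : aJ = SJ + algebraMap QBar (FB (p * M)) ε * uJ) :
    red2 A (iota2 M p h.hqM) u₁ ∈ Bn A M p h.hqM n ∧
      red2 A (iota2 M p h.hqM) uJ ∈ Bn A M p h.hqM n := by
  have t₁ := regime_small_term h hn hg hγ ha₁ hε hεn hεp hγε hS₁ he₁
  have tJ := regime_small_term h hn hg hγ haJ hε hεn hεp hγε hSJ heJ
  rw [hr₁, one_pow, mul_one] at t₁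
  rw [hrJ, ← pow_mul] at tJ
  -- the relation between the errors
  set q : (loc2 A (iota2 M p h.hqM)) := u₁ * SJ - uJ * S₁ with hq
  have hS1r : red2 A (iota2 M p h.hqM) S₁ = 1 := by
    rw [← hr₁]
    exact (red2_sub_eq h (x := ⟨a₁, ha₁.1⟩) hεn
      ⟨u₁, u₁.2, by show a₁ - S₁ = _; rw [he₁]; ring⟩).symm
  have hSJr : red2 A (iota2 M p h.hqM) SJ = jvec A p ^ n := by
    rw [← hrJ]
    exact (red2_sub_eq h (x := ⟨aJ, haJ.1⟩) hεn
      ⟨uJ, uJ.2, by show aJ - SJ = _; rw [heJ]; ring⟩).symm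
  have hL : IsLat A h.hqM (n + n) g (a₁ * SJ - aJ * S₁) := by
    have h1 := ha₁.mul (isLat_one h SJ.2 hSJ)
    have h2 := (haJ.mul (isLat_one h S₁.2 hS₁)).smul (-1 : A)
    rw [mul_one] at h1 h2
    convert h1.add h2 using 1
    rw [NegMemClass.coe_neg, OneMemClass.coe_one, map_neg, map_one]
    ring
  have hqlat : IsLat A h.hqM (n + n) g (q : FB (p * M)) := by
    refine ⟨q.2, ?_⟩
    have e : a₁ * SJ - aJ * S₁ = algebraMap QBar (FB (p * M)) ε * (q : FB (p * M)) := by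
      rw [he₁, heJ, hq]
      push_cast
      ring
    have h3 := Submodule.smul_mem (HN M p (p * (n + n))) (ε⁻¹ ^ p) hL.2
    convert h3 using 1
    rw [e, Algebra.smul_def, map_pow, ← mul_assoc, ← mul_pow, ← mul_assoc, ← map_mul,
      inv_mul_cancel₀ hε, map_one, one_mul]
  have hqB := red2_isLat_mem h hn (Nat.le_add_right n n) hg hqlat
  set r₁ := red2 A (iota2 M p h.hqM) u₁
  set rJ := red2 A (iota2 M p h.hqM) uJ
  have hqr : red2 A (iota2 M p h.hqM) q = jvec A p ^ n * r₁ - rJ := by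
    rw [hq, map_sub, map_mul, map_mul, hS1r, hSJr, mul_one, mul_comm]
  rw [show (⟨(q : FB (p * M)), hqlat.1⟩ : (loc2 A (iota2 M p h.hqM))) = q from rfl, hqr] at hqB
  have hp2 := hp.out.two_le
  have hJn := jvec_pow_mem_Bn h n
  have hrJB : rJ ∈ Bn A M p h.hqM (p * n + n) := by
    have h1 : jvec A p ^ n * r₁ ∈ Bn A M p h.hqM (p * n + n) := by
      rw [mul_comm (jvec A p ^ n)]; exact h.mul_mem_Bn t₁ hJn
    have h2 := h.Bn_mono (show n + n ≤ p * n + n by nlinarith) hqB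
    have := sub_mem h1 h2
    rwa [sub_sub_cancel] at this
  have hJ : rJ ∈ Bn A M p h.hqM n := by
    refine hn.colon _ (n * (p - 1)) rJ hrJB ?_
    rw [show n + n * (p - 1) = p * n by
      conv_rhs => rw [← Nat.sub_add_cancel hp.out.one_le]
      ring]
    rwa [mul_comm rJ] at tJ
  refine ⟨hn.colon _ n r₁ t₁ ?_, hJ⟩
  have := add_mem hqB (h.Bn_mono (Nat.le_add_right n n) hJ)
  rwa [sub_add_cancel] at this

end Regimes

/-- **Approximation modulo `ζ - 1`.** -/
theorem approx_lambda {n : ℕ} (hn : GoodDeg h n) {g : FB (p * M)} (hg : HasUnitRed A M p h.hqM g)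
    {γ lam : QBar} (hlam : A.valuation lam ^ (p - 1) = A.valuation (p : QBar))
    (hγl : A.valuation γ ≤ A.valuation ((p : QBar) * lam)) (hγ : Small (loc2 A (iota2 M p h.hqM)) γ (g - 1))
    {a : FB (p * M)} (ha : IsLat A h.hqM n g a) : Approx h n lam a := by
  rcases exists_best h ⟨a, ha.1⟩ (red2_isLat_mem h hn le_rfl hg ha) with hmem |
    ⟨ε, S, u, hε, hεn, hSN, he, hu⟩
  · exact ⟨a, ha.1, hmem, by rw [sub_self]; exact small_zero⟩
  by_cases hle : A.valuation ε ≤ A.valuation lam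
  · exact Approx.mono h ⟨S, S.2, hSN, u, u.2, sub_eq_of_eq_add' he⟩ hle
  rw [not_le] at hle
  refine absurd (regime_large h hn hg hγ ha hε hεn ?_ ?_ hSN he) hu
  · rw [← hlam]
    exact pow_lt_pow_left₀ hle zero_le (by have := hp.out.two_le; omega)
  · refine lt_of_le_of_lt hγl ?_
    rw [map_mul, ← hlam, ← pow_succ, Nat.sub_add_cancel hp.out.one_le, map_pow]
    exact pow_lt_pow_left₀ hle zero_le hp.out.ne_zero

/-- **Approximation modulo `γ / p`.** -/
theorem approx_deep {n : ℕ} (hn : GoodDeg h n) {g : FB (p * M)} (hg : HasUnitRed A M p h.hqM g)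
    {γ lam ε' : QBar} (hlam : A.valuation lam ^ (p - 1) = A.valuation (p : QBar))
    (hε' : A.valuation ε' < A.valuation lam) (hγ : Small (loc2 A (iota2 M p h.hqM)) γ (g - 1))
    {a₁ aJ : FB (p * M)} (ha₁ : IsLat A h.hqM n g a₁) (haJ : IsLat A h.hqM n g aJ)
    (hr₁ : red2 A (iota2 M p h.hqM) ⟨a₁, ha₁.1⟩ = 1)
    (hrJ : red2 A (iota2 M p h.hqM) ⟨aJ, haJ.1⟩ = jvec A p ^ n)
    (h₁ : Approx h n ε' a₁) (hJ : Approx h n ε' aJ) :
    Approx h n (γ / p) a₁ ∧ Approx h n (γ / p) aJ := by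
  have hR := fun c hc => const_mem_loc2 (A := A) (M := M) (p := p) h (c := c) hc
  have hpne : (p : QBar) ≠ 0 := Nat.cast_ne_zero.mpr hp.out.ne_zero
  -- the best errors, `0` if exact
  have best : ∀ {a : FB (p * M)} (ha : IsLat A h.hqM n g a), Approx h n ε' a →
      ∃ (ε : QBar) (S u : (loc2 A (iota2 M p h.hqM))), ε ∈ A.nonunits ∧ A.valuation ε ≤ A.valuation ε' ∧
        (S : FB (p * M)) ∈ HN M p n ∧ a = S + algebraMap QBar (FB (p * M)) ε * u ∧
        (ε ≠ 0 → red2 A (iota2 M p h.hqM) u ∉ Bn A M p h.hqM n) := by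
    intro a ha hap
    rcases exists_best h ⟨a, ha.1⟩ (red2_isLat_mem h hn le_rfl hg ha) with hmem |
      ⟨ε, S, u, hε, hεn, hSN, he, hu⟩
    · exact ⟨0, ⟨a, ha.1⟩, 0, by rw [ValuationSubring.mem_nonunits_iff, map_zero]; exact zero_lt_one,
        by rw [map_zero]; exact zero_le, hmem, by simp, fun h0 => absurd rfl h0⟩
    · exact ⟨ε, S, u, hεn, valuation_le_of_approx h hε hSN he hu hap, hSN, he, fun _ => hu⟩
  obtain ⟨e₁, S₁, u₁, hn₁, hle₁, hSN₁, he₁, hu₁⟩ := best ha₁ h₁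
  obtain ⟨eJ, SJ, uJ, hnJ, hleJ, hSNJ, heJ, huJ⟩ := best haJ hJ
  have app : ∀ {a : FB (p * M)} {e e₂ : QBar} {S u : (loc2 A (iota2 M p h.hqM))}, (S : FB (p * M)) ∈ HN M p n →
      a = S + algebraMap QBar (FB (p * M)) e * u → A.valuation e ≤ A.valuation e₂ →
      Approx h n e₂ a := fun hS he hle =>
    Approx.mono h ⟨_, Subtype.coe_prop _, hS, _, Subtype.coe_prop _, sub_eq_of_eq_add' he⟩ hle
  obtain ⟨E, hE₁, hEJ, hEn, hEle, hEmax⟩ : ∃ E : QBar, A.valuation e₁ ≤ A.valuation E ∧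
      A.valuation eJ ≤ A.valuation E ∧ E ∈ A.nonunits ∧ A.valuation E ≤ A.valuation ε' ∧
      (E = e₁ ∨ E = eJ) := by
    rcases le_total (A.valuation e₁) (A.valuation eJ) with h' | h'
    · exact ⟨eJ, h', le_rfl, hnJ, hleJ, Or.inr rfl⟩
    · exact ⟨e₁, le_rfl, h', hn₁, hle₁, Or.inl rfl⟩
  by_cases hsmall : A.valuation E ≤ A.valuation (γ / p)
  · exact ⟨app hSN₁ he₁ (hE₁.trans hsmall), app hSNJ heJ (hEJ.trans hsmall)⟩
  exfalso
  rw [not_le] at hsmall
  have hE0 : E ≠ 0 := fun h0 => absurd hsmall (by rw [h0, map_zero]; exact not_lt.mpr zero_le)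
  have hEp : A.valuation E ^ (p - 1) < A.valuation (p : QBar) := by
    rw [← hlam]
    exact pow_lt_pow_left₀ (lt_of_le_of_lt hEle hε') zero_le (by have := hp.out.two_le; omega)
  have hγE : A.valuation γ < A.valuation ((p : QBar) * E) := by
    rw [map_div₀, div_lt_iff₀ (zero_lt_iff.mpr ((Valuation.ne_zero_iff _).mpr hpne))] at hsmall
    rwa [map_mul, mul_comm]
  have scale : ∀ {e : QBar}, A.valuation e ≤ A.valuation E → e / E ∈ A := fun hle =>
    ((div_mem_of_valuation_le hle).resolve_left fun h0 => hE0 h0.1).2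
  set v₁ : (loc2 A (iota2 M p h.hqM)) := ⟨_, hR _ (scale hE₁)⟩ * u₁ with hv₁
  set vJ : (loc2 A (iota2 M p h.hqM)) := ⟨_, hR _ (scale hEJ)⟩ * uJ with hvJ
  have key := regime_small h hn hg hγ ha₁ haJ hr₁ hrJ hE0 hEn hEp hγE (S₁ := S₁) (u₁ := v₁)
    (SJ := SJ) (uJ := vJ) hSN₁
    (by rw [he₁, hv₁, MulMemClass.coe_mul, ← mul_assoc, ← map_mul, mul_div_cancel₀ _ hE0])
    hSNJ (by rw [heJ, hvJ, MulMemClass.coe_mul, ← mul_assoc, ← map_mul, mul_div_cancel₀ _ hE0])
  have one_smul' : ∀ {e : QBar} (he : e / E ∈ A) (u : (loc2 A (iota2 M p h.hqM))), E = e →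
      (⟨_, hR _ he⟩ : (loc2 A (iota2 M p h.hqM))) * u = u := fun he u hEe => Subtype.ext (by
    rw [MulMemClass.coe_mul]
    show algebraMap QBar (FB (p * M)) _ * _ = _
    rw [← hEe, div_self hE0, map_one, one_mul])
  rcases hEmax with rfl | rfl
  · rw [hv₁, one_smul' (scale hE₁) u₁ rfl] at key
    exact hu₁ hE0 key.1
  · rw [hvJ, one_smul' (scale hEJ) uJ rfl] at key
    exact huJ hE0 key.2

end Fermat.Agent.RT.Lift.LowerP

end
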