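import Fermat.Agent.RT.Lift.LowerP.Near
import Fermat.Agent.RT.Lift.AtP.Flat
import Fermat.Agent.RT.MazurP.Classes

/-!
# Flat classes with trivial norms have representatives deeply congruent to one

If a Kummer function of level `p M` is `1` modulo `γ` on both components and both norms to level
`M` are `p`-th powers, a `p`-th power removes the congruence modulo `γ` and leaves one modulo a
smaller constant.
-/

set_option autoImplicit false
set_option linter.unusedSectionVars false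

noncomputable section

namespace Fermat.Agent.RT.Lift.LowerP

open AlgebraicCurve ModularCurve Fermat.Agent.Semistable
open Fermat.Agent.RT.MazurP (cls cls_congr cls_const_mul_pow dvd_ord_const_mul_pow algebraMap_eq_C
  exists_eq_mul_pow)
open Arith (QBar GQ)
open NewformLocal.Toric (normUp)

attribute [local instance high] SubalgebraClass.toAlgebra

variable {A : ValuationSubring QBar}

/-- A series with reduction zero is small by a nonunit. -/
theorem exists_small_of_redL_eq_zero {p : ℕ} [Fact p.Prime] (hA : A.LiesOverPrime p) {y : LSer}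
    (hy : y ∈ locS A) (h0 : redL A ⟨y, hy⟩ = 0) :
    ∃ δ : QBar, δ ∈ A.nonunits ∧ Small (locS A) δ y := by
  rcases eq_or_ne y 0 with rfl | hy0
  · exact ⟨(p : QBar), hA, small_zero⟩
  obtain ⟨c, hc, hcy, hne⟩ := exists_scale hA (Fact.out : p.Prime) (locS_le_fracS hy) hy0
  have hcA : c ∉ A := fun h => hne (by
    obtain ⟨h', e⟩ := redL_const_mul h hy
    rw [e, h0, mul_zero])
  refine ⟨c⁻¹, ?_, _, hcy, by
    rw [← mul_assoc, ← map_mul, inv_mul_cancel₀ hc, map_one, one_mul]⟩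
  rcases Arith.eq_zero_or_mem_nonunits_or (A := A) (x := c) with h | h
  · exact absurd h hcA
  · exact h

theorem sub_const_mem_locS {γ : QBar} (hγ : γ ∈ A) : ∀ {x : LSer}, Small (locS A) γ x → x ∈ locS A :=
  fun h => h.mem (algebraMap_mem_locS hγ)

section Generic

variable {F : Type*} [Field F] [Algebra QBar F] {R : Subring F}

theorem Small.pow_sub {γ : QBar} {x y : F} (hx : x ∈ R) (hy : y ∈ R)
    (h : Small R γ (x - y)) (n : ℕ) : Small R γ (x ^ n - y ^ n) := by
  have h1 := small_prod_sub (Finset.range n) (f := fun _ => x) (g := fun _ => y)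
    (fun _ _ => hx) (fun _ _ => hy) fun _ _ => h
  simpa using h1

/-- Iterated `p`-th powers of an element congruent to one become congruent to any depth. -/
theorem exists_pow_small {p : ℕ} [Fact p.Prime] (hA : A.LiesOverPrime p)
    (hR : ∀ c ∈ A, algebraMap QBar F c ∈ R) {a : F} (ha : a ∈ R) {δ : QBar}
    (hδ : δ ∈ A.nonunits) {x : F} (_hx : x ∈ R) (hxa : Small R δ (x - a)) (hpa : a ^ p = a)
    {γ : QBar} (hγ : γ ≠ 0) : ∃ K : ℕ, ∀ k, K ≤ k → Small R γ (x ^ p ^ k - a) := by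
  have hp : p.Prime := Fact.out
  obtain ⟨θ, hθ, hθp, hθδ⟩ : ∃ θ : QBar, θ ∈ A.nonunits ∧ A.valuation (p : QBar) ≤ A.valuation θ ∧
      A.valuation (δ ^ (p - 1)) ≤ A.valuation θ := by
    rcases le_total (A.valuation (p : QBar)) (A.valuation (δ ^ (p - 1))) with h | h
    · refine ⟨δ ^ (p - 1), ?_, h, le_rfl⟩
      rw [ValuationSubring.mem_nonunits_iff, map_pow] at *
      exact pow_lt_one₀ zero_le hδ (by have := hp.two_le; omega)
    · exact ⟨(p : QBar), hA, le_rfl, h⟩
  have hθA : A.valuation θ ≤ 1 := (A.mem_nonunits_iff.mp hθ).le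
  have key : ∀ k, Small R (δ * θ ^ k) (x ^ p ^ k - a) := by
    intro k
    induction k with
    | zero => rwa [pow_zero, pow_zero, pow_one, mul_one]
    | succ k ih =>
      obtain ⟨w, hw, e⟩ := ih
      set ε := δ * θ ^ k with hε
      have hεA : ε ∈ A := mul_mem (Arith.mem_of_mem_nonunits hδ)
        (pow_mem (Arith.mem_of_mem_nonunits hθ) k)
      have hεδ : A.valuation ε ≤ A.valuation δ := by
        rw [hε, map_mul, map_pow]
        exact mul_le_of_le_one_right' (pow_le_one₀ zero_le hθA)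
      have h1 := small_add_pow_sub (R := R) hp ha hw (hR ε hεA)
      have e1 : x ^ p ^ (k + 1) - a =
          ((a + algebraMap QBar F ε * w) ^ p - a ^ p - algebraMap QBar F (ε ^ p) * w ^ p) +
            algebraMap QBar F (ε ^ p) * w ^ p := by
        rw [sub_add_cancel, hpa, ← e, add_sub_cancel, pow_succ, pow_mul]
      rw [e1]
      have e2 : δ * θ ^ (k + 1) = ε * θ := by rw [hε, pow_succ, mul_assoc]
      rw [e2]
      refine (h1.mono hR ?_).add ((Small.intro (pow_mem hw p)).mono hR ?_)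
      · rw [mul_comm, map_mul, map_mul]
        exact mul_le_mul' le_rfl hθp
      · rw [show ε ^ p = ε * ε ^ (p - 1) from by
          rw [← pow_succ', Nat.sub_add_cancel hp.one_le], map_mul, map_mul]
        refine mul_le_mul' le_rfl (le_trans ?_ hθδ)
        rw [map_pow, map_pow]
        exact pow_le_pow_left₀ zero_le hεδ _
  obtain ⟨K, hK⟩ := exists_pow_valuation_lt hA hp hθ hγ
  refine ⟨K, fun k hk => (key k).mono hR ?_⟩
  rw [map_mul, map_pow]
  refine le_trans (le_trans (mul_le_of_le_one_left'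
    (A.mem_nonunits_iff.mp hδ).le) ?_) hK.le
  rw [map_pow]
  exact pow_le_pow_of_le_one zero_le hθA hk

end Generic

variable {M p : ℕ} [NeZero M] [hp : Fact p.Prime] [CharP (Res A) p] (hpM : ¬ p ∣ M)
  (hA : A.LiesOverPrime p)

include hpM hA in
/-- One side of the descent. -/
theorem exists_root_side {ζ : QBarˣ} (hζ : IsPrimitiveRoot ζ p) {g : FB (p * M)} {γ γ' : QBar}
    (hγ : γ ∈ A.nonunits) (hγ' : γ' ∈ A.nonunits) (hγ'0 : γ' ≠ 0)
    (h1 : A.valuation (γ * ((ζ : QBar) - 1)) ≤ A.valuation γ')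
    (h2 : A.valuation (γ ^ p) ≤ A.valuation γ')
    (hg : ∀ s, Small (locS A) γ (iota2 M p hpM s g - 1))
    (hn : ∃ G : FB M, G ≠ 0 ∧ normUp p M g = G ^ p) :
    ∃ H : FB M, ∃ hH : (H : LSer) ∈ locS A, redL A ⟨_, hH⟩ = 1 ∧
      Small (locS A) γ' ((g : LSer) - (H : LSer) ^ p) := by
  have hp' : p.Prime := hp.out
  obtain ⟨G, -, hG⟩ := hn
  have hR : ∀ c ∈ A, algebraMap QBar LSer c ∈ locS A := fun c hc => algebraMap_mem_locS hc
  have hγA := Arith.mem_of_mem_nonunits hγ
  have hmem : ∀ s, iota2 M p hpM s g ∈ locS A := fun s => by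
    have := add_mem (sub_const_mem_locS hγA (hg s)) (one_mem (locS A))
    rwa [sub_add_cancel] at this
  set X : LSer := (g : LSer)
  set Y : LSer := (wEquiv p M hpM g : LSer)
  have hX : X ∈ locS A := hmem 0
  have hY : Y ∈ locS A := hmem 1
  obtain ⟨w, hw, ew⟩ : Small (locS A) γ (Y - 1) := hg 1
  have hcong : ∀ i : Fin p, ModFun.twist (ζ ^ (i : ℕ)) Y ∈ locS A ∧
      Small (locS A) γ' (ModFun.twist (ζ ^ (i : ℕ)) Y - Y) := fun i => by
    obtain ⟨hm, -⟩ := small_twist_sub hA hζ i hY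
    refine ⟨hm, ?_⟩
    have e : Y = 1 + algebraMap QBar LSer γ * w := by rw [← ew, add_sub_cancel]
    have hC : ModFun.twist (ζ ^ (i : ℕ)) (algebraMap QBar LSer γ) = algebraMap QBar LSer γ :=
      twist_const _ _
    rw [e, map_add, map_one, map_mul, hC, add_sub_add_left_eq_sub, ← mul_sub]
    exact ((small_twist_sub hA hζ i hw).2.const_mul γ).mono hR h1
  have hprod : Small (locS A) γ' (∏ i : Fin p, ModFun.twist (ζ ^ (i : ℕ)) Y - Y ^ p) := by
    have := small_prod_sub (γ := γ') Finset.univ (g := fun _ : Fin p => Y)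
      (fun i _ => (hcong i).1) (fun _ _ => hY) fun i _ => (hcong i).2
    simpa using this
  have hYp : Small (locS A) γ' (Y ^ p - 1) := by
    have e : Y = 1 + algebraMap QBar LSer γ * w := by rw [← ew, add_sub_cancel]
    have h3 := small_add_pow_sub (R := locS A) hp' (one_mem _) hw (hR γ hγA)
    rw [one_pow, ← e] at h3
    have h4 := (h3.mono hR (δ := γ') ?_).add ((Small.intro (pow_mem hw p)).mono hR h2)
    · rwa [sub_add_cancel] at h4
    · refine le_trans ?_ h1
      rw [mul_comm (p : QBar), map_mul, map_mul]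
      refine mul_le_mul' le_rfl ?_
      obtain ⟨hlt, hpow, -⟩ := MazurP.zeta_sub_one hA hp' (IsPrimitiveRoot.coe_units_iff.mpr hζ)
      rw [← hpow]
      exact pow_le_of_le_one zero_le hlt.le (by have := hp'.two_le; omega)
  set Z : LSer := (G : LSer) ^ p
  have hdiff : Small (locS A) γ' (qExpand QBar p (Z - X)) := by
    have h0 := NewformLocal.Toric.qExpand_normUp p M hpM hζ g
    rw [hG] at h0
    rw [map_sub, show qExpand QBar p Z = _ from h0,
      show qExpand QBar p X * (∏ i : Fin p, ModFun.twist (ζ ^ (i : ℕ)) Y) - qExpand QBar p X =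
        qExpand QBar p X * ((∏ i : Fin p, ModFun.twist (ζ ^ (i : ℕ)) Y - Y ^ p) + (Y ^ p - 1)) by
          ring]
    exact (hprod.add hYp).mul_left (qExpand_mem_locS p hX)
  obtain ⟨u, hu, eu⟩ := hdiff
  set T : LSer := algebraMap QBar LSer γ'⁻¹ * (Z - X) with hT
  have hTf : T ∈ fracS A := mul_mem (algebraMap_mem_fracS _)
    (sub_mem (pow_mem (mem_fracS_of_mem G) p) (mem_fracS_of_mem g))
  have hTq : qExpand QBar p T = u := by
    rw [hT, map_mul, algebraMap_eq_C, qExpand_C, ← algebraMap_eq_C, eu, ← mul_assoc, ← map_mul,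
      inv_mul_cancel₀ hγ'0, map_one, one_mul]
  obtain ⟨hTm, -⟩ := MazurP.locS_of_qExpand (l := p) hA hp' hTf (hTq ▸ hu)
  have hZX : Small (locS A) γ' (Z - X) := ⟨T, hTm, by
    rw [hT, ← mul_assoc, ← map_mul, mul_inv_cancel₀ hγ'0, map_one, one_mul]⟩
  have hZ : Z ∈ locS A := by
    have := add_mem (sub_const_mem_locS (Arith.mem_of_mem_nonunits hγ') hZX) hX
    rwa [sub_add_cancel] at this
  have hred : ∀ {x : LSer} {δ : QBar} (hx : x ∈ locS A) (_ : δ ∈ A.nonunits)
      (_ : Small (locS A) δ x), redL A ⟨x, hx⟩ = 0 := by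
    intro x δ hx hδ hs
    obtain ⟨v, hv, rfl⟩ := hs
    obtain ⟨h', e⟩ := redL_const_mul (Arith.mem_of_mem_nonunits hδ) hv
    rw [redL_congr hx h' rfl, e, (residue_eq_zero_iff _).mpr hδ, map_zero, zero_mul]
  have hX1 : redL A ⟨X, hX⟩ = 1 := by
    have h := hred (sub_mem hX (one_mem _)) hγ (hg 0)
    rw [show (⟨X - 1, sub_mem hX (one_mem _)⟩ : locS A) = ⟨X, hX⟩ - 1 from rfl, map_sub, map_one,
      sub_eq_zero] at h
    exact h
  have hZ1 : redL A ⟨Z, hZ⟩ = 1 := by
    have h := hred (sub_mem hZ hX) hγ' hZX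
    rw [show (⟨Z - X, sub_mem hZ hX⟩ : locS A) = ⟨Z, hZ⟩ - ⟨X, hX⟩ from rfl, map_sub, hX1,
      sub_eq_zero] at h
    exact h
  obtain ⟨hGm, hG1⟩ := AtP.redL_eq_one_of_pow (p := p) (k := 1) hA (mem_fracS_of_mem G)
    (show (G : LSer) ^ p ^ 1 ∈ locS A by rw [pow_one]; exact hZ) (by
      rw [← hZ1]; exact redL_congr _ _ (by rw [pow_one]))
  refine ⟨G, hGm, hG1, ?_⟩
  have := hZX.neg
  rwa [neg_sub] at this

variable [NeZero p]

variable (A M p) in
/-- The class has representatives congruent to one modulo `γ` on both components. -/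
def DeepAt (x : JZero (p * M)) (γ : QBar) : Prop :=
  ∃ (g : FB (p * M)) (hg : g ≠ 0) (hd : ∀ v : Place QBar (FB (p * M)), (p : ℤ) ∣ v.ord g),
    cls p hg hd = x ∧ Small (loc2 A (iota2 M p hpM)) γ (g - 1)

theorem DeepAt.mono {x : JZero (p * M)} {γ δ : QBar} (h : DeepAt A M p hpM x γ)
    (hle : A.valuation γ ≤ A.valuation δ) : DeepAt A M p hpM x δ := by
  obtain ⟨g, hg, hd, hx, hs⟩ := h
  exact ⟨g, hg, hd, hx, hs.mono (fun c hc => algebraMap_mem_loc2 _ hc) hle⟩

include hA in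
/-- The step of the descent. -/
theorem DeepAt.step {ζ : QBarˣ} (hζ : IsPrimitiveRoot ζ p) {x : JZero (p * M)} {γ γ' : QBar}
    (hγ : γ ∈ A.nonunits) (hγ' : γ' ∈ A.nonunits) (hγ'0 : γ' ≠ 0)
    (h1 : A.valuation (γ * ((ζ : QBar) - 1)) ≤ A.valuation γ')
    (h2 : A.valuation (γ ^ p) ≤ A.valuation γ')
    (hn : ∀ (g : FB (p * M)) (hg : g ≠ 0)
      (hd : ∀ v : Place QBar (FB (p * M)), (p : ℤ) ∣ v.ord g), cls p hg hd = x →
        (∃ G : FB M, G ≠ 0 ∧ normUp p M g = G ^ p) ∧
          ∃ G : FB M, G ≠ 0 ∧ normUp p M (wEquiv p M hpM g) = G ^ p)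
    (h : DeepAt A M p hpM x γ) : DeepAt A M p hpM x γ' := by
  classical
  obtain ⟨g, hg, hd, rfl, hs⟩ := h
  obtain ⟨hn0, hn1⟩ := hn g hg hd rfl
  set L := loc2 A (iota2 M p hpM)
  have hR : ∀ c ∈ A, algebraMap QBar LSer c ∈ locS A := fun c hc => algebraMap_mem_locS hc
  have hsi := fun s => by
    have := hs.map_iota s
    rwa [map_sub, map_one] at this
  obtain ⟨H0, hH0, hH01, hside0⟩ := exists_root_side hpM hA hζ hγ hγ' hγ'0 h1 h2 hsi hn0
  obtain ⟨H1, hH1, hH11, hside1⟩ := exists_root_side hpM hA hζ hγ hγ' hγ'0 h1 h2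
    (g := wEquiv p M hpM g) (fun s => by
      fin_cases s
      · exact hsi 1
      · show Small (locS A) γ (iota2 M p hpM 1 (wEquiv p M hpM g) - 1)
        rw [iota2_one, wEquiv_wEquiv]
        exact hsi 0) hn1
  -- the idempotent
  obtain ⟨e₀, -, he₀, -⟩ := exists_idem (A := A) M p hpM
  have hside : ∀ s, ∃ δ : QBar, δ ∈ A.nonunits ∧
      Small (locS A) δ (iota2 M p hpM s (e₀ : FB (p * M)) - if s = 0 then 1 else 0) := fun s => by
    have h0 := congrFun he₀ s
    rw [red2_apply] at h0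
    have h2 : ∀ t : Fin 2, t = 0 ∨ t = 1 := by decide
    obtain rfl | rfl := h2 s
    · rw [if_pos rfl]
      refine exists_small_of_redL_eq_zero hA (sub_mem ((mem_loc2 _).mp e₀.2 0) (one_mem _)) ?_
      exact ((redL A).map_sub ⟨_, (mem_loc2 _).mp e₀.2 0⟩ 1).trans
        (sub_eq_zero.mpr (h0.trans (redL A).map_one.symm))
    · rw [if_neg one_ne_zero, sub_zero]
      exact exists_small_of_redL_eq_zero hA ((mem_loc2 _).mp e₀.2 1) h0
  have hK : ∀ s, ∃ K : ℕ, ∀ k, K ≤ k → Small (locS A) γ'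
      (iota2 M p hpM s (e₀ : FB (p * M)) ^ p ^ k - if s = 0 then 1 else 0) := fun s => by
    obtain ⟨δ, hδ, hsm⟩ := hside s
    exact exists_pow_small hA hR (by split <;> [exact one_mem _; exact zero_mem _]) hδ
      ((mem_loc2 _).mp e₀.2 s) hsm
      (by split <;> simp [hp.out.ne_zero]) hγ'0
  choose K hK using hK
  set E : L := e₀ ^ p ^ (max (K 0) (K 1))
  have hE0 : Small (locS A) γ' (iota2 M p hpM 0 (E : FB (p * M)) - 1) := by
    rw [SubmonoidClass.coe_pow, map_pow]
    simpa using hK 0 _ (le_max_left _ _)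
  have hE1 : Small (locS A) γ' (iota2 M p hpM 1 (E : FB (p * M))) := by
    rw [SubmonoidClass.coe_pow, map_pow]
    simpa using hK 1 _ (le_max_right _ _)
  set U : L := ⟨_, upF_mem_loc2 M p hpM ((mem_loc1 M).mpr hH0)⟩
  set D : L := ⟨_, downF_mem_loc2 M p hpM ((mem_loc1 M).mpr hH1)⟩
  let h : L := E * U + (1 - E) * D
  have hhs : ∀ s, iota2 M p hpM s (h : FB (p * M)) = iota2 M p hpM s (E : FB (p * M)) *
      iota2 M p hpM s (U : FB (p * M)) + (1 - iota2 M p hpM s (E : FB (p * M))) *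
        iota2 M p hpM s (D : FB (p * M)) := fun s => by
    have e : (h : FB (p * M)) = (E : FB (p * M)) * (U : FB (p * M)) +
      (1 - (E : FB (p * M))) * (D : FB (p * M)) := rfl
    refine (congrArg (iota2 M p hpM s).toRingHom e).trans ?_
    rw [RingHom.map_add, RingHom.map_mul, RingHom.map_mul, RingHom.map_sub, RingHom.map_one]
    rfl
  have hU0 : iota2 M p hpM 0 (U : FB (p * M)) = (H0 : LSer) := coe_upF M p H0
  have hU1 : iota2 M p hpM 1 (U : FB (p * M)) = qExpand QBar p (H0 : LSer) := by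
    show iota2 M p hpM 1 (upF M p H0) = _
    rw [iota2_one, wEquiv_upF, coe_downF]
  have hD0 : iota2 M p hpM 0 (D : FB (p * M)) = qExpand QBar p (H1 : LSer) :=
    coe_downF M p hpM H1
  have hD1 : iota2 M p hpM 1 (D : FB (p * M)) = (H1 : LSer) := by
    show iota2 M p hpM 1 (downF M p hpM H1) = _
    rw [iota2_one, wEquiv_downF, coe_upF]
  have hd0 : Small (locS A) γ' (iota2 M p hpM 0 (h : FB (p * M)) - (H0 : LSer)) := by
    rw [hhs, hU0, hD0]
    convert hE0.mul_right (sub_mem hH0 (qExpand_mem_locS p hH1)) using 1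
    ring
  have hd1 : Small (locS A) γ' (iota2 M p hpM 1 (h : FB (p * M)) - (H1 : LSer)) := by
    rw [hhs, hU1, hD1]
    convert hE1.mul_right (sub_mem (qExpand_mem_locS p hH0) hH1) using 1
    ring
  have hγ'A := Arith.mem_of_mem_nonunits hγ'
  have hred1 : ∀ s, red2 A (iota2 M p hpM) h s = 1 := by
    intro s
    rw [red2_apply]
    have key : ∀ {H : LSer} (hH : H ∈ locS A), redL A ⟨H, hH⟩ = 1 →
        Small (locS A) γ' (iota2 M p hpM s (h : FB (p * M)) - H) →
        redL A ⟨iota2 M p hpM s (h : FB (p * M)), (mem_loc2 _).mp h.2 s⟩ = 1 := by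
      intro H hH h1 hsm
      obtain ⟨v, hv, e⟩ := hsm
      obtain ⟨h', e'⟩ := redL_const_mul hγ'A hv
      rw [(residue_eq_zero_iff hγ'A).mpr hγ', map_zero, zero_mul] at e'
      have e2 : (⟨_, (mem_loc2 _).mp h.2 s⟩ : locS A) = ⟨H, hH⟩ + ⟨_, h'⟩ :=
        Subtype.ext (eq_add_of_sub_eq' e)
      rw [e2, map_add, h1, e', add_zero]
    fin_cases s
    · exact key hH0 hH01 hd0
    · exact key hH1 hH11 hd1
  obtain ⟨hinv, -⟩ := inv_mem_loc2 (iota2 M p hpM) h (fun s => by rw [hred1]; exact one_ne_zero)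
  have hh0 : (h : FB (p * M)) ≠ 0 := fun h0 => by
    have := hred1 0
    rw [show h = 0 from Subtype.ext h0, map_zero] at this
    exact zero_ne_one this
  -- the new representative
  have hi0 := inv_ne_zero hh0
  have hd' := dvd_ord_const_mul_pow (c := 1) (m := p) one_ne_zero hg hi0 hd
  have hg' : algebraMap QBar (FB (p * M)) 1 * g * ((h : FB (p * M))⁻¹) ^ p ≠ 0 :=
    mul_ne_zero (mul_ne_zero (by rw [map_one]; exact one_ne_zero) hg) (pow_ne_zero _ hi0)
  refine ⟨_, hg', hd', cls_const_mul_pow one_ne_zero hg hi0 hd hg', ?_⟩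
  rw [map_one, one_mul, show g * ((h : FB (p * M))⁻¹) ^ p - 1 =
    (g - (h : FB (p * M)) ^ p) * ((h : FB (p * M))⁻¹) ^ p by
      rw [sub_mul, ← mul_pow, mul_inv_cancel₀ hh0, one_pow]]
  refine Small.mul_right (pow_mem hinv p) ((small_loc2_iff hγ'0).mpr fun s => ?_)
  rw [map_sub, map_pow]
  have hside' : ∀ {H : LSer}, H ∈ locS A →
      Small (locS A) γ' (iota2 M p hpM s (h : FB (p * M)) - H) →
      Small (locS A) γ' (iota2 M p hpM s g - H ^ p) →
      Small (locS A) γ' (iota2 M p hpM s g - iota2 M p hpM s (h : FB (p * M)) ^ p) := by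
    intro H hH hd hg
    have := hg.sub (hd.pow_sub ((mem_loc2 _).mp h.2 s) hH p)
    rwa [sub_sub_sub_cancel_right] at this
  fin_cases s
  · exact hside' hH0 hd0 hside0
  · exact hside' hH1 hd1 hside1

include hA in
/-- **Deep representatives**: a flat class all of whose Kummer functions have both norms `p`-th
powers is congruent to one to any depth. -/
theorem deepAt_all {x : JZero (p * M)}
    (hn : ∀ (g : FB (p * M)) (hg : g ≠ 0)
      (hd : ∀ v : Place QBar (FB (p * M)), (p : ℤ) ∣ v.ord g), cls p hg hd = x →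
        (∃ G : FB M, G ≠ 0 ∧ normUp p M g = G ^ p) ∧
          ∃ G : FB M, G ≠ 0 ∧ normUp p M (wEquiv p M hpM g) = G ^ p)
    {γ₀ : QBar} (hγ₀ : γ₀ ∈ A.nonunits) (h0 : DeepAt A M p hpM x γ₀) {γ : QBar} (hγ : γ ≠ 0) :
    DeepAt A M p hpM x γ := by
  have hp' : p.Prime := hp.out
  obtain ⟨ζ₀, hζ₀⟩ := HasEnoughRootsOfUnity.exists_primitiveRoot QBar p
  set ζ : QBarˣ := (hζ₀.isUnit hp'.ne_zero).unit with hζdef
  have hζ : IsPrimitiveRoot ζ p := IsPrimitiveRoot.coe_units_iff.mp (by simpa [hζdef] using hζ₀)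
  have hζ' : IsPrimitiveRoot (ζ : QBar) p := IsPrimitiveRoot.coe_units_iff.mpr hζ
  obtain ⟨hlt, -, -⟩ := MazurP.zeta_sub_one hA hp' hζ'
  rcases eq_or_ne γ₀ 0 with rfl | hγ₀0
  · exact h0.mono hpM (by rw [map_zero]; exact zero_le)
  obtain ⟨θ, hθ, hθ0, hθζ, hθγ⟩ : ∃ θ : QBar, θ ∈ A.nonunits ∧ θ ≠ 0 ∧
      A.valuation ((ζ : QBar) - 1) ≤ A.valuation θ ∧
      A.valuation (γ₀ ^ (p - 1)) ≤ A.valuation θ := by
    have hl0 : (ζ : QBar) - 1 ≠ 0 := sub_ne_zero.mpr (hζ'.ne_one hp'.one_lt)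
    rcases le_total (A.valuation ((ζ : QBar) - 1)) (A.valuation (γ₀ ^ (p - 1))) with h | h
    · refine ⟨γ₀ ^ (p - 1), ?_, pow_ne_zero _ hγ₀0, h, le_rfl⟩
      rw [ValuationSubring.mem_nonunits_iff, map_pow]
      exact pow_lt_one₀ zero_le (A.mem_nonunits_iff.mp hγ₀) (by have := hp'.two_le; omega)
    · exact ⟨_, A.mem_nonunits_iff.mpr hlt, hl0, le_rfl, h⟩
  have hθ1 : A.valuation θ ≤ 1 := (A.mem_nonunits_iff.mp hθ).le
  have key : ∀ n : ℕ, DeepAt A M p hpM x (γ₀ * θ ^ n) := by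
    intro n
    induction n with
    | zero => rwa [pow_zero, mul_one]
    | succ n ih =>
      set ε := γ₀ * θ ^ n with hε
      have hεn : ε ∈ A.nonunits := by
        rw [ValuationSubring.mem_nonunits_iff, hε, map_mul, map_pow]
        exact lt_of_le_of_lt (mul_le_of_le_one_right' (pow_le_one₀ zero_le hθ1))
          (A.mem_nonunits_iff.mp hγ₀)
      rw [show γ₀ * θ ^ (n + 1) = ε * θ by rw [hε, pow_succ, mul_assoc]]
      refine DeepAt.step hpM hA hζ hεn ?_ (mul_ne_zero (mul_ne_zero hγ₀0 (pow_ne_zero _ hθ0)) hθ0)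
        ?_ ?_ hn ih
      · rw [ValuationSubring.mem_nonunits_iff, map_mul]
        exact lt_of_le_of_lt (mul_le_of_le_one_right' hθ1) (A.mem_nonunits_iff.mp hεn)
      · rw [map_mul, map_mul]
        exact mul_le_mul' le_rfl hθζ
      · rw [show ε ^ p = ε * ε ^ (p - 1) by rw [← pow_succ', Nat.sub_add_cancel hp'.one_le],
          map_mul, map_mul]
        refine mul_le_mul' le_rfl (le_trans ?_ hθγ)
        rw [map_pow, map_pow]
        refine pow_le_pow_left₀ zero_le ?_ _
        rw [hε, map_mul, map_pow]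
        exact mul_le_of_le_one_right' (pow_le_one₀ zero_le hθ1)
  obtain ⟨n, hn'⟩ := exists_pow_valuation_lt hA hp' hθ hγ
  refine (key n).mono hpM ?_
  rw [map_mul]
  exact le_trans (mul_le_of_le_one_left' (A.mem_nonunits_iff.mp hγ₀).le) hn'.le

end Fermat.Agent.RT.Lift.LowerP

end
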