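import Fermat.Agent.EC.AtP.Inertia
import Fermat.Agent.EC.FrobTrace.Main
import Fermat.Agent.RT.MazurP.LocalE

/-!
# Inertia over a good `p` on `E[p]`

If all of `E[p]` lies in the kernel of reduction (supersingular), no line is stable under inertia.
Otherwise (ordinary) there is a frame `R, S` with `R` reducing to the origin, inertia acts with
trace `χ + 1`, and `wildKer` is either `tameKer` or cuts out a wild field with lower jump one: with
`z = x(S)` and `σ • S = S + R`, the chord through `σ • S` and `-S` gives `|σ z - z| = |s(R)|`.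
-/

set_option autoImplicit false
set_option synthInstance.maxHeartbeats 400000

open scoped WeierstrassCurve.Affine Pointwise
open WeierstrassCurve WeierstrassCurve.Affine Fermat.Agent.Arith

noncomputable section

namespace Fermat.Agent.RT.Lift.LowerP

open Fermat.Agent.EC.Reduction Fermat.Agent.EC.Rep Fermat.Agent.RT.MazurP
open Fermat.Agent.EC.AtP (PointQBar)

variable {A : ValuationSubring (AlgebraicClosure ℚ)} {W : WeierstrassCurve ℤ} {p : ℕ}
  [Fact p.Prime]

/-- Abscissa, with value `1` at the origin. -/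
def xOr : PointQBar W → QBar
  | .zero => 1
  | .some x _ _ => x

theorem xOr_smul (τ : GQ) (P : PointQBar W) : τ (xOr P) = xOr (τ • P) := by
  match P with
  | .zero => exact map_one τ
  | .some x y h => rfl

omit [Fact p.Prime] in
theorem Δ_ne_zero_of_good (hgood : W.IsGoodPrimeFor p) : W.Δ ≠ 0 :=
  fun h => hgood (h ▸ dvd_zero _)

/-- In the supersingular case no line of `E[p]` is stable under inertia. -/
theorem exists_inertia_smul_ne (hA : A.LiesOverPrime p) (hp2 : p ≠ 2) (hgood : W.IsGoodPrimeFor p)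
    (hall : ∀ x : PointQBar W, (p : ℤ) • x = 0 → InE1 A x)
    {P : PointQBar W} (hP : (p : ℤ) • P = 0) (hP0 : P ≠ 0) :
    ∃ τ ∈ A.inertiaSubgroupIn ℚ, ∀ a : ℤ, τ • P ≠ a • P := by
  classical
  by_contra hcon
  simp only [not_exists, not_and, not_forall, not_not] at hcon
  have hp : p.Prime := Fact.out
  have : (W.map (Int.castRingHom ℚ)).IsElliptic :=
    EC.FrobTrace.isElliptic_map_rat (Δ_ne_zero_of_good hgood)
  let f : ZMod p → PointQBar W := fun b => (b.val : ℤ) • P
  have hf0 : ∀ b : ZMod p, b ≠ 0 → f b ≠ 0 := fun b hb h => by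
    refine hP0 ?_
    calc P = (1 : ℤ) • P := (one_zsmul P).symm
      _ = (((b⁻¹).val : ℤ) * (b.val : ℤ)) • P := zsmul_congr hP (by
        push_cast; rw [ZMod.natCast_val, ZMod.natCast_val, ZMod.cast_id, ZMod.cast_id,
          inv_mul_cancel₀ hb])
      _ = 0 := by rw [mul_zsmul]; change ((b⁻¹).val : ℤ) • f b = 0; rw [h, zsmul_zero]
  have hfp : ∀ b : ZMod p, (p : ℤ) • f b = 0 := fun b => by
    change (p : ℤ) • (b.val : ℤ) • P = 0
    rw [← mul_zsmul, mul_comm, mul_zsmul, hP, zsmul_zero]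
  set d := (p ^ 2 - 1) / 2 with hd
  set s : Finset (ZMod p) := Finset.univ.erase 0 with hs
  set e : QBar := ∏ b ∈ s, xOr (f b) with he
  have hval : ∀ b ∈ s, A.valuation (xOr (f b) ^ d * p) = 1 := fun b hb => by
    have h0 := hf0 b (Finset.ne_of_mem_erase hb)
    have hpb := hfp b
    generalize f b = Q at h0 hpb
    match Q with
    | .zero => exact absurd rfl h0
    | .some x y h =>
      refine EC.AtP.valuation_pow_mul_of_forall_inE1 W hA hp hp2 (fun h' => hgood h'.2)
        (fun x hx => hall x (by rwa [natCast_zsmul])) h ?_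
      rwa [← natCast_zsmul]
  have hfix : ∀ τ ∈ A.inertiaSubgroupIn ℚ, τ e = e := by
    intro τ hτ
    obtain ⟨a, ha⟩ := hcon τ hτ
    have ha0 : (a : ZMod p) ≠ 0 := fun h => hP0 (by
      rw [zsmul_congr hP (b := 0) (by rw [h, Int.cast_zero]), zero_zsmul] at ha
      rwa [← smul_zero_point (W := W) τ, smul_left_cancel_iff] at ha)
    rw [he, map_prod]
    refine Finset.prod_equiv (Equiv.mulRight₀ _ ha0) (fun b => ?_) (fun b _ => ?_)
    · simp [hs, ha0]
    · rw [xOr_smul]
      congr 1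
      change τ • ((b.val : ℤ) • P) = ((b * (a : ZMod p)).val : ℤ) • P
      rw [smul_zsmul_point, ha, ← mul_zsmul]
      exact zsmul_congr hP (by
        push_cast; rw [ZMod.natCast_val, ZMod.natCast_val, ZMod.cast_id, ZMod.cast_id])
  have hev : A.valuation e ^ d * A.valuation (p : QBar) ^ s.card = 1 := by
    rw [he, map_prod, ← Finset.prod_pow, ← Finset.prod_const, ← Finset.prod_mul_distrib]
    refine Finset.prod_eq_one fun b hb => ?_
    rw [← map_pow, ← map_mul]
    exact hval b hb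
  have hscard : s.card = p - 1 := by
    rw [hs, Finset.card_erase_of_mem (Finset.mem_univ _), Finset.card_univ, ZMod.card]
  have hp3 : 3 ≤ p := by have := hp.two_le; omega
  have hlt : p - 1 < d := by
    have : 3 * p ≤ p ^ 2 := by rw [sq]; exact Nat.mul_le_mul_right p hp3
    omega
  have he0 : e ≠ 0 := fun h => by
    rw [h, map_zero, zero_pow (by omega), zero_mul] at hev
    exact zero_ne_one hev
  obtain ⟨k, hk⟩ := exists_zpow_of_inertiaFixed hA hp he0 hfix
  have hpv : 0 < A.valuation (p : QBar) :=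
    zero_lt_iff.mpr ((Valuation.ne_zero_iff _).mpr (Nat.cast_ne_zero.mpr hp.ne_zero))
  rw [hk, hscard, ← zpow_natCast, ← zpow_natCast (A.valuation (p : QBar)) (p - 1), ← zpow_mul,
    ← zpow_add₀ hpv.ne', ← zpow_zero (A.valuation (p : QBar))] at hev
  have h0 : k * (d : ℤ) + ((p - 1 : ℕ) : ℤ) = 0 :=
    zpow_right_injective₀ hpv (ne_of_lt hA) hev
  have hdvd : (d : ℤ) ∣ ((p - 1 : ℕ) : ℤ) := ⟨-k, by linear_combination h0⟩
  have := Nat.le_of_dvd (by omega) (Int.natCast_dvd_natCast.mp hdvd)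
  omega

variable (A W p)

/-- A basis of `E[p]` adapted to a place of good ordinary reduction: `R` reduces to the origin and
`S` does not. -/
structure GoodFrame where
  R : PointQBar W
  S : PointQBar W
  hR : (p : ℤ) • R = 0
  hS : (p : ℤ) • S = 0
  R_ne : R ≠ 0
  R_inE1 : InE1 A R
  S_not : ¬ InE1 A S
  span : ∀ x : PointQBar W, (p : ℤ) • x = 0 → ∃ a b : ℤ, x = a • R + b • S
  smul_R : ∀ τ ∈ A.inertiaSubgroupIn ℚ, τ • R = (cyclotomicHom p τ : ZMod p).val • R
  smul_S : ∀ τ ∈ A.inertiaSubgroupIn ℚ, ∃ b : ℤ, τ • S = S + b • R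

variable {A W p}

/-- At a good ordinary place over the odd `p`, a frame exists and inertia acts on `E[p]` with
trace `χ + 1`. -/
theorem exists_goodFrame (hA : A.LiesOverPrime p) (hp2 : p ≠ 2) (hgood : W.IsGoodPrimeFor p)
    (hord : ∃ x : PointQBar W, (p : ℤ) • x = 0 ∧ ¬ InE1 A x) :
    Nonempty (GoodFrame A W p) ∧ ∀ τ ∈ A.inertiaSubgroupIn ℚ,
      LinearMap.trace (ZMod p) (residualRep W p (Δ_ne_zero_of_good hgood)).V
        ((residualRep W p (Δ_ne_zero_of_good hgood)).ρ τ) =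
          (cyclotomicHom p τ : ZMod p) + 1 := by
  classical
  have hp : p.Prime := Fact.out
  have hΔ0 := Δ_ne_zero_of_good hgood
  have : (W.map (Int.castRingHom ℚ)).IsElliptic := EC.FrobTrace.isElliptic_map_rat hΔ0
  have : Fact (2 < p) := ⟨by have := hp.two_le; omega⟩
  have hred := reducesTo_int W A
  obtain ⟨S, hStor, hS1⟩ := hord
  have hsub : ∀ τ ∈ A.inertiaSubgroupIn ℚ, ∀ x : PointQBar W, InE1 A (τ • x - x) :=
    fun τ hτ x => EC.AtP.smul_sub_inE1 hτ (inE0_of_good hA hp hgood x)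
  obtain ⟨R, hRtor, hR1, hRE1⟩ : ∃ R : PointQBar W, (p : ℤ) • R = 0 ∧ R ≠ 0 ∧ InE1 A R := by
    obtain ⟨τ, hτ, hχ⟩ := exists_mem_inertia_cyclotomicHom_eq hA (-1 : (ZMod p)ˣ)
    by_contra hcon
    have hid : (residualRep W p hΔ0).ρ τ = LinearMap.id := LinearMap.ext fun v => by
      by_contra hv
      have hvp := (Submodule.mem_torsionBy_iff _ _).mp v.2
      exact hcon ⟨τ • v.1 - v.1, by rw [zsmul_sub, ← smul_zsmul_point, hvp, smul_zero_point,
        sub_zero], fun h => hv (Subtype.ext (sub_eq_zero.mp h)), hsub τ hτ v.1⟩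
    have hd := det_residualRep hΔ0 (card_rootsOfUnity_qbar p) τ
    rw [hid, LinearMap.det_id, ← cyclotomicHom_apply, hχ, Units.val_neg, Units.val_one] at hd
    exact ZMod.neg_one_ne_one hd.symm
  let r : (residualRep W p hΔ0).V := ⟨R, (Submodule.mem_torsionBy_iff _ _).mpr hRtor⟩
  let s : (residualRep W p hΔ0).V := ⟨S, (Submodule.mem_torsionBy_iff _ _).mpr hStor⟩
  have hr : r ≠ 0 := fun e => hR1 (congrArg Subtype.val e)
  have hs : s ∉ (ZMod p) ∙ r := by
    intro hmem
    obtain ⟨a, ha⟩ := Submodule.mem_span_singleton.mp hmem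
    obtain ⟨a, rfl⟩ := ZMod.intCast_surjective a
    rw [Int.cast_smul_eq_zsmul] at ha
    refine hS1 ?_
    rw [← (show a • R = S from congrArg Subtype.val ha)]
    exact zsmul_mem (show R ∈ hred.E1 from hRE1) a
  have hb : LinearIndependent (ZMod p) ![r, s] := by
    rw [linearIndependent_fin2]
    refine ⟨fun e => hs (by simp at e; rw [e]; exact zero_mem _), fun a e => ?_⟩
    simp at e
    rcases eq_or_ne a 0 with rfl | ha
    · exact hr (by simpa using e.symm)
    · exact hs (Submodule.mem_span_singleton.mpr ⟨a⁻¹, by rw [← e, inv_smul_smul₀ ha]⟩)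
  let b := basisOfLinearIndependentOfCardEqFinrank hb
    (by rw [Fintype.card_fin, (residualRep W p hΔ0).finrank_eq])
  have hb0 : b 0 = r := by simp [b]
  have hb1 : b 1 = s := by simp [b]
  have hspan : ∀ x : PointQBar W, (p : ℤ) • x = 0 → ∃ a₀ a₁ : ℤ, x = a₀ • R + a₁ • S := by
    intro x hx
    let v : (residualRep W p hΔ0).V := ⟨x, (Submodule.mem_torsionBy_iff _ _).mpr hx⟩
    obtain ⟨a₀, ha₀⟩ := ZMod.intCast_surjective (b.repr v 0)
    obtain ⟨a₁, ha₁⟩ := ZMod.intCast_surjective (b.repr v 1)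
    have e := b.sum_repr v
    rw [Fin.sum_univ_two, hb0, hb1, ← ha₀, ← ha₁, Int.cast_smul_eq_zsmul,
      Int.cast_smul_eq_zsmul] at e
    exact ⟨a₀, a₁, (congrArg Subtype.val e).symm⟩
  have hgen : ∀ x : PointQBar W, (p : ℤ) • x = 0 → InE1 A x → ∃ a : ℤ, x = a • R := by
    intro x hx hx1
    obtain ⟨a₀, a₁, rfl⟩ := hspan x hx
    refine ⟨a₀, ?_⟩
    by_cases h : (a₁ : ZMod p) = 0
    · rw [zsmul_congr hStor (b := 0) (by rw [h, Int.cast_zero]), zero_zsmul, add_zero]
    · refine absurd ?_ hS1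
      have h1 : a₁ • S ∈ hred.E1 := by
        simpa using hred.E1.sub_mem (show a₀ • R + a₁ • S ∈ hred.E1 from hx1)
          (zsmul_mem (show R ∈ hred.E1 from hRE1) a₀)
      have h2 := zsmul_mem h1 (((a₁ : ZMod p)⁻¹).val : ℤ)
      rwa [← mul_zsmul, zsmul_congr hStor (b := 1) (by
        push_cast; rw [ZMod.natCast_val, ZMod.cast_id, inv_mul_cancel₀ h]), one_zsmul] at h2
  have hmain : ∀ τ ∈ A.inertiaSubgroupIn ℚ, ∃ a c : ℤ, τ • R = a • R ∧
      τ • S = S + c • R ∧ ((a : ZMod p) = (cyclotomicHom p τ : ZMod p)) ∧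
      LinearMap.trace (ZMod p) (residualRep W p hΔ0).V ((residualRep W p hΔ0).ρ τ) =
        (a : ZMod p) + 1 := by
    intro τ hτ
    obtain ⟨a, ha⟩ := hgen (τ • R) (by rw [← smul_zsmul_point, hRtor, smul_zero_point])
      ((ReducesTo.inE1_smul_iff (res_inertia hτ).1).mpr hRE1)
    obtain ⟨c, hc⟩ := hgen (τ • S - S)
      (by rw [zsmul_sub, ← smul_zsmul_point, hStor, smul_zero_point, sub_zero]) (hsub τ hτ S)
    have e0 : (residualRep W p hΔ0).ρ τ r = (a : ZMod p) • r := by
      rw [Int.cast_smul_eq_zsmul]; exact Subtype.ext ha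
    have e1 : (residualRep W p hΔ0).ρ τ s = (c : ZMod p) • r + s := by
      rw [Int.cast_smul_eq_zsmul]
      exact Subtype.ext (show τ • S = c • R + S by rw [← hc, sub_add_cancel])
    have e0' : (residualRep W p hΔ0).ρ τ (b 0) = (a : ZMod p) • b 0 := by rw [hb0]; exact e0
    have e1' : (residualRep W p hΔ0).ρ τ (b 1) = (c : ZMod p) • b 0 + b 1 := by
      rw [hb0, hb1]; exact e1
    have hd : LinearMap.det ((residualRep W p hΔ0).ρ τ) = (a : ZMod p) := by
      rw [← LinearMap.det_toMatrix b, Matrix.det_fin_two]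
      simp [LinearMap.toMatrix_apply, e0', e1']
    refine ⟨a, c, ha, by rw [← hc]; abel, ?_, ?_⟩
    · rw [← hd, det_residualRep hΔ0 (card_rootsOfUnity_qbar p), cyclotomicHom_apply]
    · rw [LinearMap.trace_eq_matrix_trace _ b, Matrix.trace_fin_two]
      simp [LinearMap.toMatrix_apply, e0', e1']
  refine ⟨⟨{ R := R, S := S, hR := hRtor, hS := hStor, R_ne := hR1, R_inE1 := hRE1,
             S_not := hS1, span := hspan, smul_R := fun τ hτ => ?_,
             smul_S := fun τ hτ => ?_ }⟩, fun τ hτ => ?_⟩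
  · obtain ⟨a, c, ha, -, hχ, -⟩ := hmain τ hτ
    rw [ha, ← natCast_zsmul]
    exact zsmul_congr hRtor (by rw [hχ]; simp)
  · obtain ⟨a, c, -, hc, -⟩ := hmain τ hτ
    exact ⟨c, hc⟩
  · obtain ⟨a, c, -, -, hχ, ht⟩ := hmain τ hτ
    rw [ht, hχ]

namespace GoodFrame

variable (F : GoodFrame A W p)

theorem smul_R_of_mem {τ : GQ} (hτ : τ ∈ tameKer A p) : τ • F.R = F.R := by
  rw [mem_tameKer] at hτ
  rw [F.smul_R τ hτ.1, hτ.2, Units.val_one, ZMod.val_one, one_smul]

theorem mem_wildKer_of {τ : GQ} (hτ : τ ∈ tameKer A p) (hS : τ • F.S = F.S) :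
    τ ∈ wildKer A W p := by
  refine ⟨hτ, fun x hx => ?_⟩
  obtain ⟨a, b, rfl⟩ := F.span x hx
  rw [smul_add_point, smul_zsmul_point, smul_zsmul_point, F.smul_R_of_mem hτ, hS]

theorem pow_smul_S {τ : GQ} (hτ : τ ∈ tameKer A p) {b : ℤ} (hb : τ • F.S = F.S + b • F.R)
    (n : ℕ) : τ ^ n • F.S = F.S + ((n : ℤ) * b) • F.R := by
  induction n with
  | zero => simp
  | succ n ih =>
    rw [pow_succ', mul_smul, ih, smul_add_point, hb, smul_zsmul_point, F.smul_R_of_mem hτ,
      add_assoc,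
      ← add_zsmul]
    push_cast
    ring_nf

/-- Inertia conjugates the tame kernel through the cyclotomic character, modulo the wild kernel. -/
theorem conj_pow_mem_wildKer (F : GoodFrame A W p) {τ σ : GQ} (hτ : τ ∈ A.inertiaSubgroupIn ℚ)
    (hσ : σ ∈ tameKer A p) :
    (σ ^ (cyclotomicHom p τ : ZMod p).val)⁻¹ * (τ * σ * τ⁻¹) ∈ wildKer A W p := by
  have hconj : τ * σ * τ⁻¹ ∈ tameKer A p := by
    simpa using conj_mem_tameKer (inv_mem hτ) hσ
  refine F.mem_wildKer_of (mul_mem (inv_mem (pow_mem hσ _)) hconj) ?_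
  obtain ⟨b, hb⟩ := F.smul_S σ (mem_tameKer.mp hσ).1
  obtain ⟨c, hc⟩ := F.smul_S _ (inv_mem hτ)
  have e : σ • τ⁻¹ • F.S = τ⁻¹ • F.S + b • F.R := by
    rw [hc, smul_add_point, hb, smul_zsmul_point, F.smul_R_of_mem hσ]
    abel
  rw [mul_smul, inv_smul_eq_iff, F.pow_smul_S hσ hb, mul_smul, mul_smul, e, smul_add_point,
    smul_inv_smul, smul_zsmul_point, F.smul_R τ hτ, mul_comm, mul_zsmul, natCast_zsmul]

end GoodFrame

/-- The parameter of the torsion point in the kernel of reduction has the order of `ζ - 1`. -/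
theorem valuation_sCoord_R (hA : A.LiesOverPrime p) (hp2 : p ≠ 2) (T : TowerData A p)
    (hT : T.H₁ = tameKer A p) (F : GoodFrame A W p)
    (hg : (cyclotomicHom p T.τ₀ : ZMod p) = (T.g : ZMod p)) :
    A.valuation (sCoord F.R) = A.valuation (T.ζ - 1) := by
  classical
  have hp : p.Prime := Fact.out
  have : CharP (IsLocalRing.ResidueField A) p := residueField_charP hA hp
  obtain ⟨hP1, hP1p, hP1res⟩ := zeta_sub_one hA hp T.hζ
  have hred := reducesTo_int W A
  set s := sCoord F.R with hsdef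
  set π₁ := T.ζ - 1 with hπ₁
  have hs0 : s ≠ 0 := hred.sCoord_ne_zero F.R_inE1 F.R_ne
  have hslt : A.valuation s < 1 := A.mem_nonunits_iff.mp (hred.sCoord_mem F.R_inE1)
  obtain ⟨k, hk⟩ := (TowerData.tame hA hp T).discrete s hs0 fun τ hτ => by
    rw [hsdef, ← sCoord_smul, F.smul_R_of_mem (hT ▸ hτ)]
  change A.valuation s = A.valuation π₁ ^ k at hk
  have hP0 : 0 < A.valuation π₁ := zero_lt_iff.mpr ((Valuation.ne_zero_iff _).mpr
    (sub_ne_zero.mpr (T.hζ.ne_one hp.one_lt)))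
  have hk1 : 0 < k := by
    by_contra hle
    rw [hk] at hslt
    exact absurd (one_le_zpow_of_nonpos₀ hP0 hP1.le (not_lt.mp hle)) (not_le.mpr hslt)
  obtain ⟨k, rfl⟩ := Int.eq_ofNat_of_zero_le hk1.le
  rw [zpow_natCast] at hk
  have hk2 : 2 * k ≤ p - 1 := by
    by_contra hlt
    refine F.R_ne (hred.eq_zero_of_odd_nsmul (hp.odd_of_ne_two hp2) F.R_inE1 ?_
      (by rw [← natCast_zsmul]; exact F.hR))
    rw [← hP1p, ← hsdef, hk, ← pow_mul, mul_comm]
    exact pow_lt_pow_right_of_lt_one₀ hP0 hP1 (not_le.mp hlt)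
  have hgR : T.τ₀ • F.R = T.g • F.R := by
    rw [F.smul_R _ T.τ₀_mem, hg, ← natCast_zsmul, ← natCast_zsmul _ T.g]
    exact zsmul_congr F.hR (by simp)
  obtain ⟨hq, hqr⟩ := res_sCoord_nsmul_div hred F.R_inE1 F.R_ne T.g
  rw [← hgR, sCoord_smul] at hq hqr
  set w := s / π₁ ^ k with hw
  have hπk : π₁ ^ k ≠ 0 := pow_ne_zero _ (sub_ne_zero.mpr (T.hζ.ne_one hp.one_lt))
  obtain ⟨hwA, hwr⟩ := res_ne_zero_of_valuation_eq_one (A := A) (x := w) (by
    rw [hw, map_div₀, map_pow, hk, div_self (pow_ne_zero _ hP0.ne')])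
  obtain ⟨hτw, hτwr⟩ := res_inertia_map T.τ₀_mem hwA
  obtain ⟨hζA, hζr⟩ := hP1res T.g
  have e : T.τ₀ s / s * w = ((T.ζ ^ T.g - 1) / π₁) ^ k * T.τ₀ w := by
    have hτk : T.τ₀ (π₁ ^ k) ≠ 0 := (map_ne_zero _).mpr hπk
    have e1 : T.τ₀ π₁ = T.ζ ^ T.g - 1 := by rw [hπ₁, map_sub, map_one, T.τ₀_ζ]
    rw [hw, map_div₀, map_pow, e1, div_pow,
      div_mul_div_cancel₀' (by rw [← e1, ← map_pow]; exact hτk)]
    field_simp
  have e' := congrArg (res A) e
  rw [res_mul hq hwA, hqr, res_mul (pow_mem hζA k) hτw, res_pow hζA, hζr, hτwr] at e'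
  have h1 : (T.g : ZMod p) ^ k = (T.g : ZMod p) :=
    (ZMod.castHom (dvd_refl p) (IsLocalRing.ResidueField A)).injective
      (by rw [map_pow, map_natCast]; exact (mul_right_cancel₀ hwr e').symm)
  obtain ⟨i, rfl⟩ : ∃ i, k = i + 1 := ⟨k - 1, by omega⟩
  rw [pow_succ] at h1
  rcases Nat.eq_zero_or_pos i with rfl | hi
  · rw [hk, zero_add, pow_one]
  · have := Nat.le_of_dvd hi (T.primitive i ((mul_eq_right₀ T.g_ne).mp h1))
    omega

/-- If some element of `tameKer` moves `E[p]`, the field of `wildKer` is wild with jump one. -/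
theorem good_wildKer_eq_tameKer_or_exists_wild (hA : A.LiesOverPrime p) (hp2 : p ≠ 2)
    (hgood : W.IsGoodPrimeFor p) (hord : ∃ x : PointQBar W, (p : ℤ) • x = 0 ∧ ¬ InE1 A x) :
    wildKer A W p = tameKer A p ∨
      ∃ Wd : Wild A p, Wd.C.H = wildKer A W p ∧ Wd.C₁.H = tameKer A p ∧
        (∃ x : PointQBar W, (p : ℤ) • x = 0 ∧ Wd.σ • x ≠ x) ∧
        ∀ h ∈ tameKer A p, ∃ i : ℕ, (Wd.σ ^ i)⁻¹ * h ∈ wildKer A W p := by
  classical
  have hp : p.Prime := Fact.out
  obtain ⟨⟨F⟩, -⟩ := exists_goodFrame hA hp2 hgood hord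
  by_cases hall : ∀ τ ∈ tameKer A p, τ • F.S = F.S
  · exact Or.inl (le_antisymm wildKer_le fun τ hτ => F.mem_wildKer_of hτ (hall τ hτ))
  right
  simp only [not_forall] at hall
  obtain ⟨τ, hτ, hτS⟩ := hall
  obtain ⟨b, hb⟩ := F.smul_S τ (mem_tameKer.mp hτ).1
  have hb0 : (b : ZMod p) ≠ 0 := fun h => hτS (by
    rw [hb, zsmul_congr F.hR (b := 0) (by rw [h, Int.cast_zero]), zero_zsmul, add_zero])
  set σ := τ ^ ((b : ZMod p)⁻¹).val with hσdef
  have hσ : σ ∈ tameKer A p := pow_mem hτ _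
  have hσS : σ • F.S = F.S + F.R := by
    rw [hσdef, F.pow_smul_S hτ hb, zsmul_congr F.hR (b := 1) (by
      push_cast; rw [ZMod.natCast_val, ZMod.cast_id, inv_mul_cancel₀ hb0]), one_zsmul]
  have hσn : ∀ n : ℕ, σ ^ n • F.S = F.S + (n : ℤ) • F.R := fun n => by
    rw [F.pow_smul_S hσ (b := 1) (by rw [one_zsmul]; exact hσS), mul_one]
  have hgen₁ : ∀ h ∈ tameKer A p, ∃ i : ℕ, (σ ^ i)⁻¹ * h ∈ wildKer A W p := by
    intro h hh
    obtain ⟨c, hc⟩ := F.smul_S h (mem_tameKer.mp hh).1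
    refine ⟨(c : ZMod p).val, F.mem_wildKer_of (mul_mem (inv_mem (pow_mem hσ _)) hh) ?_⟩
    rw [mul_smul, inv_smul_eq_iff, hσn, hc]
    exact congrArg (F.S + ·) (zsmul_congr F.hR (by push_cast; rw [ZMod.natCast_val, ZMod.cast_id]))
  obtain ⟨τ₀, hτ₀, hprim, hpow, hgen⟩ := exists_tame_generator hA
  have : NeZero (p : QBar) := ⟨Nat.cast_ne_zero.mpr hp.ne_zero⟩
  obtain ⟨ζ, hζ⟩ := HasEnoughRootsOfUnity.exists_primitiveRoot QBar p
  set g := (cyclotomicHom p τ₀ : ZMod p).val with hgdef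
  have hgcast : (cyclotomicHom p τ₀ : ZMod p) = (g : ZMod p) := by
    rw [hgdef, ZMod.natCast_val, ZMod.cast_id]
  let T : TowerData A p :=
    { Hk := wildKer A W p
      H₁ := tameKer A p
      σ := σ
      τ₀ := τ₀
      g := g
      ζ := ζ
      le := wildKer_le
      le_inertia := fun h hh => (mem_tameKer.mp hh).1
      σ_mem := hσ
      τ₀_mem := hτ₀
      normal := fun h hh => conj_mem_wildKer (mem_tameKer.mp hσ).1 hh
      normal_τ₀ := fun h hh => conj_mem_wildKer hτ₀ hh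
      normal₁ := fun h hh => conj_mem_tameKer hτ₀ hh
      gen₁ := hgen₁
      pow_σ := F.mem_wildKer_of (pow_mem hσ _) (by rw [hσn, F.hR, add_zero])
      gen := hgen
      pow_τ₀ := hpow
      primitive := fun j hj => hprim j (by rw [hgcast]; exact hj)
      g_ne := hgcast ▸ Units.ne_zero _
      conj := by rw [hgdef]; exact F.conj_pow_mem_wildKer hτ₀ hσ
      hζ := hζ
      ζ_fixed := fun h hh => by
        rw [apply_root_eq_pow_cyclotomicHom (p := p) h hζ.pow_eq_one, (mem_tameKer.mp hh).2,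
          Units.val_one, ZMod.val_one, pow_one]
      τ₀_ζ := apply_root_eq_pow_cyclotomicHom τ₀ hζ.pow_eq_one }
  -- the abscissa of `S`
  have hred := reducesTo_int W A
  have hR2 : ∀ P : PointQBar W, σ • F.S = P → P - F.S = F.R := fun P h => by rw [← h, hσS]; abel
  obtain ⟨z, hzA, hzH, hzσ⟩ : ∃ z ∈ A, (∀ h ∈ wildKer A W p, h z = z) ∧
      A.valuation (σ z - z) = A.valuation (sCoord F.R) := by
    have hat := F.S_not
    generalize hSdef : F.S = P at hat
    match P with
    | .zero => exact absurd inE1_zero hat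
    | .some x y hxy =>
      have hxA : x ∈ A := not_not.mp hat
      have hyA : y ∈ A := hred.y_mem hxy.left hxA
      have hσI := (mem_tameKer.mp hσ).1
      obtain ⟨hσx, -⟩ := res_inertia_map hσI hxA
      obtain ⟨hσy, hσyr⟩ := res_inertia_map hσI hyA
      obtain ⟨h', eσ⟩ := EC.Reduction.smul_some (σ := σ) hxy
      have hdouble : ¬ InE1 A ((2 : ℕ) • F.S) := fun h2 => F.S_not (by
        obtain ⟨j, hj⟩ := hp.odd_of_ne_two hp2
        rw [show F.S = (j + 1) • (2 : ℕ) • F.S by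
          rw [← mul_smul, show (j + 1) * 2 = p + 1 by omega, add_smul, one_smul,
            ← natCast_zsmul, F.hS, zero_add]]
        exact nsmul_mem (show (2 : ℕ) • F.S ∈ hred.E1 from h2) _)
      have hne : σ x ≠ x := by
        intro hx
        rcases Y_eq_of_X_eq h'.left hxy.left hx with hy | hy
        · exact F.R_ne ((hR2 _ (show σ • F.S = F.S by
            rw [hSdef, eσ]; exact some_eq_some _ _ hx hy)).symm.trans (sub_self _))
        · refine hdouble ?_
          have hneg : σ • F.S = -F.S := by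
            rw [hSdef, eσ, Point.neg_some]; exact some_eq_some _ _ hx hy
          rw [show (2 : ℕ) • F.S = -F.R by rw [← hR2 _ hneg, two_nsmul]; abel]
          exact neg_mem (show F.R ∈ hred.E1 from F.R_inE1)
      obtain ⟨hnA, -⟩ := hred.res_negY hxA hyA
      set W' := ((W.map (Int.castRingHom ℚ))⁄(AlgebraicClosure ℚ)).toAffine with hW'
      have hnum : A.valuation (σ y - W'.negY x y) = 1 := by
        refine le_antisymm ((A.valuation_le_one_iff _).mpr (sub_mem hσy hnA))
          (not_lt.mp fun hlt => hdouble ?_)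
        have hres : res A y = res A (W'.negY x y) := by
          have e := res_eq_zero (A.mem_nonunits_iff.mpr hlt)
          rwa [res_sub hσy hnA, hσyr, sub_eq_zero] at e
        have hns := (inE0_of_good hA hp hgood (Point.some x y hxy)).resolve_left
          (not_not_intro hxA)
        have hns' : (W.map (Int.castRingHom (IsLocalRing.ResidueField A))).toAffine.Nonsingular
            (res A x) (res A (W'.negY x y)) := hres ▸ hns
        rw [hSdef, two_nsmul, ← sub_neg_eq_add, Point.neg_some]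
        refine hred.mem_E1.mp (hred.sub_mem_E1 (Or.inr hns) (Or.inr hns') ?_)
        refine (redFun_some hxy hxA hns).trans ?_
        rw [redFun_some _ hxA hns']
        exact some_eq_some _ _ rfl hres
      have hlt : A.valuation (σ x - x) < 1 := valuation_inertia_sub_lt hσI hxA
      have hd0 : 0 < A.valuation (σ x - x) :=
        zero_lt_iff.mpr ((Valuation.ne_zero_iff _).mpr (sub_ne_zero.mpr hne))
      obtain ⟨-, hs⟩ := sCoord_add_of_steep (h₁ := h') (h₂ := (nonsingular_neg x y).mpr hxy) hred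
        hσx hxA hσy hne (by rw [map_div₀, hnum]; exact (one_lt_div₀ hd0).mpr hlt)
      refine ⟨x, hxA, fun h hh => ?_, ?_⟩
      · obtain ⟨h'', eh⟩ := EC.Reduction.smul_some (σ := h) hxy
        have e := (mem_wildKer.mp hh).2 F.S F.hS
        rw [hSdef, eh] at e
        exact ((Point.some.injEq ..).mp e).1
      · rw [← hR2 _ (show σ • F.S = _ by rw [hSdef, eσ]), hSdef,
          sub_eq_add_neg (Point.some (σ x) (σ y) h'), Point.neg_some, hs, map_div₀, hnum, one_div,
          inv_inv]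
  obtain ⟨Wd, hC, hC₁, hσW⟩ := TowerData.exists_wild hA hp T hzA hzH
    (hzσ.trans (valuation_sCoord_R hA hp2 T rfl F hgcast))
  exact ⟨Wd, hC, hC₁, ⟨F.S, F.hS, fun e => F.R_ne (by
    rw [hσW] at e; rw [← hR2 _ e, sub_self])⟩, fun h hh => by rw [hσW]; exact hgen₁ h hh⟩

end Fermat.Agent.RT.Lift.LowerP

end
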