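import Fermat.Agent.RT.MazurP.HeckeSeries
import Fermat.Agent.RT.MazurP.Jump
import Fermat.Agent.NewformLocal.Toric.NormRed
import Fermat.Agent.OrdinaryAtP.Ring

/-!
# Multiples of a constant in rings of integral series

`Small R γ x` says that `x` is `γ` times a member of `R`. Powers, twists by roots of unity and
changes of the constant.
-/

set_option autoImplicit false
set_option synthInstance.maxHeartbeats 400000
set_option linter.unusedSectionVars false

noncomputable section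

namespace Fermat.Agent.RT.Lift.LowerP

open ModularCurve Fermat.Agent.Semistable
open RT.MazurP (algebraMap_eq_C coeff_C_mul)
open Arith (QBar GQ)

variable {A : ValuationSubring QBar}

section Generic

variable {F : Type*} [Field F] [Algebra QBar F]

/-- `x` is `γ` times a member of `R`. -/
def Small (R : Subring F) (γ : QBar) (x : F) : Prop :=
  ∃ w ∈ R, x = algebraMap QBar F γ * w

variable {R : Subring F} {γ δ : QBar} {x y : F}

theorem small_zero : Small R γ 0 := ⟨0, zero_mem R, (mul_zero _).symm⟩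

theorem Small.intro {w : F} (hw : w ∈ R) : Small R γ (algebraMap QBar F γ * w) := ⟨w, hw, rfl⟩

theorem Small.mem (hx : Small R γ x) (hγ : algebraMap QBar F γ ∈ R) : x ∈ R := by
  obtain ⟨w, hw, rfl⟩ := hx
  exact mul_mem hγ hw

theorem Small.add (hx : Small R γ x) (hy : Small R γ y) : Small R γ (x + y) := by
  obtain ⟨a, ha, rfl⟩ := hx
  obtain ⟨b, hb, rfl⟩ := hy
  exact ⟨a + b, add_mem ha hb, (mul_add _ _ _).symm⟩

theorem Small.neg (hx : Small R γ x) : Small R γ (-x) := by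
  obtain ⟨a, ha, rfl⟩ := hx
  exact ⟨-a, neg_mem ha, (mul_neg _ _).symm⟩

theorem Small.sub (hx : Small R γ x) (hy : Small R γ y) : Small R γ (x - y) := by
  rw [sub_eq_add_neg]; exact hx.add hy.neg

theorem Small.mul_left {r : F} (hr : r ∈ R) (hx : Small R γ x) : Small R γ (r * x) := by
  obtain ⟨a, ha, rfl⟩ := hx
  exact ⟨r * a, mul_mem hr ha, mul_left_comm _ _ _⟩

theorem Small.mul_right {r : F} (hr : r ∈ R) (hx : Small R γ x) : Small R γ (x * r) := by
  rw [mul_comm]; exact hx.mul_left hr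

theorem Small.const_mul (c : QBar) (hx : Small R γ x) :
    Small R (c * γ) (algebraMap QBar F c * x) := by
  obtain ⟨a, ha, rfl⟩ := hx
  exact ⟨a, ha, by rw [map_mul, mul_assoc]⟩

theorem small_sum {κ : Type*} (s : Finset κ) {f : κ → F} (hf : ∀ i ∈ s, Small R γ (f i)) :
    Small R γ (∑ i ∈ s, f i) :=
  Finset.sum_induction f _ (fun _ _ => Small.add) small_zero hf

theorem div_mem_of_valuation_le (h : A.valuation γ ≤ A.valuation δ) :
    δ = 0 ∧ γ = 0 ∨ δ ≠ 0 ∧ γ / δ ∈ A := by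
  rcases eq_or_ne δ 0 with rfl | hδ
  · rw [map_zero, le_zero_iff, map_eq_zero] at h
    exact Or.inl ⟨rfl, h⟩
  · refine Or.inr ⟨hδ, (A.valuation_le_one_iff _).mp ?_⟩
    rw [map_div₀, div_le_one₀ (zero_lt_iff.mpr ((Valuation.ne_zero_iff _).mpr hδ))]
    exact h

theorem Small.mono (hR : ∀ c ∈ A, algebraMap QBar F c ∈ R)
    (h : A.valuation γ ≤ A.valuation δ) (hx : Small R γ x) : Small R δ x := by
  obtain ⟨a, ha, rfl⟩ := hx
  rcases div_mem_of_valuation_le h with ⟨rfl, rfl⟩ | ⟨hδ, hc⟩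
  · exact ⟨a, ha, rfl⟩
  · exact ⟨algebraMap QBar F (γ / δ) * a, mul_mem (hR _ hc) ha, by
      rw [← mul_assoc, ← map_mul, mul_div_cancel₀ _ hδ]⟩

/-- Congruent factors give congruent products. -/
theorem small_prod_sub {κ : Type*} (s : Finset κ) {f g : κ → F} (hf : ∀ i ∈ s, f i ∈ R)
    (hg : ∀ i ∈ s, g i ∈ R) (h : ∀ i ∈ s, Small R γ (f i - g i)) :
    Small R γ (∏ i ∈ s, f i - ∏ i ∈ s, g i) := by
  classical
  induction s using Finset.induction_on with
  | empty => simpa using (small_zero (R := R) (γ := γ))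
  | insert i s hi ih =>
    rw [Finset.prod_insert hi, Finset.prod_insert hi,
      show f i * ∏ j ∈ s, f j - g i * ∏ j ∈ s, g j =
        (f i - g i) * ∏ j ∈ s, f j + g i * (∏ j ∈ s, f j - ∏ j ∈ s, g j) by ring]
    refine ((h i (Finset.mem_insert_self i s)).mul_right
      (prod_mem fun j hj => hf j (Finset.mem_insert_of_mem hj))).add
      ((ih (fun j hj => hf j (Finset.mem_insert_of_mem hj))
        (fun j hj => hg j (Finset.mem_insert_of_mem hj))
        fun j hj => h j (Finset.mem_insert_of_mem hj)).mul_left (hg i (Finset.mem_insert_self i s)))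

/-- **The binomial step**: `(a + γ b) ^ p = a ^ p + γ ^ p b ^ p + p γ z`. -/
theorem small_add_pow_sub {p : ℕ} (hp : p.Prime) {a b : F} (ha : a ∈ R) (hb : b ∈ R)
    (hγ : algebraMap QBar F γ ∈ R) :
    Small R ((p : QBar) * γ)
      ((a + algebraMap QBar F γ * b) ^ p - a ^ p - algebraMap QBar F (γ ^ p) * b ^ p) := by
  obtain ⟨r, hr⟩ := exists_add_pow_prime_eq hp (⟨a, ha⟩ : R) (⟨_, hγ⟩ * ⟨b, hb⟩ : R)
  refine ⟨a * b * r, mul_mem (mul_mem ha hb) r.2, ?_⟩
  have h1 := congrArg (fun t : R => (t : F)) hr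
  push_cast at h1
  rw [h1, map_mul, map_natCast, map_pow, mul_pow]
  ring

end Generic

/-! ### Small elements of `loc2` are small on every side -/

variable {F : Type*} [Field F] [Algebra QBar F] {S : Type*} {ι : S → (F →ₐ[QBar] LSer)}

theorem Small.map_iota {γ : QBar} {x : F} (hx : Small (loc2 A ι) γ x) (s : S) :
    Small (locS A) γ (ι s x) := by
  obtain ⟨w, hw, rfl⟩ := hx
  exact ⟨ι s w, (mem_loc2 ι).mp hw s, by rw [map_mul, AlgHom.commutes]⟩

theorem small_loc2_iff {γ : QBar} (hγ : γ ≠ 0) {x : F} :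
    Small (loc2 A ι) γ x ↔ ∀ s, Small (locS A) γ (ι s x) := by
  refine ⟨fun h => h.map_iota, fun h => ⟨algebraMap QBar F γ⁻¹ * x, (mem_loc2 ι).mpr fun s => ?_, ?_⟩⟩
  · obtain ⟨w, hw, e⟩ := h s
    rw [map_mul, AlgHom.commutes, e, ← mul_assoc, ← map_mul, inv_mul_cancel₀ hγ, map_one, one_mul]
    exact hw
  · rw [← mul_assoc, ← map_mul, mul_inv_cancel₀ hγ, map_one, one_mul]

/-- An element with zero reductions is small by a nonunit. -/
theorem exists_small_of_red2_eq_zero [Finite S] {p : ℕ} [Fact p.Prime] (hA : A.LiesOverPrime p)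
    (hfrac : ∀ s x, ι s x ∈ fracS A) (x : loc2 A ι) (hx : red2 A ι x = 0) :
    ∃ δ : QBar, δ ∈ A.nonunits ∧ Small (loc2 A ι) δ (x : F) := by
  obtain ⟨π, hπ, y, rfl⟩ := OrdinaryAtP.exists_eq_const_mul hA hfrac x hx
  exact ⟨π, hπ, y, y.2, rfl⟩

/-- A small element by a nonunit has zero reductions. -/
theorem red2_eq_zero_of_small {δ : QBar} (hδ : δ ∈ A.nonunits) {x : loc2 A ι}
    (hx : Small (loc2 A ι) δ (x : F)) : red2 A ι x = 0 := by
  obtain ⟨w, hw, e⟩ := hx
  have hδA := Arith.mem_of_mem_nonunits hδ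
  rw [show x = ⟨_, algebraMap_mem_loc2 ι hδA⟩ * ⟨w, hw⟩ from Subtype.ext e]
  funext s
  rw [map_mul, Pi.mul_apply, Pi.zero_apply, red2_apply,
    redL_congr _ (algebraMap_mem_locS hδA) ((ι s).commutes δ), redL_algebraMap hδA,
    (residue_eq_zero_iff hδA).mpr hδ, map_zero, zero_mul]

/-! ### Twists -/

section Twist

variable {p : ℕ} [hp : Fact p.Prime] [CharP (Res A) p] (hA : A.LiesOverPrime p)
include hA

theorem small_twist_sub_intS {ζ : QBarˣ} (hζ : IsPrimitiveRoot ζ p) (i : ℕ) {x : LSer}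
    (hx : x ∈ intS A) :
    ∃ w ∈ intS A, ModFun.twist (ζ ^ i) x - x = algebraMap QBar LSer ((ζ : QBar) - 1) * w := by
  have hp' : p.Prime := hp.out
  have hζ' : IsPrimitiveRoot (ζ : QBar) p := IsPrimitiveRoot.coe_units_iff.mpr hζ
  have hne : (ζ : QBar) - 1 ≠ 0 := sub_ne_zero.mpr (hζ'.ne_one hp'.one_lt)
  obtain ⟨-, -, hdiv⟩ := MazurP.zeta_sub_one hA hp' hζ'
  obtain ⟨⟨L, hL, hxL⟩, hxA⟩ := mem_intS.mp hx
  have hint : IsIntegral ℚ (ζ : QBar) := Algebra.IsIntegral.isIntegral _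
  have := IntermediateField.adjoin.finiteDimensional hint
  have hz : ∀ k : ℤ, ((((ζ ^ i) ^ k : QBarˣ) : QBar) - 1) / ((ζ : QBar) - 1) ∈ A ∧
      ((((ζ ^ i) ^ k : QBarˣ) : QBar) - 1) / ((ζ : QBar) - 1) ∈
        IntermediateField.adjoin ℚ {(ζ : QBar)} := by
    intro k
    obtain ⟨m, hm⟩ : ∃ m : ℕ, (ζ ^ i) ^ k = ζ ^ m := by
      refine ⟨((i : ℤ) * k % p).toNat, ?_⟩
      rw [← zpow_natCast ζ i, ← zpow_mul, ← zpow_natCast ζ, Int.toNat_of_nonneg
        (Int.emod_nonneg _ (by exact_mod_cast hp'.ne_zero))]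
      conv_lhs => rw [← Int.emod_add_mul_ediv ((i : ℤ) * k) p]
      rw [zpow_add, zpow_mul, zpow_natCast, hζ.pow_eq_one, one_zpow, mul_one]
    rw [hm, Units.val_pow_eq_pow_val]
    have hm' := IntermediateField.mem_adjoin_simple_self ℚ (ζ : QBar)
    exact ⟨(hdiv m).1, div_mem (sub_mem (pow_mem hm' m) (one_mem _)) (sub_mem hm' (one_mem _))⟩
  refine ⟨algebraMap QBar LSer ((ζ : QBar) - 1)⁻¹ * (ModFun.twist (ζ ^ i) x - x),
    mem_intS.mpr ⟨⟨L ⊔ IntermediateField.adjoin ℚ {(ζ : QBar)}, inferInstance, fun n => ?_⟩,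
      fun n => ?_⟩, by rw [← mul_assoc, ← map_mul, mul_inv_cancel₀ hne, map_one, one_mul]⟩
  all_goals
    rw [algebraMap_eq_C, coeff_C_mul, HahnSeries.coeff_sub, ModFun.coeff_twist,
      show (((ζ : QBar) - 1)⁻¹ * ((((ζ ^ i) ^ n : QBarˣ) : QBar) * x.coeff n - x.coeff n)) =
        (((((ζ ^ i) ^ n : QBarˣ) : QBar) - 1) / ((ζ : QBar) - 1)) * x.coeff n by
          field_simp]
  · exact mul_mem ((le_sup_right : _ ≤ L ⊔ _) (hz n).2) ((le_sup_left : L ≤ L ⊔ _) (hxL n))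
  · exact mul_mem (hz n).1 (hxA n)

/-- Twists by `p`-th roots of unity are trivial modulo `ζ - 1`. -/
theorem small_twist_sub {ζ : QBarˣ} (hζ : IsPrimitiveRoot ζ p) (i : ℕ) {y : LSer}
    (hy : y ∈ locS A) :
    ModFun.twist (ζ ^ i) y ∈ locS A ∧
      Small (locS A) ((ζ : QBar) - 1) (ModFun.twist (ζ ^ i) y - y) := by
  have hroot : (ζ ^ i) ^ p = 1 := by rw [← pow_mul, mul_comm, pow_mul, hζ.pow_eq_one, one_pow]
  obtain ⟨hm, -⟩ := NewformLocal.Toric.twist_mem_locS (A := A) (ζ ^ i) hroot hy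
  refine ⟨hm, ?_⟩
  obtain ⟨a, b, hb, hab⟩ := id hy
  obtain ⟨wa, hwa, ea⟩ := small_twist_sub_intS hA hζ i a.2
  obtain ⟨wb, hwb, eb⟩ := small_twist_sub_intS hA hζ i b.2
  have hb0 : (b : LSer) ≠ 0 := fun h => hb (by
    rw [show b = 0 from Subtype.ext h, map_zero])
  obtain ⟨hbi, -⟩ := inv_mem_locS (intS_le_locS b.2)
    (by rw [redL_of_mem_intS b]; exact hb)
  refine ⟨(wa - ModFun.twist (ζ ^ i) y * wb) * (b : LSer)⁻¹,
    mul_mem (sub_mem (intS_le_locS hwa) (mul_mem hm (intS_le_locS hwb))) hbi, ?_⟩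
  have e : ModFun.twist (ζ ^ i) y * ModFun.twist (ζ ^ i) (b : LSer) =
      ModFun.twist (ζ ^ i) (a : LSer) := by rw [← map_mul, hab]
  field_simp
  linear_combination e - hab - ModFun.twist (ζ ^ i) y * eb + ea

end Twist

end Fermat.Agent.RT.Lift.LowerP

end
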