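import Fermat.Agent.RT.Lift.LowerP.Approx
import Fermat.Agent.RT.Lift.LowerP.Deep
import Fermat.Agent.OrdinaryAtP.Cover

/-!
# A class approximated to every depth by untwisted functions is zero

Sections of the cover of such a class take at the points the values of untwisted functions up to
roots of unity, to every depth. So a value space meets one of the finitely many untwisted ones,
and a Kummer function of the class is a `p`-th power.
-/

set_option autoImplicit false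
set_option synthInstance.maxHeartbeats 400000
set_option maxHeartbeats 1000000
set_option linter.unusedSectionVars false

noncomputable section

namespace Fermat.Agent.RT.Lift.LowerP

open ModularCurve AlgebraicCurve Fermat.Agent.Semistable Fermat.Agent.OrdinaryAtP
open RT.MazurP (cls cls_mul cls_eq_zero_iff cls_congr exists_eq_mul_pow)
open Arith (QBar GQ)

variable {A : ValuationSubring QBar}

/-- A common denominator. -/
theorem exists_common_den {κ : Type*} [Fintype κ] (x : κ → QBar) :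
    ∃ c : QBar, c ≠ 0 ∧ c ∈ A ∧ ∀ k, c * x k ∈ A := by
  classical
  suffices key : ∀ s : Finset κ, ∃ c : QBar, c ≠ 0 ∧ c ∈ A ∧ ∀ k ∈ s, c * x k ∈ A by
    obtain ⟨c, h1, h2, h3⟩ := key Finset.univ
    exact ⟨c, h1, h2, fun k => h3 k (Finset.mem_univ k)⟩
  intro s
  induction s using Finset.induction_on with
  | empty => exact ⟨1, one_ne_zero, one_mem A, fun k hk => absurd hk (Finset.notMem_empty k)⟩
  | insert k s _ ih =>
    obtain ⟨c, h1, h2, h3⟩ := ih
    by_cases hk : c * x k ∈ A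
    · exact ⟨c, h1, h2, Finset.forall_mem_insert _ _ _ |>.mpr ⟨hk, h3⟩⟩
    · have hi : (c * x k)⁻¹ ∈ A := (A.mem_or_inv_mem _).resolve_left hk
      have h0 : c * x k ≠ 0 := fun h0 => hk (h0 ▸ zero_mem A)
      refine ⟨(c * x k)⁻¹ * c, mul_ne_zero (inv_ne_zero h0) h1, mul_mem hi h2,
        Finset.forall_mem_insert _ _ _ |>.mpr ⟨?_, fun j hj => ?_⟩⟩
      · rw [mul_assoc, inv_mul_cancel₀ h0]
        exact one_mem A
      · rw [mul_assoc]
        exact mul_mem hi (h3 j hj)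

/-- If `u ^ p` and `v ^ p` are congruent modulo `η ^ p`, then `u` is congruent to `v` times a root
of unity modulo `η`. -/
theorem exists_root_congr {p : ℕ} [Fact p.Prime] {ζ : QBar} (hζ : IsPrimitiveRoot ζ p)
    {u v η : QBar} (h : (u ^ p - v ^ p) / η ^ p ∈ A) :
    ∃ k : Fin p, (u - ζ ^ (k : ℕ) * v) / η ∈ A := by
  classical
  have hp : p.Prime := Fact.out
  by_contra hall
  rw [not_exists] at hall
  rw [hζ.pow_sub_pow_eq_prod_sub_mul u v hp.pos] at h
  have hfac : ∀ μ ∈ Polynomial.nthRootsFinset p (1 : QBar),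
      1 < A.valuation ((u - μ * v) / η) := fun μ hμ => by
    obtain ⟨k, hk, rfl⟩ := hζ.eq_pow_of_pow_eq_one
      ((Polynomial.mem_nthRootsFinset hp.pos _).mp hμ)
    exact not_le.mp fun hle => hall ⟨k, hk⟩ ((A.valuation_le_one_iff _).mp hle)
  have hcard : (Polynomial.nthRootsFinset p (1 : QBar)).card = p := hζ.card_nthRootsFinset
  have hne : (Polynomial.nthRootsFinset p (1 : QBar)).Nonempty := by
    rw [← Finset.card_pos, hcard]; exact hp.pos
  have h1 : 1 < A.valuation (∏ μ ∈ Polynomial.nthRootsFinset p (1 : QBar), (u - μ * v) / η) := by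
    rw [map_prod]
    obtain ⟨μ, hμ⟩ := hne
    rw [← Finset.mul_prod_erase _ _ hμ]
    refine lt_of_lt_of_le (hfac μ hμ) (le_mul_of_one_le_right' ?_)
    exact Finset.one_le_prod' fun ν hν => (hfac ν (Finset.mem_of_mem_erase hν)).le
  rw [Finset.prod_div_distrib, Finset.prod_const, hcard] at h1
  exact absurd ((A.valuation_le_one_iff _).mpr h) (not_le.mpr h1)

/-- Disjoint subspaces give an integral bound: if vectors of the two are congruent modulo `η`, the
first is divisible by `η / c`. -/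
theorem exists_bound {d : ℕ} (V V' : Submodule QBar (Fin d → QBar)) (hVV : V ⊓ V' = ⊥) :
    ∃ c : QBar, c ≠ 0 ∧ c ∈ A ∧ ∀ v ∈ V, ∀ v' ∈ V', ∀ η : QBar,
      (∀ i, (v i - v' i) / η ∈ A) → ∀ i, η = 0 ∨ c * v i / η ∈ A := by
  classical
  have hker : LinearMap.ker (V'.mkQ.comp V.subtype) = ⊥ := by
    refine LinearMap.ker_eq_bot'.mpr fun x hx => ?_
    have h1 : (x : Fin d → QBar) ∈ V ⊓ V' := ⟨x.2, (Submodule.Quotient.mk_eq_zero _).mp hx⟩
    rw [hVV, Submodule.mem_bot] at h1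
    exact Subtype.ext h1
  obtain ⟨L, hL⟩ := LinearMap.exists_leftInverse_of_injective _ hker
  set π : (Fin d → QBar) →ₗ[QBar] (Fin d → QBar) := V.subtype.comp (L.comp V'.mkQ)
  obtain ⟨c, hc0, hcA, hc⟩ := exists_common_den (A := A)
    fun k : Fin d × Fin d => π (Pi.single k.1 1) k.2
  refine ⟨c, hc0, hcA, fun v hv v' hv' η hη i => ?_⟩
  rcases eq_or_ne η 0 with hη0 | hη0
  · exact Or.inl hη0
  refine Or.inr ?_
  have hπ : π (v - v') = v := by
    have h1 : V'.mkQ v' = 0 := (Submodule.Quotient.mk_eq_zero _).mpr hv'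
    show (L (V'.mkQ (v - v')) : Fin d → QBar) = v
    rw [map_sub, h1, sub_zero]
    exact congrArg Subtype.val (LinearMap.congr_fun hL ⟨v, hv⟩)
  have e : c * v i / η =
      ∑ j, ((v j - v' j) / η) * (c * π (Pi.single j 1) i) := by
    conv_lhs => rw [← hπ, pi_eq_sum_univ' (v - v')]
    rw [map_sum, Finset.sum_apply, Finset.mul_sum, Finset.sum_div]
    refine Finset.sum_congr rfl fun j _ => ?_
    rw [map_smul, Pi.smul_apply, Pi.sub_apply, smul_eq_mul]
    field_simp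
  rw [e]
  exact sum_mem fun j _ => mul_mem (hη j) (hc (j, i))

variable {M p : ℕ} [NeZero M] [hp : Fact p.Prime] [NeZero p]

/-- A `p`-th power does not change the class. -/
theorem cls_mul_pow {f q : FB (p * M)} (hf : f ≠ 0) (hq : q ≠ 0)
    (hd : ∀ v : Place QBar (FB (p * M)), (p : ℤ) ∣ v.ord f)
    (hd' : ∀ v : Place QBar (FB (p * M)), (p : ℤ) ∣ v.ord (f * q ^ p)) :
    cls p (mul_ne_zero hf (pow_ne_zero p hq)) hd' = cls p hf hd := by
  have hq' : ∀ v : Place QBar (FB (p * M)), (p : ℤ) ∣ v.ord (q ^ p) := fun v => by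
    rw [FF.ord_pow]; exact dvd_mul_right _ _
  rw [cls_mul hf (pow_ne_zero p hq) hd hq' hd', (cls_eq_zero_iff _ hq').mpr ⟨q, hq, rfl⟩, add_zero]

variable [CharP (Res A) p] [FF.IsFunctionField (Res A) (KM A M)] (h : Setup A M p)

/-- **The criterion.** -/
theorem eq_zero_of_approx {n : ℕ} (hn : GoodDeg h n) (hpn : IsDegree h (p * n))
    {y : JZero (p * M)}
    (H : ∀ δ : QBar, δ ≠ 0 → δ ∈ A.nonunits →
      ∃ (g : FB (p * M)) (hg : g ≠ 0) (hd : ∀ v : Place QBar (FB (p * M)), (p : ℤ) ∣ v.ord g),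
        cls p hg hd = y ∧ Small (loc2 A (iota2 M p h.hqM)) δ (g - 1) ∧
          ∃ (a : FB (p * M)) (ha : IsLat A h.hqM n g a),
            red2 A (iota2 M p h.hqM) ⟨a, ha.1⟩ = 1 ∧ Approx h n δ a) :
    y = 0 := by
  classical
  have hp' : p.Prime := hp.out
  have hR := fun c hc => const_mem_loc2 (A := A) (M := M) (p := p) h (c := c) hc
  have hunit : ∀ {δ : QBar} {g : FB (p * M)}, δ ∈ A.nonunits →
      Small (loc2 A (iota2 M p h.hqM)) δ (g - 1) → HasUnitRed A M p h.hqM g := fun {δ g} hδ hs => by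
    have hm : g ∈ loc2 A (iota2 M p h.hqM) := by
      have := add_mem (hs.mem (hR δ (Arith.mem_of_mem_nonunits hδ))) (one_mem _)
      rwa [sub_add_cancel] at this
    exact ⟨hm, (red2_sub_eq h (x := ⟨g, hm⟩) (y := 1) hδ hs).trans (map_one _)⟩
  -- a normalised representative
  obtain ⟨g₀, hg₀, hd₀, hy₀, hs₀, -⟩ := H p (Nat.cast_ne_zero.mpr hp'.ne_zero) h.hA
  have hu₀ := hunit h.hA hs₀
  obtain ⟨b, hb, hfU, hfN⟩ := exists_normal (h := h) hn.deg (f := Units.mk0 g₀ hg₀) hd₀ hu₀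
  set f : (FB (p * M))ˣ := Units.mk0 g₀ hg₀ * b ^ p with hf
  have hfD : f ∈ JacTorsion.divGrp QBar (FB (p * M)) p :=
    mul_mem (show Units.mk0 g₀ hg₀ ∈ _ from hd₀) (pow_unit_mem_divGrp b)
  have hfe : (f : FB (p * M)) = g₀ * (b : FB (p * M)) ^ p := by
    rw [hf, Units.val_mul, Units.val_pow_eq_pow_val, Units.val_mk0]
  have hfy : cls p f.ne_zero hfD = y := by
    rw [cls_congr hfe f.ne_zero (mul_ne_zero hg₀ (pow_ne_zero p b.ne_zero)) hfD
      (fun v => hfe ▸ hfD v), cls_mul_pow hg₀ b.ne_zero hd₀, hy₀]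
  -- the points and the roots
  obtain ⟨P⟩ := exists_points h (p * n)
  have hnpn : n ≤ p * n := Nat.le_mul_of_pos_left n hp'.pos
  choose r hr using fun i => IsAlgClosed.exists_pow_nat_eq (P.ext i ⟨_, hfU.1⟩) hp'.pos
  have hRep : P.IsRep f r := ⟨hfU, hfD, hr⟩
  obtain ⟨ζ, hζ⟩ := HasEnoughRootsOfUnity.exists_primitiveRoot QBar p
  have hRep1 : ∀ k : Fin P.d → Fin p, P.IsRep 1 fun i => ζ ^ (k i : ℕ) := fun k =>
    ⟨one_mem _, one_mem _, fun i => by
      rw [← pow_mul, mul_comm, pow_mul, hζ.pow_eq_one, one_pow]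
      exact (map_one (P.ext i)).symm⟩
  set V := P.valSpace n f r
  let V' : (Fin P.d → Fin p) → Submodule QBar (Fin P.d → QBar) := fun k =>
    P.valSpace n 1 fun i => ζ ^ (k i : ℕ)
  have hd : 0 < P.d := by
    by_contra hd
    have h1 : ((1 : Bint A M p h.hqM) : FB (p * M)) ∈ HN M p (p * n) := one_mem_polesSpace _ _
    have := P.sep 1 h1 fun i => absurd i.pos hd
    rw [map_one] at this
    exact one_ne_zero (congrFun this 0)
  by_cases hmeet : ∃ k, V ⊓ V' k ≠ ⊥
  · obtain ⟨k, hk⟩ := hmeet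
    obtain ⟨v, ⟨hvV, hvV'⟩, hv0⟩ := Submodule.exists_mem_ne_zero_of_ne_bot hk
    obtain ⟨c, hc0, -, hc⟩ := exists_common_den (A := A) v
    obtain ⟨z, hzB, hzL, hzv⟩ := hRep.exists_section (h := h) hn.deg hnpn
      (Submodule.smul_mem _ c hvV) hc
    obtain ⟨S, hSB, hSL, hSv⟩ := (hRep1 k).exists_section (h := h) hn.deg hnpn
      (Submodule.smul_mem _ c hvV') hc
    set X : Bint A M p h.hqM :=
      ⟨z ^ p * (f : FB (p * M)), mul_mem (pow_mem hzL.1 p) hfU.2.1, p * n, hzL.2⟩ with hX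
    have hSN : S ^ p ∈ HN M p (p * n) := by
      have := hSL.2
      rwa [Units.val_one, mul_one] at this
    set Y : Bint A M p h.hqM := ⟨S ^ p, pow_mem hSL.1 p, p * n, hSN⟩ with hY
    have hXY : X = Y := by
      refine sub_eq_zero.mp (P.eq_zero_of_forall hpn le_rfl _ (sub_mem hzL.2 hSN) fun i => ?_)
      rw [map_sub, sub_eq_zero, ← P.ext_toBloc, ← P.ext_toBloc,
        show toBloc X = (⟨z, hzB⟩ : Bloc A M p h.hqM) ^ p * ⟨(f : FB (p * M)), hfU.1⟩ from rfl,
        show toBloc Y = (⟨S, hSB⟩ : Bloc A M p h.hqM) ^ p from rfl, map_mul, map_pow, map_pow,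
        ← hr i]
      have e1 := congrFun hzv i
      have e2 := congrFun hSv i
      have e3 : (ζ ^ (k i : ℕ)) ^ p = 1 := by
        rw [← pow_mul, mul_comm, pow_mul, hζ.pow_eq_one, one_pow]
      calc P.ext i ⟨z, hzB⟩ ^ p * r i ^ p = (r i * P.ext i ⟨z, hzB⟩) ^ p := by ring
        _ = (ζ ^ (k i : ℕ) * P.ext i ⟨S, hSB⟩) ^ p := by rw [← e1, ← e2]
        _ = P.ext i ⟨S, hSB⟩ ^ p := by rw [mul_pow, e3, one_mul]
    have hz0 : z ≠ 0 := fun h0 => hv0 (funext fun i => by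
      have e1 := congrFun hzv i
      rw [show (⟨z, hzB⟩ : Bloc A M p h.hqM) = 0 from Subtype.ext h0, map_zero, mul_zero,
        Pi.smul_apply, smul_eq_mul, mul_eq_zero] at e1
      exact e1.resolve_left hc0)
    have e : z ^ p * (f : FB (p * M)) = S ^ p := congrArg Subtype.val hXY
    have hS0 : S ≠ 0 := fun h0 => f.ne_zero (by
      rw [h0, zero_pow hp'.ne_zero] at e
      exact (mul_eq_zero.mp e).resolve_left (pow_ne_zero p hz0))
    rw [← hfy]
    refine (cls_eq_zero_iff _ _).mpr ⟨S / z, div_ne_zero hS0 hz0, by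
      rw [div_pow, eq_div_iff (pow_ne_zero p hz0), ← e]; ring⟩
  exfalso
  simp only [not_exists, not_not] at hmeet
  choose c hc0 hcA hc using fun k => exists_bound (A := A) V (V' k) (hmeet k)
  set η : QBar := (p : QBar) * ∏ k, c k with hη
  have hη0 : η ≠ 0 :=
    mul_ne_zero (Nat.cast_ne_zero.mpr hp'.ne_zero) (Finset.prod_ne_zero_iff.mpr fun k _ => hc0 k)
  have hηn : η ∈ A.nonunits := by
    rw [ValuationSubring.mem_nonunits_iff, hη, map_mul]
    exact mul_lt_one_of_lt_of_le (A.mem_nonunits_iff.mp h.hA)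
      ((A.valuation_le_one_iff _).mpr (prod_mem fun k _ => hcA k))
  have hδn : η ^ p ∈ A.nonunits := by
    rw [ValuationSubring.mem_nonunits_iff, map_pow]
    exact pow_lt_one₀ zero_le (A.mem_nonunits_iff.mp hηn) hp'.ne_zero
  obtain ⟨g, hg, hdg, hy, hs, a, ha, ha1, S, hS, hSN, haS⟩ :=
    H (η ^ p) (pow_ne_zero p hη0) hδn
  have hu := hunit hδn hs
  obtain ⟨q, hq0, hgq⟩ := exists_eq_mul_pow hg f.ne_zero hdg hfD (hy.trans hfy.symm)
  have hqU : HasUnitRed A M p h.hqM q := hasUnitRed_of_pow h.hA 1 (by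
    have e : q ^ p ^ 1 = g * ((f⁻¹ : (FB (p * M))ˣ) : FB (p * M)) := by
      rw [pow_one, hgq, mul_assoc, mul_comm (q ^ p), ← mul_assoc, Units.mul_inv, one_mul]
    rw [e]
    exact hu.mul h.hqM ((unitGrp A M p h.hqM).inv_mem hfU).2)
  have hzL : IsLat A h.hqM n (f : FB (p * M)) (a * q) := by
    refine ⟨mul_mem ha.1 hqU.1, ?_⟩
    rw [mul_pow, mul_assoc, mul_comm (q ^ p), ← hgq]
    exact ha.2
  have hzB := hzL.mem_Bloc hfU
  set S' : Bint A M p h.hqM := ⟨S, hS, n, hSN⟩ with hS'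
  have hz1 : red2 A (iota2 M p h.hqM) ⟨a * q, hzL.1⟩ = 1 := by
    rw [show (⟨a * q, hzL.1⟩ : loc2 A (iota2 M p h.hqM)) = ⟨a, ha.1⟩ * ⟨q, hqU.1⟩ from rfl,
      map_mul, ha1, hqU.2, one_mul]
  -- the congruence of the powers
  set X : Bint A M p h.hqM :=
    ⟨(a * q) ^ p * (f : FB (p * M)), mul_mem (pow_mem hzL.1 p) hfU.2.1, p * n, hzL.2⟩ with hX
  obtain ⟨w, hw, ew⟩ : Small (loc2 A (iota2 M p h.hqM)) (η ^ p) ((X : FB (p * M)) - S ^ p) := by
    have h1 := (hs.mul_left (pow_mem ha.1 p)).add (Small.pow_sub ha.1 hS haS p)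
    convert h1 using 1
    show (a * q) ^ p * (f : FB (p * M)) - S ^ p = _
    rw [hgq]
    ring
  have hSp : S ^ p ∈ HN M p (p * n) := pow_mem_poles hSN p
  have hwN : w ∈ HN M p (p * n) := by
    have h1 := Submodule.smul_mem (HN M p (p * n)) (η ^ p)⁻¹ (sub_mem hzL.2 hSp)
    rwa [show (a * q) ^ p * (f : FB (p * M)) - S ^ p = (X : FB (p * M)) - S ^ p from rfl, ew,
      Algebra.smul_def, ← mul_assoc, ← map_mul, inv_mul_cancel₀ (pow_ne_zero p hη0), map_one,
      one_mul] at h1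
  set W : Bint A M p h.hqM := ⟨w, hw, p * n, hwN⟩
  have hval : ∀ i, (r i * P.ext i ⟨a * q, hzB⟩) ^ p - P.s i S' ^ p = η ^ p * P.s i W := fun i => by
    have e1 : X - S' ^ p = constB A M p h.hqM ⟨η ^ p, Arith.mem_of_mem_nonunits hδn⟩ * W :=
      Subtype.ext ew
    have e2 := congrArg (P.s i) e1
    rw [map_sub, map_mul, map_pow, P.const] at e2
    rw [← e2, ← P.ext_toBloc i X, show toBloc X =
      (⟨a * q, hzB⟩ : Bloc A M p h.hqM) ^ p * ⟨(f : FB (p * M)), hfU.1⟩ from rfl, map_mul,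
      map_pow, ← hr i]
    ring
  have hroot : ∀ i, ∃ k : Fin p,
      (r i * P.ext i ⟨a * q, hzB⟩ - ζ ^ (k : ℕ) * P.s i S') / η ∈ A := fun i =>
    exists_root_congr hζ (by
      rw [hval, mul_div_cancel_left₀ _ (pow_ne_zero p hη0)]
      exact P.mem i W)
  choose k hk using hroot
  have hv : (fun i => r i * P.ext i ⟨a * q, hzB⟩) ∈ V :=
    Submodule.subset_span ⟨_, hzB, hzL, rfl⟩
  have hv' : (fun i => ζ ^ (k i : ℕ) * P.s i S') ∈ V' k :=
    Submodule.subset_span ⟨S, coe_mem_Bloc S',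
      by rw [Units.val_one]; exact isLat_one h hS hSN,
      funext fun i => by rw [← P.ext_toBloc]; rfl⟩
  obtain h0 | h0 := hc k _ hv _ hv' η hk ⟨0, hd⟩
  · exact hη0 h0
  set i₀ : Fin P.d := ⟨0, hd⟩
  have hone : A.valuation (r i₀ * P.ext i₀ ⟨a * q, hzB⟩) = 1 := by
    obtain ⟨hrA, hr1⟩ := hRep.residue i₀
    have h1 := P.residue_ext i₀ ⟨a * q, hzB⟩ hzL.1 (u := 1) (by rw [map_one]; exact hz1.symm ▸ rfl)
    have hm := mul_mem hrA (P.ext_mem i₀ ⟨a * q, hzB⟩)
    refine le_antisymm ((A.valuation_le_one_iff _).mpr hm) (not_lt.mp fun hlt => ?_)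
    have h2 := (Semistable.residue_eq_zero_iff hm).mpr (A.mem_nonunits_iff.mpr hlt)
    rw [show (⟨_, hm⟩ : A) = ⟨r i₀, hrA⟩ * ⟨_, P.ext_mem i₀ ⟨a * q, hzB⟩⟩ from rfl, map_mul,
      hr1, one_mul, h1, show (⟨P.s i₀ 1, P.mem i₀ 1⟩ : A) = 1 from Subtype.ext (map_one _),
      map_one] at h2
    exact one_ne_zero h2
  have h1 := (A.valuation_le_one_iff _).mpr h0
  rw [map_div₀, map_mul, hone, mul_one, hη, map_mul, map_prod,
    ← Finset.mul_prod_erase _ _ (Finset.mem_univ k)] at h1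
  have hck : 0 < A.valuation (c k) := zero_lt_iff.mpr ((Valuation.ne_zero_iff _).mpr (hc0 k))
  have hlt : A.valuation (p : QBar) *
      (A.valuation (c k) * ∏ x ∈ Finset.univ.erase k, A.valuation (c x)) < A.valuation (c k) := by
    calc _ ≤ A.valuation (p : QBar) * A.valuation (c k) := mul_le_mul' le_rfl
          (mul_le_of_le_one_right' (Finset.prod_le_one' fun x _ =>
            (A.valuation_le_one_iff _).mpr (hcA x)))
      _ < _ := mul_lt_of_lt_one_left hck (A.mem_nonunits_iff.mp h.hA)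
  rw [div_le_one₀ (zero_lt_iff.mpr ?_)] at h1
  · exact absurd h1 (not_le.mpr hlt)
  · exact mul_ne_zero ((Valuation.ne_zero_iff _).mpr (Nat.cast_ne_zero.mpr hp'.ne_zero))
      (mul_ne_zero hck.ne' (Finset.prod_ne_zero_iff.mpr fun x _ =>
        (Valuation.ne_zero_iff _).mpr (hc0 x)))

end Fermat.Agent.RT.Lift.LowerP

end
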